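import Mathlib

/-!
# Function fields of one variable: exchange lemma (helper12, for P-GENUS GEN-2 / GEN-3)

If `F` is finite over `K⟮x⟯` then `F` is finite over `K⟮z⟯` for every `z : F` transcendental
over `K`.
-/

set_option autoImplicit false
set_option linter.unusedSectionVars false
set_option linter.style.haveILetI false
set_option linter.unusedVariables false

namespace Fermat.Agent.H12

open IntermediateField

section

variable {K F : Type} [Field K] [Field F] [Algebra K F]

open scoped IntermediateField.algebraAdjoinAdjoin in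
/-- `trdeg K F ≤ 1` when `F` is algebraic over `K⟮x⟯`. -/
lemma trdeg_le_one_of_isAlgebraic_adjoin_simple (x : F) [Algebra.IsAlgebraic K⟮x⟯ F] :
    Algebra.trdeg K F ≤ 1 := by
  haveI h2 : Algebra.IsAlgebraic (Algebra.adjoin K {x}) F :=
    Algebra.IsAlgebraic.trans (Algebra.adjoin K {x}) K⟮x⟯ F
  refine (Algebra.IsAlgebraic.trdeg_le_cardinalMk K ({x} : Set F)).trans ?_
  simp

/-- Exchange: `F` is algebraic over `K⟮z⟯` for every transcendental `z`. -/
lemma isAlgebraic_adjoin_simple_of_transcendental (x : F) [Algebra.IsAlgebraic K⟮x⟯ F]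
    (z : F) (hz : Transcendental K z) : Algebra.IsAlgebraic K⟮z⟯ F := by
  have h3 := trdeg_le_one_of_isAlgebraic_adjoin_simple (K := K) x
  have h4 : AlgebraicIndependent K (fun _ : Unit => z) :=
    algebraicIndependent_unique_type_iff.2 hz
  have h5 : IsTranscendenceBasis K (fun _ : Unit => z) :=
    h4.isTranscendenceBasis_of_trdeg_le_of_finite (by simpa using h3)
  have h6 := h5.isAlgebraic_field
  have h7 : Set.range (fun _ : Unit => z) = {z} := by simp
  rw [h7] at h6
  exact h6

/-- Exchange, finite-dimensional form. -/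
lemma finiteDimensional_adjoin_simple_of_transcendental (x : F) [FiniteDimensional K⟮x⟯ F]
    (z : F) (hz : Transcendental K z) : FiniteDimensional K⟮z⟯ F := by
  haveI := isAlgebraic_adjoin_simple_of_transcendental (K := K) x z hz
  haveI e1 : Algebra.EssFiniteType K K⟮x⟯ :=
    IntermediateField.essFiniteType_iff.2 ⟨{x}, by simp⟩
  haveI e3 : Algebra.EssFiniteType K F := Algebra.EssFiniteType.comp K K⟮x⟯ F
  haveI e4 : Algebra.EssFiniteType K⟮z⟯ F := Algebra.EssFiniteType.of_comp K K⟮z⟯ F
  exact Algebra.finite_of_essFiniteType_of_isAlgebraic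

/-- Over an algebraically closed field, an algebraic element of an extension field is a
constant. -/
lemma exists_algebraMap_eq_of_isAlgebraic [IsAlgClosed K] {f : F} (hf : IsAlgebraic K f) :
    ∃ c : K, algebraMap K F c = f := by
  haveI : Algebra.IsAlgebraic K K⟮f⟯ := IntermediateField.isAlgebraic_adjoin_simple hf.isIntegral
  have h := IntermediateField.eq_bot_of_isAlgClosed_of_isAlgebraic K⟮f⟯
  have hf' : f ∈ K⟮f⟯ := IntermediateField.mem_adjoin_simple_self K f
  rw [h] at hf'
  exact IntermediateField.mem_bot.1 hf'

lemma adjoin_simple_inv (f : F) : K⟮f⁻¹⟯ = K⟮f⟯ := by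
  apply le_antisymm
  · rw [IntermediateField.adjoin_simple_le_iff]
    exact inv_mem (IntermediateField.mem_adjoin_simple_self K f)
  · rw [IntermediateField.adjoin_simple_le_iff]
    have := inv_mem (IntermediateField.mem_adjoin_simple_self K f⁻¹)
    rwa [inv_inv] at this

end

end Fermat.Agent.H12
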