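import Fermat.Agent.H23.BlueprintRH
import Fermat.Agent.H12.FunctionFieldBasics
import Fermat.Prelude.Def_AlgebraicCurve_Repartitions

/-!
# GEN-2 (P-GENUS): principal divisors have degree zero (given the fundamental identity)
-/

set_option autoImplicit false
set_option linter.unusedSectionVars false
set_option linter.style.haveILetI false
set_option linter.unusedVariables false

noncomputable section

open AlgebraicCurve KaehlerDifferential IntermediateField

namespace Fermat.Agent.H12

section

variable {K F : Type} [Field K] [Field F] [Algebra K F]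

/-- Nonzero constants have order zero at every place. -/
lemma ord_algebraMap (v : Place K F) (c : K) : v.ord (algebraMap K F c) = 0 := by
  rcases eq_or_ne c 0 with rfl | hc
  · simp
  have h1 := v.adicValuation_algebraMap_le_one c
  have h2 := v.adicValuation_algebraMap_le_one c⁻¹
  have hne : algebraMap K F c ≠ 0 := by simpa using hc
  rw [Place.adicValuation_le_one_iff] at h1 h2
  have h1' : 0 ≤ v.ord (algebraMap K F c) := h1.resolve_left hne
  have h2' : 0 ≤ v.ord (algebraMap K F c⁻¹) := h2.resolve_left (by simpa using hc)
  rw [map_inv₀, Place.ord_inv] at h2'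
  omega

/-- degree of a divisor when all places have degree one -/
lemma degree_eq_sum_of_deg_eq_one (hdeg : ∀ v : Place K F, v.deg = 1) (D : Divisor K F) :
    Divisor.degree D = ∑ v ∈ D.support, D v := by
  simp only [Divisor.degree, Finsupp.liftAddHom_apply, Finsupp.sum, AddMonoidHom.mulRight_apply,
    hdeg, Nat.cast_one, mul_one]

end

theorem principalDegree (h1 : Fermat.Agent.H23.FundamentalIdentityStatement) :
    Fermat.Agent.H23.PrincipalDegreeStatement := by
  classical
  intro K F _ _ _ _ _ x hx hfin f hf D hD
  by_cases hfa : IsAlgebraic K f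
  · obtain ⟨c, rfl⟩ := exists_algebraMap_eq_of_isAlgebraic hfa
    have : D = 0 := by
      ext v
      rw [hD v, ord_algebraMap]
      rfl
    rw [this, map_zero]
  · have hft : Transcendental K f := hfa
    haveI := hfin
    have hfinf : FiniteDimensional K⟮f⟯ F :=
      finiteDimensional_adjoin_simple_of_transcendental x f hft
    have hft' : Transcendental K f⁻¹ := by
      intro h
      apply hfa
      have := h.inv
      rwa [inv_inv] at this
    have hfinf' : FiniteDimensional K⟮f⁻¹⟯ F :=
      finiteDimensional_adjoin_simple_of_transcendental x f⁻¹ hft'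
    obtain ⟨hdeg, hfinP, hsumP⟩ := h1 K F f hft hfinf
    obtain ⟨-, hfinN, hsumN⟩ := h1 K F f⁻¹ hft' hfinf'
    have hrank : Module.finrank K⟮f⁻¹⟯ F = Module.finrank K⟮f⟯ F := by
      rw [adjoin_simple_inv]
    rw [hrank] at hsumN
    rw [degree_eq_sum_of_deg_eq_one hdeg]
    -- split the support
    have hpos : {v : Place K F | 0 < v.ord f} = ↑(D.support.filter fun v => 0 < D v) := by
      ext v
      simp only [Set.mem_ofPred_eq, Finset.coe_filter, Finsupp.mem_support_iff, hD v]
      constructor
      · intro h; exact ⟨by omega, h⟩
      · intro h; exact h.2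
    have hneg : {v : Place K F | 0 < v.ord f⁻¹} = ↑(D.support.filter fun v => D v < 0) := by
      ext v
      simp only [Set.mem_ofPred_eq, Finset.coe_filter, Finsupp.mem_support_iff, hD v,
        Place.ord_inv]
      constructor
      · intro h; exact ⟨by omega, by omega⟩
      · intro h; omega
    rw [hpos, finsum_mem_coe_finset] at hsumP
    rw [hneg, finsum_mem_coe_finset] at hsumN
    have hsplit : ∑ v ∈ D.support, D v =
        ∑ v ∈ D.support.filter (fun v => 0 < D v), D v +
          ∑ v ∈ D.support.filter (fun v => D v < 0), D v := by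
      rw [← Finset.sum_filter_add_sum_filter_not D.support (fun v => 0 < D v)]
      congr 1
      refine Finset.sum_congr ?_ fun _ _ => rfl
      ext v
      simp only [Finset.mem_filter, Finsupp.mem_support_iff, not_lt]
      constructor
      · rintro ⟨h1, h2⟩; exact ⟨h1, by omega⟩
      · rintro ⟨h1, h2⟩; exact ⟨h1, by omega⟩
    rw [hsplit]
    have e1 : ∑ v ∈ D.support.filter (fun v => 0 < D v), D v = (Module.finrank K⟮f⟯ F : ℤ) := by
      rw [← hsumP]
      exact Finset.sum_congr rfl fun v _ => hD v
    have e2 : ∑ v ∈ D.support.filter (fun v => D v < 0), D v = -(Module.finrank K⟮f⟯ F : ℤ) := by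
      rw [← hsumN, ← Finset.sum_neg_distrib]
      refine Finset.sum_congr rfl fun v _ => ?_
      rw [Place.ord_inv, neg_neg, hD v]
    rw [e1, e2]
    ring

end Fermat.Agent.H12
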