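import Fermat.Agent.H23.BlueprintRH
import Fermat.Agent.H12.Gen2

/-!
# GEN-3 (P-GENUS): Kähler differentials of a function field of one variable
-/

set_option autoImplicit false
set_option linter.unusedSectionVars false
set_option linter.style.haveILetI false
set_option linter.unusedVariables false

noncomputable section

open AlgebraicCurve KaehlerDifferential IntermediateField

namespace Fermat.Agent.H12

section

variable {K F : Type} [Field K] [Field F] [Algebra K F]

/-- The set of `u` with `D u ∈ F • D z` contains `K⟮z⟯`. -/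
lemma D_mem_span_of_mem_adjoin_simple (z : F) {c : F} (hc : c ∈ K⟮z⟯) :
    D K F c ∈ Submodule.span F {D K F z} := by
  rw [IntermediateField.mem_adjoin_simple_iff] at hc
  obtain ⟨p, q, rfl⟩ := hc
  rw [Derivation.leibniz_div]
  refine Submodule.smul_mem _ _ (Submodule.sub_mem _ (Submodule.smul_mem _ _ ?_)
    (Submodule.smul_mem _ _ ?_))
  · rw [Derivation.map_aeval]
    exact Submodule.smul_mem _ _ (Submodule.mem_span_singleton_self _)
  · rw [Derivation.map_aeval]
    exact Submodule.smul_mem _ _ (Submodule.mem_span_singleton_self _)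

/-- If `F` is algebraic over `K⟮z⟯` (char. 0), then `D z` spans `Ω[F⁄K]`. -/
lemma span_D_eq_top_of_isAlgebraic [CharZero K] (z : F) [Algebra.IsAlgebraic K⟮z⟯ F] :
    Submodule.span F {D K F z} = ⊤ := by
  haveI : CharZero K⟮z⟯ := charZero_of_injective_algebraMap (algebraMap K K⟮z⟯).injective
  haveI : Algebra.IsSeparable K⟮z⟯ F := Algebra.IsAlgebraic.isSeparable_of_perfectField
  haveI : Algebra.FormallyUnramified K⟮z⟯ F := Algebra.FormallyUnramified.of_isSeparable K⟮z⟯ F
  have claim : ∀ t : TensorProduct K⟮z⟯ F Ω[K⟮z⟯⁄K],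
      KaehlerDifferential.mapBaseChange K K⟮z⟯ F t ∈ Submodule.span F {D K F z} := by
    intro t
    induction t using TensorProduct.induction_on with
    | zero => simp
    | tmul b y =>
      rw [KaehlerDifferential.mapBaseChange_tmul]
      refine Submodule.smul_mem _ _ ?_
      have hy : y ∈ Submodule.span K⟮z⟯ (Set.range (D K K⟮z⟯)) := by
        rw [KaehlerDifferential.span_range_derivation]; trivial
      refine Submodule.span_induction ?_ ?_ ?_ ?_ hy
      · rintro _ ⟨c, rfl⟩
        rw [KaehlerDifferential.map_D]
        exact D_mem_span_of_mem_adjoin_simple z c.2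
      · simp
      · intro u w _ _ hu hw
        rw [map_add]
        exact Submodule.add_mem _ hu hw
      · intro a u _ hu
        rw [map_smul, ← algebraMap_smul F a]
        exact Submodule.smul_mem _ _ hu
    | add u w hu hw =>
      rw [map_add]
      exact Submodule.add_mem _ hu hw
  rw [eq_top_iff]
  intro ω _
  have hω : KaehlerDifferential.map K K⟮z⟯ F F ω = 0 := Subsingleton.elim _ _
  obtain ⟨t, rfl⟩ := (KaehlerDifferential.exact_mapBaseChange_map K K⟮z⟯ F ω).1 hω
  exact claim t

end

theorem kaehler : Fermat.Agent.H23.KaehlerStatement := by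
  intro K F _ _ _ _ _ x hx hfin
  haveI := hfin
  have key : ∀ z : F, Transcendental K z → ∀ ω : Ω[F⁄K], ∃ f : F, ω = f • D K F z := by
    intro z hz ω
    haveI := isAlgebraic_adjoin_simple_of_transcendental (K := K) x z hz
    have h := span_D_eq_top_of_isAlgebraic (K := K) z
    have hω : ω ∈ Submodule.span F {D K F z} := by rw [h]; trivial
    obtain ⟨f, hf⟩ := Submodule.mem_span_singleton.1 hω
    exact ⟨f, hf.symm⟩
  refine ⟨key, ?_⟩
  intro v ω
  -- the uniformizer used in `dCoord`
  obtain ⟨π, hπ, hd⟩ : ∃ π : F, v.ord π = 1 ∧ v.dCoord = D K F π := by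
    refine ⟨((IsDiscreteValuationRing.exists_irreducible v.toValuationSubring).choose : F),
      ?_, rfl⟩
    exact v.ord_coe_irreducible
      (IsDiscreteValuationRing.exists_irreducible v.toValuationSubring).choose_spec
  have hπt : Transcendental K π := by
    intro halg
    obtain ⟨c, rfl⟩ := exists_algebraMap_eq_of_isAlgebraic halg
    rw [ord_algebraMap] at hπ
    exact zero_ne_one hπ
  rw [hd]
  exact key π hπt ω

end Fermat.Agent.H12
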