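import Mathlib
import Fermat.Prelude.Def_GaloisRep_DeformationCondition

/-!
# DEF-D (P-DEFRING): Artinian test algebras over a ring with finite residue field are finite
-/

set_option autoImplicit false

namespace Fermat.Agent.H12

open IsLocalRing

theorem finite_of_test (O A : Type) [CommRing O] [IsLocalRing O]
    [Finite (IsLocalRing.ResidueField O)] [CommRing A] [IsLocalRing A] [Algebra O A]
    (h : GaloisRep.IsArtinianTestAlgebra O A) : Finite A := by
  have := h.isArtinian
  have := h.isLocalHom
  -- the residue field of `A` is finite
  have hsurj : Function.Surjective (ResidueField.map (algebraMap O A)) := by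
    intro x
    obtain ⟨o, ho⟩ := h.residue_surjective x
    exact ⟨IsLocalRing.residue O o, by simpa [ResidueField.map_residue] using ho⟩
  have : Finite (ResidueField A) := Finite.of_surjective _ hsurj
  have : Finite (A ⧸ maximalIdeal A) := ‹Finite (ResidueField A)›
  obtain ⟨n, hn⟩ := IsArtinianRing.isNilpotent_jacobson_bot (R := A)
  rw [IsLocalRing.jacobson_eq_maximalIdeal ⊥ bot_ne_top] at hn
  have : Finite (A ⧸ maximalIdeal A ^ n) :=
    Ideal.finite_quotient_pow (IsNoetherian.noetherian _) n
  refine Finite.of_injective (Ideal.Quotient.mk (maximalIdeal A ^ n)) ?_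
  rw [injective_iff_map_eq_zero]
  intro a ha
  rw [Ideal.Quotient.eq_zero_iff_mem, hn] at ha
  simpa using ha

end Fermat.Agent.H12
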