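import Mathlib
import Fermat.Agent.H78.ARTDefs2
import Fermat.Agent.H12.DefD

/-!
# H78-ART-1 (P-DEFRING): basic properties of admissible ideals

`admissible_of_le`, `admissible_baseIdeal`, `Admissible.le_baseIdeal`,
`Admissible.exists_pow_le`, `Admissible.maximalIdeal_eq` (ART-1cde),
`admissible_ker_aeval` (ART-1b), `admissible_inf` (ART-1a).
-/

set_option autoImplicit false
set_option linter.unusedSectionVars false
set_option linter.style.haveILetI false
set_option linter.unusedVariables false

noncomputable section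

namespace Fermat.Agent.H12

open IsLocalRing Fermat.Agent.H78

section general

variable {O : Type} [CommRing O] [IsLocalRing O]

/-- If `Q → A` is an `O`-algebra hom and `O → A` is local, then `O → Q` is local. -/
lemma isLocalHom_algebraMap_of_algHom {Q A : Type} [CommRing Q] [CommRing A]
    [Algebra O Q] [Algebra O A] (φ : Q →ₐ[O] A) (h : IsLocalHom (algebraMap O A)) :
    IsLocalHom (algebraMap O Q) := by
  constructor
  intro o ho
  have h1 : IsUnit (algebraMap O A o) := by
    rw [← φ.commutes]; exact ho.map φ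
  exact h.map_nonunit o h1

/-- If `Q → A` is an `O`-algebra hom of local rings and `O → A → k_A` is surjective, then
`O → Q → k_Q` is surjective. -/
lemma residue_surjective_of_algHom {Q A : Type} [CommRing Q] [IsLocalRing Q] [CommRing A]
    [IsLocalRing A] [Algebra O Q] [Algebra O A] (φ : Q →ₐ[O] A)
    (h : Function.Surjective (IsLocalRing.residue A ∘ algebraMap O A)) :
    Function.Surjective (IsLocalRing.residue Q ∘ algebraMap O Q) := by
  intro y
  obtain ⟨q, rfl⟩ := IsLocalRing.residue_surjective y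
  obtain ⟨o, ho⟩ := h (IsLocalRing.residue A (φ q))
  refine ⟨o, ?_⟩
  simp only [Function.comp_apply] at ho ⊢
  rw [← sub_eq_zero, ← map_sub, residue_eq_zero_iff, mem_maximalIdeal, mem_nonunits_iff]
  intro hu
  have hu' := hu.map φ
  rw [map_sub, φ.commutes] at hu'
  have h2 : algebraMap O A o - φ q ∈ maximalIdeal A := by
    rw [← residue_eq_zero_iff, map_sub, ho, sub_self]
  exact h2 hu'

/-- An injective ring hom into a finite ring reflects units. -/
lemma isUnit_of_isUnit_map_of_finite {Q A : Type} [CommRing Q] [CommRing A] [Finite A]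
    (φ : Q →+* A) (hφ : Function.Injective φ) {y : Q} (h : IsUnit (φ y)) : IsUnit y := by
  obtain ⟨u, hu⟩ := h
  obtain ⟨n, hn, hpow⟩ := isOfFinOrder_iff_pow_eq_one.1 (isOfFinOrder_of_finite u)
  have h1 : φ (y ^ n) = φ 1 := by
    rw [map_pow, ← hu, ← Units.val_pow_eq_pow_val, hpow, Units.val_one, map_one]
  have h2 : y ^ n = 1 := hφ h1
  have h3 : y * y ^ (n - 1) = 1 := by
    rw [← pow_succ', Nat.sub_add_cancel hn, h2]
  exact IsUnit.of_mul_eq_one _ h3

/-- A local `O`-algebra `Q` admitting an `O`-algebra hom to an Artinian test algebra and which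
is finite is an Artinian test algebra. -/
lemma isArtinianTestAlgebra_of_algHom {Q A : Type} [CommRing Q] [IsLocalRing Q] [CommRing A]
    [IsLocalRing A] [Algebra O Q] [Algebra O A] (φ : Q →ₐ[O] A)
    (hA : GaloisRep.IsArtinianTestAlgebra O A) (hQ : IsArtinianRing Q) :
    GaloisRep.IsArtinianTestAlgebra O Q :=
  ⟨isLocalHom_algebraMap_of_algHom φ hA.isLocalHom,
    residue_surjective_of_algHom φ hA.residue_surjective, hQ⟩

end general

section admissible

variable {O : Type} [CommRing O] [IsDomain O] [IsDiscreteValuationRing O]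
  [IsAdicComplete (maximalIdeal O) O] [Finite (ResidueField O)] {X : Type} {c : X → O}
  {P : PointPred O X}

/-- The residue field of `O` is an Artinian test algebra. -/
lemma isArtinianTestAlgebra_residueField :
    GaloisRep.IsArtinianTestAlgebra O (ResidueField O) where
  isLocalHom := by
    rw [ResidueField.algebraMap_eq]; infer_instance
  residue_surjective :=
    (IsLocalRing.residue_surjective (R := ResidueField O)).comp
      (by rw [ResidueField.algebraMap_eq]; exact IsLocalRing.residue_surjective)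
  isArtinian := inferInstance

/-- Key formula: the residue class of `mk p` in the residue field of `Π ⧸ 𝔞` is the image of
the value of `p` at the base point. -/
lemma residue_mk_eq (hP : IsProRepresentablePred O c P) {a : Ideal (MvPolynomial X O)}
    [IsLocalRing (MvPolynomial X O ⧸ a)]
    (htest : GaloisRep.IsArtinianTestAlgebra O (MvPolynomial X O ⧸ a)) (hPa : P (taut a))
    (p : MvPolynomial X O) :
    haveI := htest.isLocalHom
    IsLocalRing.residue (MvPolynomial X O ⧸ a) (Ideal.Quotient.mk a p) =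
      ResidueField.map (algebraMap O (MvPolynomial X O ⧸ a))
        (MvPolynomial.aeval (fun f => algebraMap O (ResidueField O) (c f)) p) := by
  haveI := htest.isLocalHom
  have h := MvPolynomial.ringHom_ext
    (f := (IsLocalRing.residue (MvPolynomial X O ⧸ a)).comp (Ideal.Quotient.mk a))
    (g := (ResidueField.map (algebraMap O (MvPolynomial X O ⧸ a))).comp
      (MvPolynomial.aeval (fun f => algebraMap O (ResidueField O) (c f)) :
        MvPolynomial X O →ₐ[O] ResidueField O).toRingHom) ?_ ?_
  · exact congrArg (fun φ => φ p) h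
  · intro r
    simp only [RingHom.coe_comp, Function.comp_apply, AlgHom.toRingHom_eq_coe, RingHom.coe_coe,
      MvPolynomial.aeval_C, ResidueField.algebraMap_eq, ResidueField.map_residue]
    rfl
  · intro f
    simp only [RingHom.coe_comp, Function.comp_apply, AlgHom.toRingHom_eq_coe, RingHom.coe_coe,
      MvPolynomial.aeval_X, ResidueField.algebraMap_eq, ResidueField.map_residue]
    rw [← sub_eq_zero, ← map_sub, residue_eq_zero_iff]
    exact hP.red (taut a) hPa f

lemma mk_mem_maximalIdeal_iff (hP : IsProRepresentablePred O c P)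
    {a : Ideal (MvPolynomial X O)} [IsLocalRing (MvPolynomial X O ⧸ a)]
    (htest : GaloisRep.IsArtinianTestAlgebra O (MvPolynomial X O ⧸ a)) (hPa : P (taut a))
    (p : MvPolynomial X O) :
    Ideal.Quotient.mk a p ∈ maximalIdeal (MvPolynomial X O ⧸ a) ↔ p ∈ baseIdeal c := by
  haveI := htest.isLocalHom
  rw [← residue_eq_zero_iff, residue_mk_eq hP htest hPa p,
    map_eq_zero_iff _ (RingHom.injective _), baseIdeal, RingHom.mem_ker]

theorem Admissible.le_baseIdeal (hP : IsProRepresentablePred O c P)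
    {a : Ideal (MvPolynomial X O)} (ha : Admissible P a) : a ≤ baseIdeal c := by
  obtain ⟨hloc, htest, hPa⟩ := ha
  intro p hp
  rw [← mk_mem_maximalIdeal_iff hP htest hPa p, Ideal.Quotient.eq_zero_iff_mem.2 hp]
  exact Ideal.zero_mem _

theorem Admissible.maximalIdeal_eq (hP : IsProRepresentablePred O c P)
    {a : Ideal (MvPolynomial X O)} (ha : Admissible P a) :
    letI := ha.choose
    maximalIdeal (MvPolynomial X O ⧸ a) = (baseIdeal c).map (Ideal.Quotient.mk a) := by
  obtain ⟨hloc, htest, hPa⟩ := ha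
  change maximalIdeal (MvPolynomial X O ⧸ a) = (baseIdeal c).map (Ideal.Quotient.mk a)
  ext y
  obtain ⟨p, rfl⟩ := Ideal.Quotient.mk_surjective y
  rw [mk_mem_maximalIdeal_iff hP htest hPa p]
  constructor
  · intro hp
    exact Ideal.mem_map_of_mem _ hp
  · intro hp
    rw [Ideal.mem_map_iff_of_surjective _ Ideal.Quotient.mk_surjective] at hp
    obtain ⟨q, hq, hqp⟩ := hp
    have h1 : p - q ∈ a := by
      rw [← Ideal.Quotient.eq_zero_iff_mem, map_sub, hqp, sub_self]
    have h2 := Admissible.le_baseIdeal hP ⟨hloc, htest, hPa⟩ h1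
    have : p = (p - q) + q := by ring
    rw [this]
    exact Ideal.add_mem _ h2 hq

theorem Admissible.exists_pow_le (hP : IsProRepresentablePred O c P)
    {a : Ideal (MvPolynomial X O)} (ha : Admissible P a) :
    ∃ n : ℕ, baseIdeal c ^ (n + 1) ≤ a := by
  have hmax := Admissible.maximalIdeal_eq hP ha
  obtain ⟨hloc, htest, hPa⟩ := ha
  change maximalIdeal (MvPolynomial X O ⧸ a) = (baseIdeal c).map (Ideal.Quotient.mk a) at hmax
  haveI := htest.isArtinian
  obtain ⟨n, hn⟩ := IsArtinianRing.isNilpotent_jacobson_bot (R := MvPolynomial X O ⧸ a)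
  rw [IsLocalRing.jacobson_eq_maximalIdeal ⊥ bot_ne_top] at hn
  refine ⟨n, fun p hp => ?_⟩
  have h1 : Ideal.Quotient.mk a p ∈ ((baseIdeal c).map (Ideal.Quotient.mk a)) ^ (n + 1) := by
    rw [← Ideal.map_pow]
    exact Ideal.mem_map_of_mem _ hp
  rw [← hmax] at h1
  have h2 := Ideal.pow_le_pow_right (I := maximalIdeal (MvPolynomial X O ⧸ a)) (Nat.le_succ n) h1
  rw [hn] at h2
  exact Ideal.Quotient.eq_zero_iff_mem.1 ((Submodule.mem_bot _).1 h2)

theorem admissible_of_le (hP : IsProRepresentablePred O c P)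
    {a b : Ideal (MvPolynomial X O)} (ha : Admissible P a) (hab : a ≤ b) (hb : b ≠ ⊤) :
    Admissible P b := by
  obtain ⟨hloc, htest, hPa⟩ := ha
  haveI : Nontrivial (MvPolynomial X O ⧸ b) := Ideal.Quotient.nontrivial_iff.2 hb
  let φ : (MvPolynomial X O ⧸ a) →ₐ[O] (MvPolynomial X O ⧸ b) := Ideal.Quotient.factorₐ O hab
  have hφs : Function.Surjective (φ : (MvPolynomial X O ⧸ a) →+* (MvPolynomial X O ⧸ b)) :=
    Ideal.Quotient.factor_surjective hab
  haveI hlocb : IsLocalRing (MvPolynomial X O ⧸ b) :=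
    IsLocalRing.of_surjective' (φ : (MvPolynomial X O ⧸ a) →+* (MvPolynomial X O ⧸ b)) hφs
  have hφloc : IsLocalHom (φ : (MvPolynomial X O ⧸ a) →+* (MvPolynomial X O ⧸ b)) :=
    IsLocalHom.of_surjective _ hφs
  haveI := htest.isArtinian
  have hart : IsArtinianRing (MvPolynomial X O ⧸ b) :=
    Function.Surjective.isArtinianRing hφs
  have htestb : GaloisRep.IsArtinianTestAlgebra O (MvPolynomial X O ⧸ b) := by
    refine ⟨?_, ?_, hart⟩
    · constructor
      intro o ho
      have := htest.isLocalHom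
      by_contra hnu
      have h1 : algebraMap O (MvPolynomial X O ⧸ a) o ∈ maximalIdeal (MvPolynomial X O ⧸ a) := by
        rw [mem_maximalIdeal, mem_nonunits_iff]
        intro hu
        exact hnu (this.map_nonunit o hu)
      have h2 : φ (algebraMap O (MvPolynomial X O ⧸ a) o) ∈
          maximalIdeal (MvPolynomial X O ⧸ b) := by
        rw [mem_maximalIdeal, mem_nonunits_iff]
        intro hu
        exact h1 (hφloc.map_nonunit _ hu)
      rw [φ.commutes] at h2
      exact h2 ho
    · intro y
      obtain ⟨q, rfl⟩ := IsLocalRing.residue_surjective y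
      obtain ⟨q', rfl⟩ := hφs q
      obtain ⟨o, ho⟩ := htest.residue_surjective (IsLocalRing.residue _ q')
      refine ⟨o, ?_⟩
      simp only [Function.comp_apply] at ho ⊢
      rw [← sub_eq_zero, ← map_sub, residue_eq_zero_iff] at ho ⊢
      have h3 : φ (algebraMap O (MvPolynomial X O ⧸ a) o - q') ∈
          maximalIdeal (MvPolynomial X O ⧸ b) := by
        rw [mem_maximalIdeal, mem_nonunits_iff]
        intro hu
        exact ho (hφloc.map_nonunit _ hu)
      rw [map_sub, φ.commutes] at h3
      exact h3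
  refine ⟨hlocb, htestb, ?_⟩
  exact hP.push htest htestb φ hφloc (taut a) hPa

theorem admissible_baseIdeal (hP : IsProRepresentablePred O c P) :
    Admissible P (baseIdeal c) := by
  let ev : MvPolynomial X O →ₐ[O] ResidueField O :=
    MvPolynomial.aeval (fun f => algebraMap O (ResidueField O) (c f))
  let φ : (MvPolynomial X O ⧸ baseIdeal c) →ₐ[O] ResidueField O := Ideal.kerLiftAlg ev
  have hφi : Function.Injective φ := Ideal.kerLiftAlg_injective ev
  haveI : Finite (MvPolynomial X O ⧸ baseIdeal c) := Finite.of_injective φ hφi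
  haveI : Nontrivial (MvPolynomial X O ⧸ baseIdeal c) := by
    refine Ideal.Quotient.nontrivial_iff.2 ?_
    rw [Ne, Ideal.eq_top_iff_one, baseIdeal, RingHom.mem_ker, map_one]
    exact one_ne_zero
  have hφloc : IsLocalHom (φ : (MvPolynomial X O ⧸ baseIdeal c) →+* ResidueField O) :=
    ⟨fun y hy => isUnit_of_isUnit_map_of_finite
      (φ : (MvPolynomial X O ⧸ baseIdeal c) →+* ResidueField O) hφi hy⟩
  haveI hloc : IsLocalRing (MvPolynomial X O ⧸ baseIdeal c) :=
    RingHom.domain_isLocalRing (φ : (MvPolynomial X O ⧸ baseIdeal c) →+* ResidueField O)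
  have htest : GaloisRep.IsArtinianTestAlgebra O (MvPolynomial X O ⧸ baseIdeal c) :=
    isArtinianTestAlgebra_of_algHom φ isArtinianTestAlgebra_residueField inferInstance
  refine ⟨hloc, htest, ?_⟩
  refine hP.desc htest isArtinianTestAlgebra_residueField φ hφloc hφi (taut (baseIdeal c)) ?_
  have : (φ ∘ taut (baseIdeal c)) = fun f => algebraMap O (ResidueField O) (c f) := by
    funext f
    simp only [Function.comp_apply, taut, φ, ev]
    erw [Ideal.kerLiftAlg_mk]
    simp
  rw [this]
  exact hP.base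

theorem admissible_ker_aeval (hP : IsProRepresentablePred O c P) {A : Type} [CommRing A]
    [IsLocalRing A] [Algebra O A] (hA : GaloisRep.IsArtinianTestAlgebra O A) (x : X → A)
    (hx : P x) :
    Admissible P (RingHom.ker (MvPolynomial.aeval x : MvPolynomial X O →ₐ[O] A)) := by
  let ev : MvPolynomial X O →ₐ[O] A := MvPolynomial.aeval x
  let φ : (MvPolynomial X O ⧸ RingHom.ker ev) →ₐ[O] A := Ideal.kerLiftAlg ev
  have hφi : Function.Injective φ := Ideal.kerLiftAlg_injective ev
  haveI : Finite A := finite_of_test O A hA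
  haveI : Finite (MvPolynomial X O ⧸ RingHom.ker ev) := Finite.of_injective φ hφi
  haveI : Nontrivial (MvPolynomial X O ⧸ RingHom.ker ev) := by
    refine Ideal.Quotient.nontrivial_iff.2 ?_
    rw [Ne, Ideal.eq_top_iff_one, RingHom.mem_ker, map_one]
    exact one_ne_zero
  have hφloc : IsLocalHom (φ : (MvPolynomial X O ⧸ RingHom.ker ev) →+* A) :=
    ⟨fun y hy => isUnit_of_isUnit_map_of_finite
      (φ : (MvPolynomial X O ⧸ RingHom.ker ev) →+* A) hφi hy⟩
  haveI hloc : IsLocalRing (MvPolynomial X O ⧸ RingHom.ker ev) :=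
    RingHom.domain_isLocalRing (φ : (MvPolynomial X O ⧸ RingHom.ker ev) →+* A)
  have htest : GaloisRep.IsArtinianTestAlgebra O (MvPolynomial X O ⧸ RingHom.ker ev) :=
    isArtinianTestAlgebra_of_algHom φ hA inferInstance
  refine ⟨hloc, htest, ?_⟩
  refine hP.desc htest hA φ hφloc hφi (taut (RingHom.ker ev)) ?_
  have : (φ ∘ taut (RingHom.ker ev)) = x := by
    funext f
    simp only [Function.comp_apply, taut, φ, ev]
    erw [Ideal.kerLiftAlg_mk]
    simp
  rw [this]
  exact hx

theorem admissible_inf (hP : IsProRepresentablePred O c P)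
    {a b : Ideal (MvPolynomial X O)} (ha : Admissible P a) (hb : Admissible P b) :
    Admissible P (a ⊓ b) := by
  have hab : a ⊔ b ≠ ⊤ := by
    intro h
    have h1 : a ⊔ b ≤ baseIdeal c :=
      sup_le (Admissible.le_baseIdeal hP ha) (Admissible.le_baseIdeal hP hb)
    rw [h] at h1
    have h2 : (1 : MvPolynomial X O) ∈ baseIdeal c := h1 Submodule.mem_top
    rw [baseIdeal, RingHom.mem_ker, map_one] at h2
    exact one_ne_zero h2
  have hc := admissible_of_le hP ha le_sup_left hab
  obtain ⟨hlocA, htestA, hPA⟩ := ha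
  obtain ⟨hlocB, htestB, hPB⟩ := hb
  obtain ⟨hlocC, htestC, hPC⟩ := hc
  let pA : (MvPolynomial X O ⧸ a ⊓ b) →ₐ[O] (MvPolynomial X O ⧸ a) :=
    Ideal.Quotient.factorₐ O inf_le_left
  let pB : (MvPolynomial X O ⧸ a ⊓ b) →ₐ[O] (MvPolynomial X O ⧸ b) :=
    Ideal.Quotient.factorₐ O inf_le_right
  let f : (MvPolynomial X O ⧸ a) →ₐ[O] (MvPolynomial X O ⧸ a ⊔ b) :=
    Ideal.Quotient.factorₐ O le_sup_left
  let g : (MvPolynomial X O ⧸ b) →ₐ[O] (MvPolynomial X O ⧸ a ⊔ b) :=
    Ideal.Quotient.factorₐ O le_sup_right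
  haveI : Finite (MvPolynomial X O ⧸ a) := finite_of_test O _ htestA
  haveI : Finite (MvPolynomial X O ⧸ b) := finite_of_test O _ htestB
  have hinj' : Function.Injective
      ((pA : (MvPolynomial X O ⧸ a ⊓ b) →+* (MvPolynomial X O ⧸ a)).prod
        (pB : (MvPolynomial X O ⧸ a ⊓ b) →+* (MvPolynomial X O ⧸ b))) := by
    rw [injective_iff_map_eq_zero]
    intro y hy
    obtain ⟨p, rfl⟩ := Ideal.Quotient.mk_surjective y
    rw [RingHom.prod_apply, Prod.mk_eq_zero] at hy
    have h1 : p ∈ a := Ideal.Quotient.eq_zero_iff_mem.1 hy.1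
    have h2 : p ∈ b := Ideal.Quotient.eq_zero_iff_mem.1 hy.2
    exact Ideal.Quotient.eq_zero_iff_mem.2 ⟨h1, h2⟩
  have hinj : Function.Injective (fun x => (pA x, pB x)) := hinj'
  haveI : Finite (MvPolynomial X O ⧸ a ⊓ b) := Finite.of_injective _ hinj
  haveI : Nontrivial (MvPolynomial X O ⧸ a ⊓ b) :=
    (pA : (MvPolynomial X O ⧸ a ⊓ b) →+* (MvPolynomial X O ⧸ a)).domain_nontrivial
  -- units
  have hunit : ∀ y : MvPolynomial X O ⧸ a ⊓ b, IsUnit (pA y) ∨ IsUnit (pB y) → IsUnit y := by
    intro y hy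
    obtain ⟨p, rfl⟩ := Ideal.Quotient.mk_surjective y
    have hp : p ∉ baseIdeal c := by
      rcases hy with hy | hy
      · intro hp
        have := (mk_mem_maximalIdeal_iff hP htestA hPA p).2 hp
        exact this hy
      · intro hp
        have := (mk_mem_maximalIdeal_iff hP htestB hPB p).2 hp
        exact this hy
    have hA' : IsUnit (Ideal.Quotient.mk a p) := by
      by_contra h
      exact hp ((mk_mem_maximalIdeal_iff hP htestA hPA p).1 h)
    have hB' : IsUnit (Ideal.Quotient.mk b p) := by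
      by_contra h
      exact hp ((mk_mem_maximalIdeal_iff hP htestB hPB p).1 h)
    refine isUnit_of_isUnit_map_of_finite _ hinj' ?_
    rw [RingHom.prod_apply, Prod.isUnit_iff]
    exact ⟨hA', hB'⟩
  have hpAloc : IsLocalHom (pA : (MvPolynomial X O ⧸ a ⊓ b) →+* (MvPolynomial X O ⧸ a)) :=
    ⟨fun y hy => hunit y (Or.inl hy)⟩
  have hpBloc : IsLocalHom (pB : (MvPolynomial X O ⧸ a ⊓ b) →+* (MvPolynomial X O ⧸ b)) :=
    ⟨fun y hy => hunit y (Or.inr hy)⟩
  haveI hloc : IsLocalRing (MvPolynomial X O ⧸ a ⊓ b) :=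
    RingHom.domain_isLocalRing (pA : (MvPolynomial X O ⧸ a ⊓ b) →+* (MvPolynomial X O ⧸ a))
  have htest : GaloisRep.IsArtinianTestAlgebra O (MvPolynomial X O ⧸ a ⊓ b) :=
    isArtinianTestAlgebra_of_algHom pA htestA inferInstance
  refine ⟨hloc, htest, ?_⟩
  refine hP.fib htestA htestB htestC htest f g pA pB hpAloc hpBloc ?_ hinj ?_
    (taut (a ⊓ b)) hPA hPB
  · refine AlgHom.ext fun y => ?_
    obtain ⟨p, rfl⟩ := Ideal.Quotient.mk_surjective y
    rfl
  · intro u v huv
    obtain ⟨p, rfl⟩ := Ideal.Quotient.mk_surjective u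
    obtain ⟨q, rfl⟩ := Ideal.Quotient.mk_surjective v
    have h1 : p - q ∈ a ⊔ b := by
      rw [← Ideal.Quotient.eq_zero_iff_mem, map_sub, sub_eq_zero]
      exact huv
    obtain ⟨s, hs, t, ht, hst⟩ := Submodule.mem_sup.1 h1
    refine ⟨Ideal.Quotient.mk (a ⊓ b) (p - s), ?_, ?_⟩
    · change Ideal.Quotient.mk a (p - s) = Ideal.Quotient.mk a p
      rw [map_sub, Ideal.Quotient.eq_zero_iff_mem.2 hs, sub_zero]
    · change Ideal.Quotient.mk b (p - s) = Ideal.Quotient.mk b q
      have : p - s = q + t := by linear_combination -hst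
      rw [this, map_add, Ideal.Quotient.eq_zero_iff_mem.2 ht, add_zero]

end admissible

end Fermat.Agent.H12
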