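/-
P-CFT row 424 (CFT-B-INF), helper12.

Cohomology of a finite group `G` whose order is invertible in the coefficient ring vanishes in
degrees `1` and `2` (the averaging argument), in the prelude's "level" shapes:
* `cftH1_subsingleton_of_isUnit_card` : `Subsingleton (H1 A)`;
* `cftContinuousH2_subsingleton_of_isUnit_card` : `Subsingleton (continuousH2 r A)`.

Applied to the archimedean decomposition group (order dividing `2`) and `𝔽_p`-coefficients,
`p` odd, this gives `archimedeanVanishing : ArchimedeanVanishingStatement`.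
-/
import Fermat.Agent.H76.Cft.Interfaces

set_option autoImplicit false

open CategoryTheory groupCohomology

namespace Fermat.Agent.H12

universe u

section General

variable {k G : Type u} [CommRing k] [Group G]

/-- Averaging: a `1`-cocycle of a finite group of invertible order is a coboundary. -/
theorem cft_cocycle₁_isCoboundary [Fintype G] (A : Rep k G) (v : k)
    (hv : v * (Fintype.card G : k) = 1) (c : G → A) (hc : c ∈ cocycles₁ A) :
    ∃ x : A, ∀ g : G, A.ρ g x - x = c g := by
  rw [mem_cocycles₁_iff] at hc
  refine ⟨-(v • ∑ h : G, c h), fun g => ?_⟩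
  have hsum : ∑ h : G, c (g * h) = ∑ h : G, c h :=
    Fintype.sum_equiv (Equiv.mulLeft g) _ _ (fun _ => rfl)
  have h1 : ∑ h : G, c (g * h) = A.ρ g (∑ h : G, c h) + (Fintype.card G : k) • c g := by
    simp only [hc, Finset.sum_add_distrib, map_sum, Finset.sum_const, Finset.card_univ,
      Nat.cast_smul_eq_nsmul]
  have h2 : A.ρ g (∑ h : G, c h) = ∑ h : G, c h - (Fintype.card G : k) • c g := by
    rw [eq_sub_iff_add_eq, ← h1, hsum]
  rw [map_neg, map_smul, h2, smul_sub, smul_smul, hv, one_smul]
  abel

/-- `H¹(G, A) = 0` for a finite group `G` whose order is invertible in `k`. -/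
theorem cftH1_subsingleton_of_isUnit_card [Finite G] (A : Rep k G)
    (hu : IsUnit ((Nat.card G : ℕ) : k)) : Subsingleton (H1 A) := by
  classical
  let _ : Fintype G := Fintype.ofFinite G
  obtain ⟨v, hv⟩ := hu.exists_left_inv
  rw [Nat.card_eq_fintype_card] at hv
  refine subsingleton_of_forall_eq 0 fun x => ?_
  induction x using H1_induction_on with
  | h c =>
    rw [H1π_eq_zero_iff]
    obtain ⟨x, hx⟩ := cft_cocycle₁_isCoboundary A v hv c c.2
    refine ⟨x, funext fun g => ?_⟩
    rw [d₀₁_hom_apply]
    exact hx g

/-- Averaging in degree `2`: a `2`-cocycle `f` of a finite group of invertible order is the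
coboundary of `g ↦ |G|⁻¹ ∑ₕ f (g, h)`. -/
theorem cft_cocycle₂_eq_d₁₂ [Fintype G] (A : Rep k G) (v : k)
    (hv : v * (Fintype.card G : k) = 1) (f : G × G → A) (hf : f ∈ cocycles₂ A) :
    (d₁₂ A).hom (fun g => v • ∑ j : G, f (g, j)) = f := by
  rw [mem_cocycles₂_iff] at hf
  funext ⟨g, h⟩
  rw [d₁₂_hom_apply]
  have hsum : ∑ j : G, f (g, h * j) = ∑ j : G, f (g, j) :=
    Fintype.sum_equiv (Equiv.mulLeft h) _ _ (fun _ => rfl)
  have h1 : ∑ j : G, (f (g * h, j) + f (g, h)) = ∑ j : G, (A.ρ g (f (h, j)) + f (g, h * j)) :=
    Finset.sum_congr rfl fun j _ => hf g h j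
  have h2 : A.ρ g (∑ j : G, f (h, j)) =
      ∑ j : G, f (g * h, j) + (Fintype.card G : k) • f (g, h) - ∑ j : G, f (g, j) := by
    rw [eq_sub_iff_add_eq, map_sum, ← hsum, ← Finset.sum_add_distrib, ← h1,
      Finset.sum_add_distrib, Finset.sum_const, Finset.card_univ, Nat.cast_smul_eq_nsmul]
  rw [map_smul, h2, ← smul_sub, ← smul_add]
  have h3 : ∑ j : G, f (g * h, j) + (Fintype.card G : k) • f (g, h) - ∑ j : G, f (g, j)
      - ∑ j : G, f (g * h, j) + ∑ j : G, f (g, j) = (Fintype.card G : k) • f (g, h) := by
    abel
  rw [h3, smul_smul, hv, one_smul]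

/-- The degree-`2` level cohomology (prelude shape) of a finite group `G` whose order is
invertible in `k` vanishes. -/
theorem cftContinuousH2_subsingleton_of_isUnit_card [Finite G]
    (r : G →* (AlgebraicClosure ℚ ≃ₐ[ℚ] AlgebraicClosure ℚ)) (A : Rep k G)
    (hu : IsUnit ((Nat.card G : ℕ) : k)) : Subsingleton (continuousH2 r A) := by
  classical
  let _ : Fintype G := Fintype.ofFinite G
  obtain ⟨v, hv⟩ := hu.exists_left_inv
  rw [Nat.card_eq_fintype_card] at hv
  rw [Submodule.Quotient.subsingleton_iff, eq_top_iff]
  rintro ⟨f, hfc, F, hF, hlev⟩ -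
  rw [Submodule.mem_comap, Submodule.subtype_apply, mem_levelCoboundaries₂_iff]
  refine ⟨fun g => v • ∑ j : G, f (g, j), ⟨F, hF, fun g s hs => ?_⟩,
    cft_cocycle₂_eq_d₁₂ A v hv f hfc⟩
  have h1 : r 1 ∈ F.fixingSubgroup := by rw [map_one]; exact one_mem _
  have h2 : ∀ j : G, f (g * s, j) = f (g, j) := fun j => by
    have := hlev g j s 1 hs h1
    rwa [mul_one] at this
  show v • ∑ j : G, f (g * s, j) = v • ∑ j : G, f (g, j)
  rw [Finset.sum_congr rfl fun j _ => h2 j]

end General

section Archimedean

open ExtCitation Fermat.Agent.H76.Cft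

/-- The archimedean decomposition group is finite (it is generated by an involution). -/
theorem cft_finite_archimedeanDecomposition : Finite ↥archimedeanDecomposition := by
  have h : IsOfFinOrder complexConjugation :=
    isOfFinOrder_iff_pow_eq_one.2 ⟨2, by norm_num, complexConjugation_sq⟩
  exact h.finite_zpowers

/-- The order of the archimedean decomposition group divides `2`. -/
theorem cft_card_archimedeanDecomposition_dvd_two : Nat.card ↥archimedeanDecomposition ∣ 2 := by
  have h : Nat.card ↥archimedeanDecomposition = orderOf complexConjugation :=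
    Nat.card_zpowers complexConjugation
  rw [h]
  exact orderOf_dvd_of_pow_eq_one complexConjugation_sq

/-- For `p` an odd prime the order of the archimedean decomposition group is invertible in
`𝔽_p`. -/
theorem cft_isUnit_card_archimedeanDecomposition (p : ℕ) [Fact p.Prime] (hp : p ≠ 2) :
    IsUnit ((Nat.card ↥archimedeanDecomposition : ℕ) : ZMod p) := by
  rw [ZMod.isUnit_iff_coprime]
  have h2 : Nat.Coprime 2 p :=
    (Nat.coprime_primes Nat.prime_two (Fact.out : p.Prime)).2 (Ne.symm hp)
  exact Nat.Coprime.coprime_dvd_left cft_card_archimedeanDecomposition_dvd_two h2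

/-- **[B-INF] Archimedean vanishing**: for `p` odd, `H¹` and the level `H²` of the archimedean
decomposition group with coefficients in an `𝔽_p`-representation vanish. -/
theorem archimedeanVanishing : ArchimedeanVanishingStatement := by
  intro p _ hp M
  have := cft_finite_archimedeanDecomposition
  exact ⟨cftH1_subsingleton_of_isUnit_card _ (cft_isUnit_card_archimedeanDecomposition p hp),
    cftContinuousH2_subsingleton_of_isUnit_card _ _
      (cft_isUnit_card_archimedeanDecomposition p hp)⟩

/-- `H¹` of the archimedean decomposition group with odd-torsion coefficients vanishes. -/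
theorem cft_subsingleton_H1_archimedean (p : ℕ) [Fact p.Prime] (hp : p ≠ 2) (M : Rep (ZMod p) GQ) :
    Subsingleton (groupCohomology.H1 (Rep.res archimedeanLoc M)) :=
  (archimedeanVanishing p hp M).1

/-- The level `H²` of the archimedean decomposition group with odd-torsion coefficients
vanishes. -/
theorem cft_subsingleton_continuousH2_archimedean (p : ℕ) [Fact p.Prime] (hp : p ≠ 2)
    (M : Rep (ZMod p) GQ) :
    Subsingleton (groupCohomology.continuousH2 archimedeanLoc (Rep.res archimedeanLoc M)) :=
  (archimedeanVanishing p hp M).2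

/-- The archimedean component of the total localisation map `locTotal` vanishes
(so the condition at `∞` in `sha₁` is automatic for `p` odd). -/
theorem cft_locTotal_inl_eq_zero (p : ℕ) [Fact p.Prime] (hp : p ≠ 2) (S : Finset Nat.Primes)
    (A : Rep (ZMod p) GQ) (x : groupCohomology.H1 A) (u : Unit) :
    groupCohomology.locTotal (extArithLoc S) A x (Sum.inl u) = 0 := by
  exact @Subsingleton.elim _ (cft_subsingleton_H1_archimedean p hp A) _ _

/-- The archimedean component of the total degree-`2` localisation map `locTotal₂S` vanishes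
(so the condition at `∞` in `sha₂` is automatic for `p` odd). -/
theorem cft_locTotal₂S_inl_eq_zero (p : ℕ) [Fact p.Prime] (hp : p ≠ 2) (S : Finset Nat.Primes)
    (M : Rep (ZMod p) GQ) (x : groupCohomology.continuousH2S S M) (u : Unit) :
    groupCohomology.locTotal₂S S M x (Sum.inl u) = 0 := by
  exact @Subsingleton.elim _ (cft_subsingleton_continuousH2_archimedean p hp M) _ _

/-- For `p` odd, membership in `sha₁` only has to be tested at the finite places. -/
theorem cft_mem_sha₁_iff (p : ℕ) [Fact p.Prime] (hp : p ≠ 2) (S : Finset Nat.Primes)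
    (A : Rep (ZMod p) GQ) (x : groupCohomology.H1 A) :
    x ∈ groupCohomology.sha₁ S A ↔ x ∈ groupCohomology.continuousH1S S A ∧
      ∀ q : ↥S, groupCohomology.locTotal (extArithLoc S) A x (Sum.inr q) = 0 := by
  rw [groupCohomology.sha₁, Submodule.mem_inf, LinearMap.mem_ker]
  refine and_congr_right fun _ => ⟨fun h q => ?_, fun h => ?_⟩
  · rw [h]; rfl
  · funext v
    rcases v with u | q
    · exact cft_locTotal_inl_eq_zero p hp S A x u
    · exact h q

/-- For `p` odd, membership in `sha₂` only has to be tested at the finite places. -/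
theorem cft_mem_sha₂_iff (p : ℕ) [Fact p.Prime] (hp : p ≠ 2) (S : Finset Nat.Primes)
    (M : Rep (ZMod p) GQ) (x : groupCohomology.continuousH2S S M) :
    x ∈ groupCohomology.sha₂ S M ↔
      ∀ q : ↥S, groupCohomology.locTotal₂S S M x (Sum.inr q) = 0 := by
  rw [groupCohomology.sha₂, LinearMap.mem_ker]
  refine ⟨fun h q => ?_, fun h => ?_⟩
  · rw [h]; rfl
  · funext v
    rcases v with u | q
    · exact cft_locTotal₂S_inl_eq_zero p hp S M x u
    · exact h q

end Archimedean

end Fermat.Agent.H12
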