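import Mathlib

/-!
# DEF-B (P-DEFRING): the tail of a multivariate power series lies in the `n`-th power of the
ideal generated by the variables
-/

set_option autoImplicit false

namespace Fermat.Agent.H12

open MvPowerSeries

section

variable {σ R : Type*} [CommRing R] [Finite σ]

/-- A power series whose `n`-truncation vanishes lies in `I ^ n • ⊤` (as a module over
polynomials), `I` the ideal of variables. -/
lemma mem_pow_smul_top_of_truncTotal_eq_zero (n : ℕ) (g : MvPowerSeries σ R)
    (hg : truncTotal n g = 0) :
    g ∈ (MvPolynomial.idealOfVars σ R ^ n •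
      (⊤ : Submodule (MvPolynomial σ R) (MvPowerSeries σ R))) := by
  set I := MvPolynomial.idealOfVars σ R
  have hfg : I.FG := MvPolynomial.idealOfVars_fg σ R
  have h1 : toAdicCompletion σ R g ∈
      (AdicCompletion.eval I (MvPolynomial σ R) n).ker := by
    rw [LinearMap.mem_ker]
    change (toAdicCompletion σ R g).val n = 0
    rw [toAdicCompletion_apply_eq_mk_truncTotal, hg]
    rfl
  rw [← AdicCompletion.pow_smul_top_eq_ker_eval hfg] at h1
  let e := (toAdicCompletionAlgEquiv σ R).toLinearEquiv
  have h2 : e.symm (e g) ∈ Submodule.map (e.symm : _ →ₗ[MvPolynomial σ R] _)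
      (I ^ n • (⊤ : Submodule (MvPolynomial σ R) (AdicCompletion I (MvPolynomial σ R)))) :=
    Submodule.mem_map_of_mem h1
  rw [LinearEquiv.symm_apply_apply, Submodule.map_smul'', Submodule.map_top,
    LinearEquiv.range] at h2
  exact h2

end

theorem sub_truncTotal_mem {R : Type} [CommRing R] (N n : Nat) (f : MvPowerSeries (Fin N) R) :
    f - ((MvPowerSeries.truncTotal n f : MvPolynomial (Fin N) R) : MvPowerSeries (Fin N) R) ∈
      (Ideal.span (Set.range (MvPowerSeries.X : Fin N → MvPowerSeries (Fin N) R))) ^ n := by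
  classical
  set J := Ideal.span (Set.range (MvPowerSeries.X : Fin N → MvPowerSeries (Fin N) R))
  have hg : truncTotal n
      (f - ((truncTotal n f : MvPolynomial (Fin N) R) : MvPowerSeries (Fin N) R)) = 0 := by
    ext x
    rw [map_sub, MvPolynomial.coeff_sub, MvPolynomial.coeff_zero, coeff_truncTotal_eq_ite,
      coeff_truncTotal_eq_ite]
    split_ifs with h
    · rw [MvPolynomial.coeff_coe, coeff_truncTotal _ h, sub_self]
    · simp
  have h2 := mem_pow_smul_top_of_truncTotal_eq_zero n _ hg
  -- the image of `I` in power series is inside `J`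
  have hIJ : ∀ a ∈ MvPolynomial.idealOfVars (Fin N) R ^ n,
      ((a : MvPolynomial (Fin N) R) : MvPowerSeries (Fin N) R) ∈ J ^ n := by
    intro a ha
    have hmap : Ideal.map (MvPolynomial.coeToMvPowerSeries.ringHom (R := R) (σ := Fin N))
        (MvPolynomial.idealOfVars (Fin N) R) ≤ J := by
      rw [Ideal.map_span, Ideal.span_le]
      rintro _ ⟨_, ⟨i, rfl⟩, rfl⟩
      refine Ideal.subset_span ⟨i, ?_⟩
      simp
    have := Ideal.mem_map_of_mem (MvPolynomial.coeToMvPowerSeries.ringHom (R := R) (σ := Fin N)) ha
    rw [Ideal.map_pow] at this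
    exact Ideal.pow_right_mono hmap n this
  refine Submodule.smul_induction_on h2 ?_ ?_
  · intro a ha m _
    have : a • m = ((a : MvPolynomial (Fin N) R) : MvPowerSeries (Fin N) R) * m := by
      rw [Algebra.smul_def]; rfl
    rw [this]
    exact Ideal.mul_mem_right _ _ (hIJ a ha)
  · intro x y hx hy
    exact Ideal.add_mem _ hx hy

end Fermat.Agent.H12
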