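import Mathlib

/-!
# DEF-E (P-DEFRING): subalgebras of a finite local algebra are local, with local inclusion
-/

set_option autoImplicit false

namespace Fermat.Agent.H12

/-- In a finite ring, the inverse of a unit lying in a subalgebra lies in the subalgebra. -/
lemma inv_mem_subalgebra_of_finite {O A : Type*} [CommRing O] [CommRing A] [Algebra O A]
    [Finite A] (B : Subalgebra O A) {a : A} (ha : a ∈ B) (hu : IsUnit a) :
    ∃ b ∈ B, a * b = 1 := by
  obtain ⟨u, rfl⟩ := hu
  have hfin : IsOfFinOrder u := isOfFinOrder_of_finite u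
  obtain ⟨n, hn, hpow⟩ := isOfFinOrder_iff_pow_eq_one.1 hfin
  refine ⟨(u : A) ^ (n - 1), B.pow_mem ha _, ?_⟩
  rw [← pow_succ', Nat.sub_add_cancel hn, ← Units.val_pow_eq_pow_val, hpow, Units.val_one]

theorem subalgebra_isLocalRing (O A : Type) [CommRing O] [CommRing A] [IsLocalRing A]
    [Algebra O A] [Finite A] (B : Subalgebra O A) :
    IsLocalRing B ∧ IsLocalHom (B.val : B →+* A) := by
  have hloc : IsLocalHom (B.val : B →+* A) := by
    constructor
    intro b hb
    obtain ⟨c, hc, hbc⟩ := inv_mem_subalgebra_of_finite B b.2 hb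
    exact IsUnit.of_mul_eq_one (⟨c, hc⟩ : B) (Subtype.ext hbc)
  exact ⟨RingHom.domain_isLocalRing (B.val : B →+* A), hloc⟩

end Fermat.Agent.H12
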