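import Mathlib

/-!
# Counting lemma behind Kummer's lemma (helper12)

Abstract statement: if a commutative group `G` is generated by a family indexed by `ι`,
`φ : Additive G →+ V` is a homomorphism to an `𝔽_p`-vector space and `g : κ → G` is a family
with `#ι ≤ #κ` such that `φ ∘ g` is `𝔽_p`-linearly independent, then `ker φ` consists of
`p`-th powers.
-/

set_option autoImplicit false

namespace Fermat.Agent.H12

open Finset

section abstract

variable {G : Type*} [CommGroup G] {p : ℕ} [Fact p.Prime]
  {V : Type*} [AddCommGroup V] [Module (ZMod p) V]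
  {ι κ : Type*} [Fintype ι] [Fintype κ]

/-- The `𝔽_p`-linear map `(ι → 𝔽_p) → V`, `c ↦ ∑ c i • φ (gen i)`. -/
noncomputable def kcLin (φ : Additive G →+ V) (gen : ι → G) : (ι → ZMod p) →ₗ[ZMod p] V :=
  Fintype.linearCombination (ZMod p) (fun i => φ (Additive.ofMul (gen i)))

lemma kcLin_apply (φ : Additive G →+ V) (gen : ι → G) (c : ι → ZMod p) :
    kcLin φ gen c = ∑ i, c i • φ (Additive.ofMul (gen i)) := by
  simp [kcLin, Fintype.linearCombination_apply]

lemma kc_intCast_smul (v : V) (n : ℤ) : ((n : ZMod p) • v) = n • v := by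
  exact Int.cast_smul_eq_zsmul (ZMod p) n v

lemma kcLin_prod (φ : Additive G →+ V) (gen : ι → G) (e : ι → ℤ) :
    φ (Additive.ofMul (∏ i, gen i ^ e i)) = kcLin φ gen (fun i => (e i : ZMod p)) := by
  rw [kcLin_apply, ofMul_prod, map_sum]
  refine Finset.sum_congr rfl fun i _ => ?_
  rw [ofMul_zpow, map_zsmul, kc_intCast_smul]

/-- Abstract counting lemma. -/
theorem exists_pow_eq_of_map_eq_zero
    (φ : Additive G →+ V)
    (gen : ι → G) (hgen : ∀ x : G, ∃ e : ι → ℤ, x = ∏ i, gen i ^ e i)
    (g : κ → G) (hcard : Fintype.card ι ≤ Fintype.card κ)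
    (hg : LinearIndependent (ZMod p) (fun k => φ (Additive.ofMul (g k))))
    (u : G) (hu : φ (Additive.ofMul u) = 0) : ∃ v : G, u = v ^ p := by
  classical
  -- exponent vectors of the `g k`
  choose a ha using fun k => hgen (g k)
  let abar : κ → (ι → ZMod p) := fun k i => (a k i : ZMod p)
  have hcomp : (fun k => φ (Additive.ofMul (g k))) = (kcLin φ gen) ∘ abar := by
    funext k
    simp only [Function.comp_apply, abar]
    rw [← kcLin_prod, ← ha k]
  have habar : LinearIndependent (ZMod p) abar := by
    rw [hcomp] at hg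
    exact LinearIndependent.of_comp _ hg
  have hcard' : Fintype.card κ = Module.finrank (ZMod p) (ι → ZMod p) := by
    have h1 := habar.fintype_card_le_finrank
    rw [Module.finrank_fintype_fun_eq_card] at h1 ⊢
    omega
  have hspan : Submodule.span (ZMod p) (Set.range abar) = ⊤ :=
    habar.span_eq_top_of_card_eq_finrank' hcard'
  -- injectivity of `kcLin`
  have hinj : ∀ x : ι → ZMod p, kcLin φ gen x = 0 → x = 0 := by
    intro x hx
    have hxmem : x ∈ Submodule.span (ZMod p) (Set.range abar) := by rw [hspan]; trivial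
    obtain ⟨c, rfl⟩ := (Submodule.mem_span_range_iff_exists_fun (ZMod p)).1 hxmem
    rw [map_sum] at hx
    simp only [map_smul] at hx
    have hx' : ∑ k, c k • (fun k => φ (Additive.ofMul (g k))) k = 0 := by
      rw [← hx]
      refine Finset.sum_congr rfl fun k _ => ?_
      rw [hcomp]; rfl
    have hc := (Fintype.linearIndependent_iff.1 hg) c hx'
    simp [hc]
  obtain ⟨e, he⟩ := hgen u
  have h0 : (fun i => (e i : ZMod p)) = 0 := by
    apply hinj
    rw [← kcLin_prod, ← he, hu]
  have hdvd : ∀ i, (p : ℤ) ∣ e i := fun i =>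
    (ZMod.intCast_zmod_eq_zero_iff_dvd (e i) p).1 (congrFun h0 i)
  choose e' he' using hdvd
  refine ⟨∏ i, gen i ^ e' i, ?_⟩
  rw [he, ← Finset.prod_pow]
  refine Finset.prod_congr rfl fun i _ => ?_
  rw [he' i, mul_comm, zpow_mul, zpow_natCast]

end abstract

end Fermat.Agent.H12
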