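import Mathlib
import Fermat.Agent.H12.KummerCount

/-!
# Kummer's lemma reduced to an independence certificate (helper12)

For `K` a `p`-th cyclotomic field (`p` an odd prime), the unit group `E = (𝓞 K)ˣ` is generated by
`(p - 1) / 2` elements (Dirichlet). Hence if `φ : Additive E →+ V` is a homomorphism to an
`𝔽_p`-vector space and there are `(p - 1) / 2` units with `𝔽_p`-independent images,
then every unit killed by `φ` is a `p`-th power.
-/

set_option autoImplicit false

namespace Fermat.Agent.H12

open NumberField NumberField.Units NumberField.InfinitePlace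

section units

variable (K : Type*) [Field K] [NumberField K]

/-- generators of the unit group: a generator of the torsion and the fundamental system -/
noncomputable def unitGen : Option (Fin (rank K)) → (𝓞 K)ˣ
  | none => ((IsCyclic.exists_generator (α := torsion K)).choose : torsion K)
  | some i => fundSystem K i

lemma unitGen_spec (x : (𝓞 K)ˣ) :
    ∃ e : Option (Fin (rank K)) → ℤ, x = ∏ i, unitGen K i ^ e i := by
  classical
  obtain ⟨⟨t, f⟩, hx, -⟩ := exist_unique_eq_mul_prod K x
  have ht := (IsCyclic.exists_generator (α := torsion K)).choose_spec t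
  obtain ⟨n, hn⟩ := Subgroup.mem_zpowers_iff.1 ht
  refine ⟨fun o => Option.elim o n f, ?_⟩
  rw [Fintype.prod_option]
  simp only [Option.elim, unitGen]
  rw [hx]
  congr 1
  simp only at hn ⊢
  rw [← hn]
  simp

lemma card_option_rank_cyclotomic (p : ℕ) [Fact p.Prime] (hp : 2 < p)
    [IsCyclotomicExtension {p} ℚ K] :
    Fintype.card (Option (Fin (rank K))) = (p - 1) / 2 := by
  have : NeZero p := ⟨(Fact.out : p.Prime).ne_zero⟩
  have hcard : Fintype.card (InfinitePlace K) = (p - 1) / 2 := by
    rw [card_eq_nrRealPlaces_add_nrComplexPlaces,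
      IsCyclotomicExtension.Rat.nrRealPlaces_eq_zero (n := p) K hp, zero_add,
      IsCyclotomicExtension.Rat.nrComplexPlaces_eq_totient_div_two (n := p),
      Nat.totient_prime Fact.out]
  have hpos : 0 < Fintype.card (InfinitePlace K) := Fintype.card_pos
  rw [Fintype.card_option, Fintype.card_fin, rank, ← hcard]
  omega

/-- **Kummer's lemma from an independence certificate.** -/
theorem exists_pow_eq_of_independent (p : ℕ) [Fact p.Prime] (hp : 2 < p)
    [IsCyclotomicExtension {p} ℚ K]
    {V : Type*} [AddCommGroup V] [Module (ZMod p) V]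
    (φ : Additive (𝓞 K)ˣ →+ V)
    {κ : Type*} [Fintype κ] (hκ : (p - 1) / 2 ≤ Fintype.card κ)
    (g : κ → (𝓞 K)ˣ)
    (hg : LinearIndependent (ZMod p) (fun k => φ (Additive.ofMul (g k))))
    (u : (𝓞 K)ˣ) (hu : φ (Additive.ofMul u) = 0) : ∃ v : (𝓞 K)ˣ, u = v ^ p :=
  exists_pow_eq_of_map_eq_zero φ (unitGen K) (unitGen_spec K) g
    (by rw [card_option_rank_cyclotomic K p hp]; exact hκ) hg u hu

end units

end Fermat.Agent.H12
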