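import Mathlib
import Fermat.Agent.H9.Descent
import Fermat.Agent.H12.KummerUnits

/-!
# Kummer's lemma: the two interfaces requested by the S10/S11 team (helper12)

* `kummer_count` : a surjective hom `(𝓞 K)ˣ →* Multiplicative (Fin ((p-1)/2) → ZMod p)`
  has kernel inside the `p`-th powers.
* `kummer_of_indep` : `(p-1)/2` units that are independent modulo
  "congruent to a rational integer mod `p`" give `Fermat.Agent.H9.KummerProp (𝓞 K) p`.
-/

set_option autoImplicit false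

namespace Fermat.Agent.H12

open NumberField NumberField.Units

section

variable (p : ℕ) [hpri : Fact p.Prime] (K : Type*) [Field K] [NumberField K]
  [IsCyclotomicExtension {p} ℚ K]

/-- Interface C-G1 (helper10). -/
theorem kummer_count (hp : p ≠ 2)
    (φ : (𝓞 K)ˣ →* Multiplicative (Fin ((p - 1) / 2) → ZMod p)) (hφ : Function.Surjective φ)
    (u : (𝓞 K)ˣ) (hu : φ u = 1) : ∃ v : (𝓞 K)ˣ, u = v ^ p := by
  classical
  have hp2 : 2 < p := lt_of_le_of_ne hpri.out.two_le (Ne.symm hp)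
  choose g hg using fun k : Fin ((p - 1) / 2) =>
    hφ (Multiplicative.ofAdd (Pi.single k (1 : ZMod p)))
  refine exists_pow_eq_of_independent K p hp2 (MonoidHom.toAdditiveLeft φ) (κ := Fin ((p - 1) / 2))
    (by simp) g ?_ u ?_
  · have : (fun k => (MonoidHom.toAdditiveLeft φ) (Additive.ofMul (g k))) =
        fun k => Pi.single k (1 : ZMod p) := by
      funext k
      change Multiplicative.toAdd (φ (g k)) = _
      rw [hg k]; rfl
    rw [this]
    exact Pi.linearIndependent_single_one (Fin ((p - 1) / 2)) (ZMod p)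
  · change Multiplicative.toAdd (φ u) = 0
    rw [hu]; rfl

/-- the subgroup of units congruent to a rational integer modulo `p` -/
def intModSubgroup : Subgroup (𝓞 K)ˣ where
  carrier := {w | ∃ n : ℤ, (p : 𝓞 K) ∣ (w : 𝓞 K) - (n : 𝓞 K)}
  one_mem' := ⟨1, by simp⟩
  mul_mem' := by
    rintro a b ⟨n, hn⟩ ⟨m, hm⟩
    refine ⟨n * m, ?_⟩
    have : ((a * b : (𝓞 K)ˣ) : 𝓞 K) - ((n * m : ℤ) : 𝓞 K) =
        (a : 𝓞 K) * ((b : 𝓞 K) - m) + m * ((a : 𝓞 K) - n) := by
      push_cast; ring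
    rw [this]
    exact dvd_add (Dvd.dvd.mul_left hm _) (Dvd.dvd.mul_left hn _)
  inv_mem' := by
    rintro a ⟨n, hn⟩
    have hp := hpri.out
    -- `p ∤ n`
    have hpn : ¬ (p : ℤ) ∣ n := by
      rintro ⟨k, rfl⟩
      have h1 : (p : 𝓞 K) ∣ (a : 𝓞 K) := by
        have h2 : (p : 𝓞 K) ∣ ((p * k : ℤ) : 𝓞 K) := by push_cast; exact dvd_mul_right _ _
        have := dvd_add hn h2
        simpa using this
      have hζ := IsCyclotomicExtension.zeta_spec p ℚ K
      have hπ : Prime (hζ.toInteger - 1) := hζ.zeta_sub_one_prime'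
      have hπp : (hζ.toInteger - 1) ∣ (p : 𝓞 K) := hζ.toInteger_sub_one_dvd_prime'
      exact hπ.not_isUnit (isUnit_of_dvd_unit (hπp.trans h1) a.isUnit)
    have hcop : IsCoprime (p : ℤ) n :=
      (Prime.coprime_iff_not_dvd (Nat.prime_iff_prime_int.1 hp)).2 hpn
    obtain ⟨k, m, hkm⟩ := hcop
    refine ⟨m, ?_⟩
    have h5 : ((a⁻¹ : (𝓞 K)ˣ) : 𝓞 K) - (m : 𝓞 K) =
        ((a⁻¹ : (𝓞 K)ˣ) : 𝓞 K) * ((p : 𝓞 K) * k - m * ((a : 𝓞 K) - n)) := by
      have h6 : ((a⁻¹ : (𝓞 K)ˣ) : 𝓞 K) * (a : 𝓞 K) = 1 := by simp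
      have h7 : ((k * p + m * n : ℤ) : 𝓞 K) = 1 := by rw [hkm]; simp
      push_cast at h7
      linear_combination (m : 𝓞 K) * h6 - ((a⁻¹ : (𝓞 K)ˣ) : 𝓞 K) * h7
    rw [h5]
    exact Dvd.dvd.mul_left (dvd_sub (dvd_mul_right _ _) (Dvd.dvd.mul_left hn _)) _


lemma mem_intModSubgroup {w : (𝓞 K)ˣ} :
    w ∈ intModSubgroup p K ↔ ∃ n : ℤ, (p : 𝓞 K) ∣ (w : 𝓞 K) - (n : 𝓞 K) := Iff.rfl

/-- `p`-th powers of units are congruent to a rational integer modulo `p`. -/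
lemma pow_mem_intModSubgroup (hodd : p ≠ 2) (w : (𝓞 K)ˣ) : w ^ p ∈ intModSubgroup p K := by
  have hp := hpri.out
  have hζ := IsCyclotomicExtension.zeta_spec p ℚ K
  have hπ : Prime (hζ.toInteger - 1) := hζ.zeta_sub_one_prime'
  have hcard : Nat.card (𝓞 K ⧸ Ideal.span {hζ.toInteger - 1}) = p := by
    rw [IsPrimitiveRoot.card_quotient_toInteger_sub_one,
      hζ.norm_toInteger_sub_one_of_prime_ne_two' hodd]
    simp
  have hπp : (hζ.toInteger - 1) ∣ (p : 𝓞 K) := hζ.toInteger_sub_one_dvd_prime'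
  have hassoc := IsCyclotomicExtension.Rat.associated_zeta_sub_one_pow_prime p hζ
  have hpπ : (p : 𝓞 K) ∣ (hζ.toInteger - 1) ^ (p - 1) := hassoc.symm.dvd
  obtain ⟨n, hn⟩ := Fermat.Agent.H9.exists_int_sub_dvd hp hπ hπp hcard (w : 𝓞 K)
  refine ⟨n ^ p, ?_⟩
  have := Fermat.Agent.H9.natCast_dvd_pow_sub_pow hp hpπ hn
  simpa using this

/-- Interface C1 (helper9): `(p - 1) / 2` units independent modulo
"congruent to a rational integer mod `p`" imply Kummer's lemma. -/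
theorem kummer_of_indep (hodd : p ≠ 2) (u : Fin ((p - 1) / 2) → (𝓞 K)ˣ)
    (hu : ∀ e : Fin ((p - 1) / 2) → ℤ,
      (∃ n : ℤ, (p : 𝓞 K) ∣ ((∏ i, u i ^ e i : (𝓞 K)ˣ) : 𝓞 K) - (n : 𝓞 K)) →
        ∀ i, (p : ℤ) ∣ e i) :
    Fermat.Agent.H9.KummerProp (𝓞 K) p := by
  classical
  have hp2 : 2 < p := lt_of_le_of_ne hpri.out.two_le (Ne.symm hodd)
  have : NeZero p := ⟨hpri.out.ne_zero⟩
  let H := intModSubgroup p K
  have hkill : ∀ x : Additive ((𝓞 K)ˣ ⧸ H), p • x = 0 := by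
    intro x
    obtain ⟨w, rfl⟩ := QuotientGroup.mk_surjective (s := H) (Additive.toMul x)
    change Additive.ofMul ((w : (𝓞 K)ˣ ⧸ H) ^ p) = 0
    rw [← QuotientGroup.mk_pow, ofMul_eq_zero, QuotientGroup.eq_one_iff]
    exact pow_mem_intModSubgroup p K hodd w
  let _ : Module (ZMod p) (Additive ((𝓞 K)ˣ ⧸ H)) :=
    AddCommGroup.zmodModule (G := Additive ((𝓞 K)ˣ ⧸ H)) (n := p) hkill
  let φ : Additive (𝓞 K)ˣ →+ Additive ((𝓞 K)ˣ ⧸ H) := (QuotientGroup.mk' H).toAdditive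
  have hφ : ∀ w : (𝓞 K)ˣ, φ (Additive.ofMul w) = 0 ↔ w ∈ H := by
    intro w
    change Additive.ofMul (QuotientGroup.mk' H w) = 0 ↔ _
    rw [ofMul_eq_zero, QuotientGroup.mk'_apply, QuotientGroup.eq_one_iff]
  intro w hw
  refine exists_pow_eq_of_independent K p hp2 (V := Additive ((𝓞 K)ˣ ⧸ H)) φ
    (κ := Fin ((p - 1) / 2)) (by simp) u ?_ w ((hφ w).2 hw)
  rw [Fintype.linearIndependent_iff]
  intro c hc i
  have h1 : ∑ k, c k • φ (Additive.ofMul (u k)) =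
      φ (Additive.ofMul (∏ k, u k ^ ((c k).val : ℤ))) := by
    rw [ofMul_prod, map_sum]
    refine Finset.sum_congr rfl fun k _ => ?_
    rw [ofMul_zpow, map_zsmul, natCast_zsmul]
    conv_lhs => rw [← ZMod.natCast_zmod_val (c k)]
    rw [Nat.cast_smul_eq_nsmul]
  rw [h1, hφ] at hc
  have h2 := hu (fun k => ((c k).val : ℤ)) hc i
  have h3 : (((c i).val : ℤ) : ZMod p) = 0 := (ZMod.intCast_zmod_eq_zero_iff_dvd _ p).2 h2
  simpa using h3


/-- Most flexible interface: any additive hom `φ` from the units to an `𝔽_p`-vector space that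
kills the units congruent to a rational integer mod `p`, together with `(p - 1) / 2` units whose
images are `𝔽_p`-independent, gives Kummer's lemma. -/
theorem kummerProp_of_hom (hodd : p ≠ 2)
    {V : Type*} [AddCommGroup V] [Module (ZMod p) V]
    (φ : Additive (𝓞 K)ˣ →+ V)
    (hφ : ∀ w : (𝓞 K)ˣ, (∃ n : ℤ, (p : 𝓞 K) ∣ (w : 𝓞 K) - (n : 𝓞 K)) → φ (Additive.ofMul w) = 0)
    {κ : Type*} [Fintype κ] (hκ : (p - 1) / 2 ≤ Fintype.card κ)
    (g : κ → (𝓞 K)ˣ)
    (hg : LinearIndependent (ZMod p) (fun k => φ (Additive.ofMul (g k)))) :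
    Fermat.Agent.H9.KummerProp (𝓞 K) p := fun w hw =>
  exists_pow_eq_of_independent K p (lt_of_le_of_ne hpri.out.two_le (Ne.symm hodd)) φ hκ g hg w
    (hφ w hw)

end

end Fermat.Agent.H12
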