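import Mathlib

/-!
# Numerator and denominator degrees of `N / ∏ (X - α)^(m α)` (helper12)

General Mathlib-only lemmas used for Manin's point count (P-S52 WP-B5).
-/

namespace Fermat.Agent.H12

open Polynomial

section General

variable {K : Type*} [Field K]

/-- Cross-multiplied form of `r = p / q`. -/
theorem ratFunc_num_mul_eq {p q : K[X]} (hq : q ≠ 0) :
    (algebraMap K[X] (RatFunc K) p / algebraMap K[X] (RatFunc K) q).num * q =
      p * (algebraMap K[X] (RatFunc K) p / algebraMap K[X] (RatFunc K) q).denom := by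
  set r := algebraMap K[X] (RatFunc K) p / algebraMap K[X] (RatFunc K) q with hr
  have h1 := RatFunc.num_div_denom r
  have hq' : algebraMap K[X] (RatFunc K) q ≠ 0 := RatFunc.algebraMap_ne_zero hq
  have hd' : algebraMap K[X] (RatFunc K) r.denom ≠ 0 :=
    RatFunc.algebraMap_ne_zero (RatFunc.denom_ne_zero r)
  apply RatFunc.algebraMap_injective (K := K)
  rw [map_mul, map_mul]
  have h2 : algebraMap K[X] (RatFunc K) r.num / algebraMap K[X] (RatFunc K) r.denom =
      algebraMap K[X] (RatFunc K) p / algebraMap K[X] (RatFunc K) q := by rw [h1]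
  rw [div_eq_div_iff hd' hq'] at h2
  exact h2

/-- If `p` and `q` are coprime, the reduced numerator of `p / q` has the degree of `p`. -/
theorem natDegree_num_div_of_isCoprime {p q : K[X]} (hq : q ≠ 0) (h : IsCoprime p q) :
    (algebraMap K[X] (RatFunc K) p / algebraMap K[X] (RatFunc K) q).num.natDegree =
      p.natDegree := by
  set r := algebraMap K[X] (RatFunc K) p / algebraMap K[X] (RatFunc K) q with hr
  have hx := ratFunc_num_mul_eq (p := p) hq
  rw [← hr] at hx
  have hc := RatFunc.isCoprime_num_denom r
  have h1 : r.num ∣ p := hc.dvd_of_dvd_mul_right ⟨q, hx.symm⟩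
  have h2 : p ∣ r.num := h.dvd_of_dvd_mul_right ⟨r.denom, hx⟩
  exact natDegree_eq_of_degree_eq
    (degree_eq_degree_of_associated (associated_of_dvd_dvd h1 h2))

/-- If `p` and `q` are coprime, the reduced denominator of `p / q` has the degree of `q`. -/
theorem natDegree_denom_div_of_isCoprime {p q : K[X]} (hq : q ≠ 0) (h : IsCoprime p q) :
    (algebraMap K[X] (RatFunc K) p / algebraMap K[X] (RatFunc K) q).denom.natDegree =
      q.natDegree := by
  set r := algebraMap K[X] (RatFunc K) p / algebraMap K[X] (RatFunc K) q with hr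
  have hx := ratFunc_num_mul_eq (p := p) hq
  rw [← hr] at hx
  have hc := RatFunc.isCoprime_num_denom r
  have h1 : r.denom ∣ q := hc.symm.dvd_of_dvd_mul_left ⟨p, by rw [hx, mul_comm]⟩
  have h2 : q ∣ r.denom := h.symm.dvd_of_dvd_mul_left ⟨r.num, by rw [← hx, mul_comm]⟩
  exact natDegree_eq_of_degree_eq
    (degree_eq_degree_of_associated (associated_of_dvd_dvd h1 h2))

end General

end Fermat.Agent.H12

namespace Fermat.Agent.H12

open Polynomial

section Prod

variable {K : Type*} [Field K]

/-- Key cancellation lemma.  For `N ≠ 0` and `D = ∏_{α ∈ s} (X - α)^(m α)`, the fraction `N / D`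
in lowest terms has numerator of degree `deg N - ∑ min (m α) (mult_α N)` and denominator of
degree `∑ m α - ∑ min (m α) (mult_α N)`. -/
theorem natDegree_num_denom_div_prod (N : K[X]) (hN : N ≠ 0) (s : Finset K) (m : K → ℕ) :
    (algebraMap K[X] (RatFunc K) N /
        algebraMap K[X] (RatFunc K) (∏ α ∈ s, (X - C α) ^ m α)).num.natDegree +
        ∑ α ∈ s, min (m α) (N.rootMultiplicity α) = N.natDegree ∧
    (algebraMap K[X] (RatFunc K) N /
        algebraMap K[X] (RatFunc K) (∏ α ∈ s, (X - C α) ^ m α)).denom.natDegree +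
        ∑ α ∈ s, min (m α) (N.rootMultiplicity α) = ∑ α ∈ s, m α := by
  set e : K → ℕ := fun α => min (m α) (N.rootMultiplicity α) with he
  set G : K[X] := ∏ α ∈ s, (X - C α) ^ e α with hG
  set D' : K[X] := ∏ α ∈ s, (X - C α) ^ (m α - e α) with hD'
  have hGD : G * D' = ∏ α ∈ s, (X - C α) ^ m α := by
    rw [hG, hD', ← Finset.prod_mul_distrib]
    refine Finset.prod_congr rfl fun α _ => ?_
    rw [← pow_add]
    congr 1
    have : e α ≤ m α := min_le_left _ _
    omega
  have hGmonic : G.Monic := monic_prod_of_monic _ _ fun α _ => (monic_X_sub_C α).pow _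
  have hD'monic : D'.Monic := monic_prod_of_monic _ _ fun α _ => (monic_X_sub_C α).pow _
  have hGdeg : G.natDegree = ∑ α ∈ s, e α := by
    rw [hG, natDegree_prod_of_monic _ _ fun α _ => (monic_X_sub_C α).pow _]
    refine Finset.sum_congr rfl fun α _ => ?_
    rw [natDegree_pow, natDegree_X_sub_C, mul_one]
  have hD'deg : D'.natDegree = ∑ α ∈ s, (m α - e α) := by
    rw [hD', natDegree_prod_of_monic _ _ fun α _ => (monic_X_sub_C α).pow _]
    refine Finset.sum_congr rfl fun α _ => ?_
    rw [natDegree_pow, natDegree_X_sub_C, mul_one]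
  -- `G ∣ N`
  have hGN : G ∣ N := by
    rw [hG]
    refine Finset.prod_dvd_of_coprime ?_ ?_
    · intro α _ β _ hαβ
      exact (isCoprime_X_sub_C_of_isUnit_sub (sub_ne_zero.2 hαβ).isUnit).pow
    · intro α _
      exact (pow_dvd_pow _ (min_le_right _ _)).trans (pow_rootMultiplicity_dvd N α)
  obtain ⟨N', hN'⟩ := hGN
  have hN'0 : N' ≠ 0 := by
    rintro rfl
    exact hN (by rw [hN', mul_zero])
  -- coprimality
  have hcop : IsCoprime N' D' := by
    rw [hD']
    refine IsCoprime.prod_right fun α hα => ?_
    by_cases hlt : e α = m α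
    · rw [hlt, Nat.sub_self, pow_zero]; exact isCoprime_one_right
    · have heq : e α = N.rootMultiplicity α := by
        have h1 : e α ≤ m α := min_le_left _ _
        have h2 : e α = m α ∨ e α = N.rootMultiplicity α := by
          rcases min_choice (m α) (N.rootMultiplicity α) with h | h
          · left; exact h
          · right; exact h
        rcases h2 with h | h
        · exact absurd h hlt
        · exact h
      refine IsCoprime.pow_right ?_
      -- `N'` does not vanish at `α`
      have hnr : ¬ N'.IsRoot α := by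
        intro hr
        have h1 : (X - C α) ∣ N' := dvd_iff_isRoot.2 hr
        -- then `(X - α)^(e α + 1) ∣ N`
        have h2 : (X - C α) ^ (e α + 1) ∣ N := by
          have h3 : (X - C α) ^ e α ∣ G := by
            rw [hG]
            exact Finset.dvd_prod_of_mem (fun α => (X - C α) ^ e α) hα
          rw [hN', pow_succ]
          exact mul_dvd_mul h3 h1
        have h4 := (le_rootMultiplicity_iff hN).2 h2
        omega
      have hirr : Irreducible (X - C α : K[X]) := irreducible_X_sub_C α
      exact (IsCoprime.symm ((hirr.coprime_iff_not_dvd).2 fun hd =>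
        hnr (dvd_iff_isRoot.1 hd)))
  -- the fraction
  have hG0 : G ≠ 0 := hGmonic.ne_zero
  have hD'0 : D' ≠ 0 := hD'monic.ne_zero
  have hfrac : algebraMap K[X] (RatFunc K) N /
      algebraMap K[X] (RatFunc K) (∏ α ∈ s, (X - C α) ^ m α) =
      algebraMap K[X] (RatFunc K) N' / algebraMap K[X] (RatFunc K) D' := by
    rw [← hGD, hN', map_mul, map_mul]
    exact mul_div_mul_left _ _ (RatFunc.algebraMap_ne_zero hG0)
  rw [hfrac, natDegree_num_div_of_isCoprime hD'0 hcop,
    natDegree_denom_div_of_isCoprime hD'0 hcop]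
  constructor
  · rw [hN', natDegree_mul hG0 hN'0, hGdeg]; ring
  · rw [hD'deg, ← Finset.sum_add_distrib]
    refine Finset.sum_congr rfl fun α _ => ?_
    show m α - e α + e α = m α
    have : e α ≤ m α := min_le_left _ _
    omega

end Prod

end Fermat.Agent.H12
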