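import Mathlib
import Fermat.Agent.H12.ManinGcd

/-!
# Manin's point count (helper12; P-S52 WP-B5, Mathlib-only polynomial core)

`K` a finite field of odd cardinality `q`, `f = X³ + a₂X² + a₄X + a₆` with simple roots in `K`.
On the twist `f(t) Y² = X³ + a₂X² + a₄X + a₆` over `K(t)` the points `P₀ = (t, 1)` and
`Φ = (t^q, f^((q-1)/2))` have `x(Φ + ε·P₀) = N_ε / (t^q - t)²` for `ε = ±1` with
`N_ε = f (f^((q-1)/2) - ε)² - (t^q + t + a₂)(t^q - t)²`.

We compute the degrees of the reduced numerator and denominator.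
-/

namespace Fermat.Agent.H12

open Polynomial

noncomputable section

variable {K : Type*} [Field K] [Fintype K]

/-- The cubic `X³ + a₂X² + a₄X + a₆`. -/
def maninF (a₂ a₄ a₆ : K) : K[X] := X ^ 3 + C a₂ * X ^ 2 + C a₄ * X + C a₆

/-- Numerator of `x(Φ + ε P₀)` over the denominator `(X^q - X)²`. -/
def maninN (a₂ a₄ a₆ ε : K) : K[X] :=
  maninF a₂ a₄ a₆ * (maninF a₂ a₄ a₆ ^ (Fintype.card K / 2) - C ε) ^ 2
    - (X ^ Fintype.card K + X + C a₂) * (X ^ Fintype.card K - X) ^ 2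

omit [Fintype K] in
theorem maninF_monic (a₂ a₄ a₆ : K) : (maninF a₂ a₄ a₆).Monic := by
  unfold maninF
  monicity!

omit [Fintype K] in
theorem maninF_natDegree (a₂ a₄ a₆ : K) : (maninF a₂ a₄ a₆).natDegree = 3 := by
  unfold maninF
  compute_degree!

omit [Fintype K] in
theorem maninF_eval (a₂ a₄ a₆ α : K) :
    (maninF a₂ a₄ a₆).eval α = α ^ 3 + a₂ * α ^ 2 + a₄ * α + a₆ := by
  simp [maninF]

omit [Fintype K] in
theorem maninF_derivative_eval (a₂ a₄ a₆ α : K) :
    (derivative (maninF a₂ a₄ a₆)).eval α = 3 * α ^ 2 + 2 * a₂ * α + a₄ := by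
  simp [maninF]
  ring

theorem card_eq_two_mul_half_add_one (hK : ringChar K ≠ 2) :
    Fintype.card K = 2 * (Fintype.card K / 2) + 1 := by
  have := FiniteField.odd_card_of_char_ne_two hK
  omega

theorem one_le_card_half (hK : ringChar K ≠ 2) : 1 ≤ Fintype.card K / 2 := by
  have h1 := FiniteField.odd_card_of_char_ne_two hK
  have h2 : 1 < Fintype.card K := Fintype.one_lt_card
  omega

theorem maninF_pow_card (a₂ a₄ a₆ : K) :
    maninF a₂ a₄ a₆ ^ Fintype.card K =
      X ^ (3 * Fintype.card K) + C a₂ * X ^ (2 * Fintype.card K) + C a₄ * X ^ Fintype.card K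
        + C a₆ := by
  rw [← FiniteField.expand_card]
  simp only [maninF, map_add, map_mul, map_pow, expand_X, expand_C]
  ring


/-- Expansion of the numerator: leading term `X^(2q+1)`. -/
theorem maninN_eq (hK : ringChar K ≠ 2) (a₂ a₄ a₆ ε : K) :
    maninN a₂ a₄ a₆ ε = X ^ (2 * Fintype.card K + 1) +
      (X ^ (Fintype.card K + 2) - X ^ 3 + C (2 * a₂) * X ^ (Fintype.card K + 1) - C a₂ * X ^ 2
        + C a₄ * X ^ Fintype.card K + C a₆
        - C (2 * ε) * maninF a₂ a₄ a₆ ^ (Fintype.card K / 2 + 1)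
        + C (ε ^ 2) * maninF a₂ a₄ a₆) := by
  have hq := card_eq_two_mul_half_add_one hK
  have hf := maninF_pow_card a₂ a₄ a₆
  set h := Fintype.card K / 2 with hh
  set f := maninF a₂ a₄ a₆ with hfdef
  unfold maninN
  rw [← hh, ← hfdef]
  rw [hq] at hf ⊢
  simp only [map_mul, map_pow, map_ofNat]
  linear_combination hf

theorem maninN_natDegree (hK : ringChar K ≠ 2) (a₂ a₄ a₆ ε : K) :
    (maninN a₂ a₄ a₆ ε).natDegree = 2 * Fintype.card K + 1 := by
  have hq := card_eq_two_mul_half_add_one hK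
  have h1 := one_le_card_half hK
  rw [maninN_eq hK]
  set h := Fintype.card K / 2 with hh
  set f := maninF a₂ a₄ a₆ with hfdef
  have hfd : f.natDegree = 3 := maninF_natDegree a₂ a₄ a₆
  have hR : (X ^ (Fintype.card K + 2) - X ^ 3 + C (2 * a₂) * X ^ (Fintype.card K + 1)
        - C a₂ * X ^ 2 + C a₄ * X ^ Fintype.card K + C a₆
        - C (2 * ε) * f ^ (h + 1) + C (ε ^ 2) * f : K[X]).natDegree ≤ 3 * h + 3 := by
    have e1 : (f ^ (h + 1)).natDegree ≤ 3 * h + 3 := by
      refine (natDegree_pow_le).trans ?_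
      rw [hfd]; omega
    have e2 : (C (2 * ε) * f ^ (h + 1)).natDegree ≤ 3 * h + 3 :=
      (natDegree_C_mul_le _ _).trans e1
    have e3 : (C (ε ^ 2) * f).natDegree ≤ 3 * h + 3 := by
      refine (natDegree_C_mul_le _ _).trans ?_
      rw [hfd]; omega
    have e4 : (X ^ (Fintype.card K + 2) - X ^ 3 + C (2 * a₂) * X ^ (Fintype.card K + 1)
        - C a₂ * X ^ 2 + C a₄ * X ^ Fintype.card K + C a₆ : K[X]).natDegree ≤ 3 * h + 3 := by
      compute_degree
      all_goals omega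
    have e5 := natDegree_sub_le_of_le e4 e2
    rw [max_self] at e5
    exact natDegree_add_le_of_degree_le e5 e3
  have hlt : (X ^ (Fintype.card K + 2) - X ^ 3 + C (2 * a₂) * X ^ (Fintype.card K + 1)
        - C a₂ * X ^ 2 + C a₄ * X ^ Fintype.card K + C a₆
        - C (2 * ε) * f ^ (h + 1) + C (ε ^ 2) * f : K[X]).natDegree
        < (X ^ (2 * Fintype.card K + 1) : K[X]).natDegree := by
    rw [natDegree_X_pow]
    omega
  rw [natDegree_add_eq_left_of_natDegree_lt hlt, natDegree_X_pow]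

theorem maninN_ne_zero (hK : ringChar K ≠ 2) (a₂ a₄ a₆ ε : K) : maninN a₂ a₄ a₆ ε ≠ 0 := by
  intro h0
  have := maninN_natDegree hK a₂ a₄ a₆ ε
  rw [h0, natDegree_zero] at this
  omega

/-- Value of the numerator at a point of `K`. -/
theorem maninN_eval (a₂ a₄ a₆ ε α : K) :
    (maninN a₂ a₄ a₆ ε).eval α =
      (maninF a₂ a₄ a₆).eval α *
        ((maninF a₂ a₄ a₆).eval α ^ (Fintype.card K / 2) - ε) ^ 2 := by
  unfold maninN
  simp only [eval_sub, eval_mul, eval_pow, eval_add, eval_X, eval_C, FiniteField.pow_card]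
  ring

theorem X_sub_C_dvd_X_pow_card_sub_X (α : K) : (X - C α) ∣ (X ^ Fintype.card K - X : K[X]) := by
  rw [dvd_iff_isRoot]
  simp [FiniteField.pow_card]

/-- Case "both factors cancel": `f(α)^((q-1)/2) = ε`. -/
theorem sq_dvd_maninN (a₂ a₄ a₆ ε α : K)
    (h : (maninF a₂ a₄ a₆).eval α ^ (Fintype.card K / 2) = ε) :
    (X - C α) ^ 2 ∣ maninN a₂ a₄ a₆ ε := by
  unfold maninN
  refine dvd_sub ?_ ?_
  · refine Dvd.dvd.mul_left (pow_dvd_pow_of_dvd ?_ 2) _
    rw [dvd_iff_isRoot]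
    simp [h]
  · exact Dvd.dvd.mul_left (pow_dvd_pow_of_dvd (X_sub_C_dvd_X_pow_card_sub_X α) 2) _

/-- Case "no cancellation": `f(α)^((q-1)/2) = -ε`, `ε = ±1`. -/
theorem maninN_eval_ne_zero (hK : ringChar K ≠ 2) (a₂ a₄ a₆ ε α : K) (hε : ε ^ 2 = 1)
    (h : (maninF a₂ a₄ a₆).eval α ^ (Fintype.card K / 2) = -ε) :
    (maninN a₂ a₄ a₆ ε).eval α ≠ 0 := by
  have h1 := one_le_card_half hK
  have hε0 : ε ≠ 0 := by
    rintro rfl
    simp at hε
  have h2 : (2 : K) ≠ 0 := Ring.two_ne_zero hK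
  rw [maninN_eval, h]
  have hc : (maninF a₂ a₄ a₆).eval α ≠ 0 := by
    intro h0
    rw [h0, zero_pow (by omega)] at h
    exact hε0 (neg_eq_zero.1 h.symm)
  refine mul_ne_zero hc (pow_ne_zero _ ?_)
  have : -ε - ε = -(2 * ε) := by ring
  rw [this]
  exact neg_ne_zero.2 (mul_ne_zero h2 hε0)

/-- Case "exactly one factor cancels": `α` a simple root of `f`. -/
theorem maninN_rootMultiplicity_eq_one (hK : ringChar K ≠ 2) (a₂ a₄ a₆ ε α : K)
    (hε : ε ^ 2 = 1) (h0 : (maninF a₂ a₄ a₆).eval α = 0)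
    (h1 : (derivative (maninF a₂ a₄ a₆)).eval α ≠ 0) :
    (maninN a₂ a₄ a₆ ε).rootMultiplicity α = 1 := by
  have hh := one_le_card_half hK
  obtain ⟨f₁, hf₁⟩ : (X - C α) ∣ maninF a₂ a₄ a₆ := dvd_iff_isRoot.2 h0
  obtain ⟨w, hw⟩ := X_sub_C_dvd_X_pow_card_sub_X α
  have hf₁α : f₁.eval α ≠ 0 := by
    have : (derivative (maninF a₂ a₄ a₆)).eval α = f₁.eval α := by
      rw [hf₁]
      simp
    rwa [this] at h1
  set B : K[X] := f₁ * (maninF a₂ a₄ a₆ ^ (Fintype.card K / 2) - C ε) ^ 2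
      - (X ^ Fintype.card K + X + C a₂) * ((X - C α) * w ^ 2) with hB
  have hNB : maninN a₂ a₄ a₆ ε = (X - C α) * B := by
    unfold maninN
    rw [hw, hB]
    nth_rewrite 1 [hf₁]
    ring
  have hBα : B.eval α ≠ 0 := by
    rw [hB]
    simp only [eval_sub, eval_mul, eval_pow, eval_add, eval_X, eval_C, h0, sub_self, zero_mul,
      mul_zero, sub_zero]
    rw [zero_pow (by omega), zero_sub, neg_sq, hε, mul_one]
    exact hf₁α
  have hB0 : B ≠ 0 := by
    rintro h
    rw [h] at hBα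
    simp at hBα
  rw [hNB, rootMultiplicity_mul (mul_ne_zero (X_sub_C_ne_zero α) hB0),
    rootMultiplicity_X_sub_C_self, rootMultiplicity_eq_zero hBα]


section Main

variable [DecidableEq K]

/-- The roots of `f` in `K`. -/
def maninS0 (a₂ a₄ a₆ : K) : Finset K :=
  Finset.univ.filter fun α => (maninF a₂ a₄ a₆).eval α = 0

/-- The `α ∈ K` with `f(α)^((q-1)/2) = ε`. -/
def maninS (a₂ a₄ a₆ ε : K) : Finset K :=
  Finset.univ.filter fun α => (maninF a₂ a₄ a₆).eval α ^ (Fintype.card K / 2) = ε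

omit [DecidableEq K] in
theorem prod_X_sub_C_eq_X_pow_card_sub_X :
    ∏ α ∈ (Finset.univ : Finset K), (X - C α) = (X ^ Fintype.card K - X : K[X]) := by
  have hmonic : (X ^ Fintype.card K - X : K[X]).Monic := by
    apply monic_X_pow_sub
    rw [degree_X]
    exact_mod_cast Fintype.one_lt_card
  have hroots := FiniteField.roots_X_pow_card_sub_X K
  have hcard : Multiset.card (X ^ Fintype.card K - X : K[X]).roots =
      (X ^ Fintype.card K - X : K[X]).natDegree := by
    rw [hroots, FiniteField.X_pow_card_sub_X_natDegree_eq K Fintype.one_lt_card]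
    simp
  have := prod_multiset_X_sub_C_of_monic_of_roots_card_eq hmonic hcard
  rw [hroots] at this
  exact this

omit [DecidableEq K] in
theorem prod_X_sub_C_sq_eq :
    ∏ α ∈ (Finset.univ : Finset K), (X - C α) ^ 2 = ((X ^ Fintype.card K - X) ^ 2 : K[X]) := by
  rw [Finset.prod_pow, prod_X_sub_C_eq_X_pow_card_sub_X]

omit [DecidableEq K] [Fintype K] in
theorem eps_cases {ε : K} (hε : ε ^ 2 = 1) : ε = 1 ∨ ε = -1 := sq_eq_one_iff.1 hε

theorem min_two_rootMultiplicity_maninN (hK : ringChar K ≠ 2) (a₂ a₄ a₆ ε : K)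
    (hε : ε ^ 2 = 1)
    (hsimple : ∀ α : K, (maninF a₂ a₄ a₆).eval α = 0 →
      (derivative (maninF a₂ a₄ a₆)).eval α ≠ 0) (α : K) :
    min 2 ((maninN a₂ a₄ a₆ ε).rootMultiplicity α) =
      (if (maninF a₂ a₄ a₆).eval α = 0 then 1 else 0) +
        2 * (if (maninF a₂ a₄ a₆).eval α ^ (Fintype.card K / 2) = ε then 1 else 0) := by
  have hh := one_le_card_half hK
  have hε0 : ε ≠ 0 := by
    rintro rfl
    simp at hε
  by_cases h0 : (maninF a₂ a₄ a₆).eval α = 0
  · have h1 : ¬ ((maninF a₂ a₄ a₆).eval α ^ (Fintype.card K / 2) = ε) := by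
      rw [h0, zero_pow (by omega)]
      exact fun h => hε0 h.symm
    rw [if_pos h0, if_neg h1, maninN_rootMultiplicity_eq_one hK a₂ a₄ a₆ ε α hε h0 (hsimple α h0)]
    rfl
  · rw [if_neg h0]
    by_cases h1 : (maninF a₂ a₄ a₆).eval α ^ (Fintype.card K / 2) = ε
    · rw [if_pos h1]
      have h2 := (le_rootMultiplicity_iff (maninN_ne_zero hK a₂ a₄ a₆ ε)).2
        (sq_dvd_maninN a₂ a₄ a₆ ε α h1)
      omega
    · rw [if_neg h1]
      have h2 : (maninF a₂ a₄ a₆).eval α ^ (Fintype.card K / 2) = -ε := by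
        rcases FiniteField.pow_dichotomy hK h0 with h | h <;>
          rcases eps_cases hε with h' | h'
        · exact absurd (h.trans h'.symm) h1
        · rw [h, h', neg_neg]
        · rw [h, h']
        · exact absurd (h.trans h'.symm) h1
      have h3 := maninN_eval_ne_zero hK a₂ a₄ a₆ ε α hε h2
      rw [rootMultiplicity_eq_zero h3]
      rfl

theorem sum_min_two_rootMultiplicity_maninN (hK : ringChar K ≠ 2) (a₂ a₄ a₆ ε : K)
    (hε : ε ^ 2 = 1)
    (hsimple : ∀ α : K, (maninF a₂ a₄ a₆).eval α = 0 →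
      (derivative (maninF a₂ a₄ a₆)).eval α ≠ 0) :
    ∑ α ∈ (Finset.univ : Finset K), min 2 ((maninN a₂ a₄ a₆ ε).rootMultiplicity α) =
      (maninS0 a₂ a₄ a₆).card + 2 * (maninS a₂ a₄ a₆ ε).card := by
  rw [Finset.sum_congr rfl fun α _ => min_two_rootMultiplicity_maninN hK a₂ a₄ a₆ ε hε hsimple α,
    Finset.sum_add_distrib, ← Finset.mul_sum, maninS0, maninS, Finset.card_filter,
    Finset.card_filter]

/-- The three classes partition `K`. -/
theorem card_maninS0_add (hK : ringChar K ≠ 2) (a₂ a₄ a₆ : K) :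
    (maninS0 a₂ a₄ a₆).card + (maninS a₂ a₄ a₆ 1).card + (maninS a₂ a₄ a₆ (-1)).card =
      Fintype.card K := by
  have hh := one_le_card_half hK
  have h2 : (2 : K) ≠ 0 := Ring.two_ne_zero hK
  have h11 : (1 : K) ≠ -1 := by
    intro h
    have : (2 : K) = 0 := by linear_combination h
    exact h2 this
  have hpt : ∀ α : K, ((if (maninF a₂ a₄ a₆).eval α = 0 then 1 else 0) +
      (if (maninF a₂ a₄ a₆).eval α ^ (Fintype.card K / 2) = 1 then 1 else 0) +
      (if (maninF a₂ a₄ a₆).eval α ^ (Fintype.card K / 2) = -1 then 1 else 0) : ℕ) = 1 := by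
    intro α
    by_cases h0 : (maninF a₂ a₄ a₆).eval α = 0
    · have h1 : ¬ ((maninF a₂ a₄ a₆).eval α ^ (Fintype.card K / 2) = 1) := by
        rw [h0, zero_pow (by omega)]
        exact zero_ne_one
      have h1' : ¬ ((maninF a₂ a₄ a₆).eval α ^ (Fintype.card K / 2) = -1) := by
        rw [h0, zero_pow (by omega)]
        exact fun h => one_ne_zero (neg_eq_zero.1 h.symm)
      rw [if_pos h0, if_neg h1, if_neg h1']
    · rcases FiniteField.pow_dichotomy hK h0 with h | h
      · rw [if_neg h0, if_pos h, if_neg (by rw [h]; exact h11)]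
      · rw [if_neg h0, if_neg (by rw [h]; exact fun h' => h11 h'.symm), if_pos h]
  rw [maninS0, maninS, maninS, Finset.card_filter, Finset.card_filter, Finset.card_filter,
    ← Finset.sum_add_distrib, ← Finset.sum_add_distrib,
    Finset.sum_congr rfl fun α _ => hpt α]
  simp

/-- **Manin's count, polynomial form.**  Degrees of the reduced numerator and denominator of
`x(Φ + ε P₀) = N_ε / (X^q - X)²`. -/
theorem manin_natDegree_num_denom (hK : ringChar K ≠ 2) (a₂ a₄ a₆ ε : K) (hε : ε ^ 2 = 1)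
    (hsimple : ∀ α : K, (maninF a₂ a₄ a₆).eval α = 0 →
      (derivative (maninF a₂ a₄ a₆)).eval α ≠ 0) :
    (algebraMap K[X] (RatFunc K) (maninN a₂ a₄ a₆ ε) /
        algebraMap K[X] (RatFunc K) ((X ^ Fintype.card K - X) ^ 2)).num.natDegree =
      (maninS0 a₂ a₄ a₆).card + 2 * (maninS a₂ a₄ a₆ (-ε)).card + 1 ∧
    (algebraMap K[X] (RatFunc K) (maninN a₂ a₄ a₆ ε) /
        algebraMap K[X] (RatFunc K) ((X ^ Fintype.card K - X) ^ 2)).denom.natDegree =
      (maninS0 a₂ a₄ a₆).card + 2 * (maninS a₂ a₄ a₆ (-ε)).card := by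
  have key := natDegree_num_denom_div_prod (maninN a₂ a₄ a₆ ε) (maninN_ne_zero hK a₂ a₄ a₆ ε)
    (Finset.univ : Finset K) (fun _ => 2)
  rw [prod_X_sub_C_sq_eq, sum_min_two_rootMultiplicity_maninN hK a₂ a₄ a₆ ε hε hsimple,
    maninN_natDegree hK] at key
  have hpart := card_maninS0_add hK a₂ a₄ a₆
  have hsum : ∑ _α ∈ (Finset.univ : Finset K), 2 = 2 * Fintype.card K := by
    rw [Finset.sum_const, Finset.card_univ, smul_eq_mul, mul_comm]
  rw [hsum] at key
  obtain ⟨k1, k2⟩ := key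
  rcases eps_cases hε with h | h
  · subst h
    constructor <;> omega
  · subst h
    rw [neg_neg]
    constructor <;> omega


/-! ### The point count -/

theorem natCard_sqrts (hK : ringChar K ≠ 2) (c : K) :
    Nat.card {y : K // y ^ 2 = c} =
      (if c = 0 then 1 else 0) + 2 * (if c ^ (Fintype.card K / 2) = 1 then 1 else 0) := by
  have hh := one_le_card_half hK
  have h := quadraticChar_card_sqrts hK c
  have h1 : Nat.card {y : K // y ^ 2 = c} = ({x : K | x ^ 2 = c}.toFinset).card := by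
    rw [Set.toFinset_card, Nat.card_eq_fintype_card]
    rfl
  by_cases h0 : c = 0
  · have h2 : ¬ (c ^ (Fintype.card K / 2) = 1) := by
      rw [h0, zero_pow (by omega)]
      exact zero_ne_one
    rw [if_pos h0, if_neg h2, h1]
    rw [h0, quadraticChar_zero] at h
    rw [h0]
    exact_mod_cast h
  · rw [if_neg h0, h1]
    rw [quadraticChar_eq_pow_of_char_ne_two hK h0] at h
    by_cases h2 : c ^ (Fintype.card K / 2) = 1
    · rw [if_pos h2] at h ⊢
      have : ((({x : K | x ^ 2 = c}.toFinset).card : ℕ) : ℤ) = 2 := by rw [h]; norm_num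
      have h3 : ({x : K | x ^ 2 = c}.toFinset).card = 2 := by exact_mod_cast this
      rw [h3]
    · rw [if_neg h2] at h ⊢
      have : ((({x : K | x ^ 2 = c}.toFinset).card : ℕ) : ℤ) = 0 := by rw [h]; norm_num
      have h3 : ({x : K | x ^ 2 = c}.toFinset).card = 0 := by exact_mod_cast this
      rw [h3]

/-- Number of affine solutions of `y² = f(x)`. -/
theorem natCard_affine_solutions (hK : ringChar K ≠ 2) (a₂ a₄ a₆ : K) :
    Nat.card {p : K × K // p.2 ^ 2 = (maninF a₂ a₄ a₆).eval p.1} =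
      (maninS0 a₂ a₄ a₆).card + 2 * (maninS a₂ a₄ a₆ 1).card := by
  rw [Nat.card_congr (Equiv.subtypeProdEquivSigmaSubtype
    (fun (x y : K) => y ^ 2 = (maninF a₂ a₄ a₆).eval x)), Nat.card_sigma]
  rw [Finset.sum_congr rfl fun x _ => natCard_sqrts hK ((maninF a₂ a₄ a₆).eval x),
    Finset.sum_add_distrib, ← Finset.mul_sum, maninS0, maninS, Finset.card_filter,
    Finset.card_filter]


/-! ### Link with Weierstrass curves `y² = x³ + a₂x² + a₄x + a₆` -/

/-- The Weierstrass curve `y² = x³ + a₂x² + a₄x + a₆`. -/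
def maninW (a₂ a₄ a₆ : K) : WeierstrassCurve K := ⟨0, a₂, 0, a₄, a₆⟩

omit [Fintype K] [DecidableEq K] in
theorem maninW_equation_iff (a₂ a₄ a₆ x y : K) :
    (maninW a₂ a₄ a₆).toAffine.Equation x y ↔ y ^ 2 = (maninF a₂ a₄ a₆).eval x := by
  rw [WeierstrassCurve.Affine.equation_iff, maninF_eval]
  simp [maninW]

omit [Fintype K] [DecidableEq K] in
theorem maninF_simple_of_Δ_ne_zero (a₂ a₄ a₆ : K) (hΔ : (maninW a₂ a₄ a₆).Δ ≠ 0) (α : K)
    (h0 : (maninF a₂ a₄ a₆).eval α = 0) : (derivative (maninF a₂ a₄ a₆)).eval α ≠ 0 := by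
  have heq : (maninW a₂ a₄ a₆).toAffine.Equation α 0 := by
    rw [maninW_equation_iff, h0]; ring
  have hns := (WeierstrassCurve.Affine.equation_iff_nonsingular_of_Δ_ne_zero
    (W := (maninW a₂ a₄ a₆).toAffine) hΔ).1 heq
  rw [WeierstrassCurve.Affine.nonsingular_iff] at hns
  rw [maninF_derivative_eval]
  rcases hns.2 with h | h
  · intro h'
    apply h
    simp only [maninW, zero_mul]
    exact h'.symm
  · exfalso
    apply h
    simp [maninW]

omit [DecidableEq K] in
theorem natCard_maninW_point (a₂ a₄ a₆ : K) (hΔ : (maninW a₂ a₄ a₆).Δ ≠ 0) :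
    Nat.card (maninW a₂ a₄ a₆).toAffine.Point =
      Nat.card {p : K × K // p.2 ^ 2 = (maninF a₂ a₄ a₆).eval p.1} + 1 := by
  classical
  rw [Nat.card_congr (WeierstrassCurve.Affine.nonsingularPointEquiv (maninW a₂ a₄ a₆).toAffine)]
  have e : {xy : K × K // (maninW a₂ a₄ a₆).toAffine.Nonsingular xy.1 xy.2} ≃
      {p : K × K // p.2 ^ 2 = (maninF a₂ a₄ a₆).eval p.1} :=
    Equiv.subtypeEquivRight fun p => by
      rw [← WeierstrassCurve.Affine.equation_iff_nonsingular_of_Δ_ne_zero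
        (W := (maninW a₂ a₄ a₆).toAffine) hΔ, maninW_equation_iff]
  show Nat.card (Option _) = _
  rw [Finite.card_option, Nat.card_congr e]

omit [DecidableEq K] in
/-- **Manin's count.**  For the Weierstrass curve `E : y² = x³ + a₂x² + a₄x + a₆` over a finite
field `K` of odd cardinality `q` with `Δ ≠ 0`, writing `f` for the cubic and
`x(Φ - P₀) = (f (f^((q-1)/2) + 1)² - (X^q + X + a₂)(X^q - X)²) / (X^q - X)²`:
the reduced numerator has degree `#E(K)` and the reduced denominator degree `#E(K) - 1`. -/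
theorem manin_count_sub (hK : ringChar K ≠ 2) (a₂ a₄ a₆ : K)
    (hΔ : (maninW a₂ a₄ a₆).Δ ≠ 0) :
    (algebraMap K[X] (RatFunc K) (maninN a₂ a₄ a₆ (-1)) /
        algebraMap K[X] (RatFunc K) ((X ^ Fintype.card K - X) ^ 2)).num.natDegree =
      Nat.card (maninW a₂ a₄ a₆).toAffine.Point ∧
    (algebraMap K[X] (RatFunc K) (maninN a₂ a₄ a₆ (-1)) /
        algebraMap K[X] (RatFunc K) ((X ^ Fintype.card K - X) ^ 2)).denom.natDegree + 1 =
      Nat.card (maninW a₂ a₄ a₆).toAffine.Point := by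
  classical
  have h := manin_natDegree_num_denom hK a₂ a₄ a₆ (-1) (by ring)
    (maninF_simple_of_Δ_ne_zero a₂ a₄ a₆ hΔ)
  rw [neg_neg] at h
  rw [natCard_maninW_point a₂ a₄ a₆ hΔ, natCard_affine_solutions hK]
  exact ⟨h.1, by rw [h.2]⟩

omit [DecidableEq K] in
/-- **Manin's count, twisted side.**  For `x(Φ + P₀)` the reduced numerator has degree
`2q + 2 - #E(K)`. -/
theorem manin_count_add (hK : ringChar K ≠ 2) (a₂ a₄ a₆ : K)
    (hΔ : (maninW a₂ a₄ a₆).Δ ≠ 0) :
    (algebraMap K[X] (RatFunc K) (maninN a₂ a₄ a₆ 1) /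
        algebraMap K[X] (RatFunc K) ((X ^ Fintype.card K - X) ^ 2)).num.natDegree +
      Nat.card (maninW a₂ a₄ a₆).toAffine.Point = 2 * Fintype.card K + 2 ∧
    (algebraMap K[X] (RatFunc K) (maninN a₂ a₄ a₆ 1) /
        algebraMap K[X] (RatFunc K) ((X ^ Fintype.card K - X) ^ 2)).denom.natDegree +
      Nat.card (maninW a₂ a₄ a₆).toAffine.Point = 2 * Fintype.card K + 1 := by
  classical
  have h := manin_natDegree_num_denom hK a₂ a₄ a₆ 1 (by ring)
    (maninF_simple_of_Δ_ne_zero a₂ a₄ a₆ hΔ)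
  have hpart := card_maninS0_add hK a₂ a₄ a₆
  rw [natCard_maninW_point a₂ a₄ a₆ hΔ, natCard_affine_solutions hK, h.1, h.2]
  constructor <;> omega

omit [DecidableEq K] in
/-- The rational function `x(Φ + ε P₀)` in "chord" form. -/
theorem maninN_div_eq (a₂ a₄ a₆ ε : K) :
    algebraMap K[X] (RatFunc K) (maninN a₂ a₄ a₆ ε) /
        algebraMap K[X] (RatFunc K) ((X ^ Fintype.card K - X) ^ 2) =
      algebraMap K[X] (RatFunc K) (maninF a₂ a₄ a₆) *
        ((algebraMap K[X] (RatFunc K) (maninF a₂ a₄ a₆) ^ (Fintype.card K / 2)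
            - RatFunc.C ε) /
          (RatFunc.X ^ Fintype.card K - RatFunc.X)) ^ 2
        - RatFunc.C a₂ - RatFunc.X ^ Fintype.card K - RatFunc.X := by
  have hw : (X ^ Fintype.card K - X : K[X]) ≠ 0 :=
    FiniteField.X_pow_card_sub_X_ne_zero K Fintype.one_lt_card
  have hw' : (RatFunc.X ^ Fintype.card K - RatFunc.X : RatFunc K) ≠ 0 := by
    have := RatFunc.algebraMap_ne_zero hw
    simpa using this
  rw [div_eq_iff (by simpa using pow_ne_zero 2 hw')]
  unfold maninN
  simp only [map_sub, map_mul, map_pow, map_add, RatFunc.algebraMap_X, RatFunc.algebraMap_C]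
  field_simp
  ring

end Main

end

end Fermat.Agent.H12
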