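import Mathlib
import Fermat.Agent.H12.ManinCount
import Fermat.Agent.H47.RatHeight
import Fermat.Agent.H74.TwistInterfaces

/-!
# P-S52 / WP-B : `FrobSubStatement` (B4 ∘ B5, Manin's count for an arbitrary `ξ`) (helper12)

`h(Frob P - P) = #E(𝔽_ℓ) · h(P)` in the `RatFunc` form of `Fermat.Agent.H74.TwistInterfaces`,
from the polynomial core `Fermat.Agent.H12.manin_count_sub` (case `ξ = X`) and multiplicativity
of the height under substitution (`Fermat.Agent.H47.ratHeight_ratSubst`).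
-/

set_option autoImplicit false

namespace Fermat.Agent.H12

open Polynomial

/-- `hdeg` of the `ξ = X` case. -/
theorem hdeg_manin_sub {K : Type*} [Field K] [Fintype K] (hK : ringChar K ≠ 2) (a₂ a₄ a₆ : K)
    (hΔ : (maninW a₂ a₄ a₆).Δ ≠ 0) :
    Fermat.Agent.H47.ratHeight
        (algebraMap K[X] (RatFunc K) (maninN a₂ a₄ a₆ (-1)) /
          algebraMap K[X] (RatFunc K) ((X ^ Fintype.card K - X) ^ 2)) =
      Nat.card (maninW a₂ a₄ a₆).toAffine.Point := by
  obtain ⟨h1, h2⟩ := manin_count_sub hK a₂ a₄ a₆ hΔ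
  unfold Fermat.Agent.H47.ratHeight
  rw [h1]
  omega

/-- `hdeg` of the `ξ = X` case, twisted side. -/
theorem hdeg_manin_add {K : Type*} [Field K] [Fintype K] (hK : ringChar K ≠ 2) (a₂ a₄ a₆ : K)
    (hΔ : (maninW a₂ a₄ a₆).Δ ≠ 0) :
    Fermat.Agent.H47.ratHeight
        (algebraMap K[X] (RatFunc K) (maninN a₂ a₄ a₆ 1) /
          algebraMap K[X] (RatFunc K) ((X ^ Fintype.card K - X) ^ 2)) +
      Nat.card (maninW a₂ a₄ a₆).toAffine.Point = 2 * Fintype.card K + 2 := by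
  obtain ⟨h1, h2⟩ := manin_count_add hK a₂ a₄ a₆ hΔ
  unfold Fermat.Agent.H47.ratHeight
  omega

/-- General `ξ`, general cubic, any finite field of odd cardinality, both signs:
the height of `x(Frob P + ε P)`-expression in `ξ` is the height at `ξ = X` times `h(ξ)`. -/
theorem ratHeight_manin_subst {K : Type*} [Field K] [Fintype K] (a₂ a₄ a₆ ε : K)
    (ξ : RatFunc K) (hξ : ¬ ∃ c, ξ = RatFunc.C c) :
    Fermat.Agent.H47.ratHeight
        (((ξ ^ 3 + RatFunc.C a₂ * ξ ^ 2 + RatFunc.C a₄ * ξ + RatFunc.C a₆) *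
            ((ξ ^ 3 + RatFunc.C a₂ * ξ ^ 2 + RatFunc.C a₄ * ξ + RatFunc.C a₆) ^
                (Fintype.card K / 2) - RatFunc.C ε) ^ 2 -
          (ξ ^ Fintype.card K + ξ + RatFunc.C a₂) * (ξ ^ Fintype.card K - ξ) ^ 2) /
            (ξ ^ Fintype.card K - ξ) ^ 2) =
      Fermat.Agent.H47.ratHeight
        (algebraMap K[X] (RatFunc K) (maninN a₂ a₄ a₆ ε) /
          algebraMap K[X] (RatFunc K) ((X ^ Fintype.card K - X) ^ 2)) *
        Fermat.Agent.H47.ratHeight ξ := by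
  rw [← Fermat.Agent.H47.ratHeight_ratSubst ξ hξ]
  congr 1
  rw [map_div₀, Fermat.Agent.H47.ratSubst_algebraMap, Fermat.Agent.H47.ratSubst_algebraMap]
  unfold maninN maninF
  simp only [map_sub, map_mul, map_pow, map_add, aeval_X, aeval_C, RatFunc.algebraMap_eq_C]


/-- **B4 ∘ B5** in the exact interface form of helper74: for `ℓ` an odd prime and
`y² = x³ + a x + b` with nonzero discriminant over `ZMod ℓ`. -/
theorem frobSubStatement (ℓ : ℕ) [Fact ℓ.Prime] (hℓ : ℓ ≠ 2) (a b : ZMod ℓ)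
    (hΔ : (Fermat.Agent.H74.shortCurve a b).Δ ≠ 0) :
    Fermat.Agent.H74.FrobSubStatement ℓ a b := by
  intro ξ hξ
  have hK : ringChar (ZMod ℓ) ≠ 2 := by rwa [ZMod.ringChar_zmod_n]
  have hcard : Fintype.card (ZMod ℓ) = ℓ := ZMod.card ℓ
  have hodd : ℓ / 2 = (ℓ - 1) / 2 := by
    have h2 := (Fact.out : ℓ.Prime).eq_two_or_odd
    rcases h2 with h | h
    · exact absurd h hℓ
    · omega
  have hconst : ¬ ∃ c, ξ = RatFunc.C c := by
    rintro ⟨c, rfl⟩
    apply hξ
    rw [← map_pow, ZMod.pow_card]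
  have hW : maninW 0 a b = Fermat.Agent.H74.shortCurve a b := rfl
  have key := ratHeight_manin_subst (K := ZMod ℓ) 0 a b (-1) ξ hconst
  rw [hdeg_manin_sub hK 0 a b (by rw [hW]; exact hΔ), hW, hcard, hodd] at key
  show Fermat.Agent.H47.ratHeight _ = _ * Fermat.Agent.H47.ratHeight ξ
  rw [← key]
  congr 1
  simp only [map_zero, zero_mul, add_zero, map_neg, map_one, sub_neg_eq_add]

end Fermat.Agent.H12
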