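/-
helper12 (P-S13, WP5): the general "Diff" lemma.  Two integral affine points of an ARBITRARY
integral Weierstrass model (no restriction on `a₁`, `a₃`, any residue characteristic) that are
close differ by an element of the kernel of reduction.  Generalises
`Fermat.Agent.H4.IsShort.inE1_sub` (short models only).
-/
import Fermat.Agent.H26.KernelReduction

set_option autoImplicit false

namespace Fermat.Agent.H12

open WeierstrassCurve WeierstrassCurve.Affine

variable {L : Type*} [Field L]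
variable {Γ₀ : Type*} [LinearOrderedCommGroupWithZero Γ₀]

/-- If `v a < v b` and `c * a = b` then `1 < v c`. -/
lemma one_lt_val_of_mul_eq (v : Valuation L Γ₀) {a b c : L} (h : c * a = b)
    (hlt : v a < v b) : 1 < v c := by
  by_contra hcon
  have hle : v c ≤ 1 := not_lt.mp hcon
  have : v b ≤ v a := by
    rw [← h, map_mul]; exact mul_le_of_le_one_left' hle
  exact absurd hlt (not_lt.mpr this)

/-- A non-integral slope produces a non-integral `x`-coordinate of the sum. -/
lemma one_lt_val_addX {W : WeierstrassCurve.Affine L} (v : Valuation L Γ₀)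
    (hW : Fermat.Agent.H26.IsIntegralAt v W) {x₁ x₂ ℓ : L} (hx₁ : v x₁ ≤ 1) (hx₂ : v x₂ ≤ 1)
    (hℓ : 1 < v ℓ) : 1 < v (W.addX x₁ x₂ ℓ) := by
  have e : W.addX x₁ x₂ ℓ = ℓ ^ 2 - (-(W.a₁ * ℓ) + W.a₂ + x₁ + x₂) := by
    simp only [Affine.addX]; ring
  have hpos : 0 < v ℓ := lt_trans zero_lt_one hℓ
  have hℓ2 : v ℓ < v (ℓ ^ 2) := by
    rw [map_pow, sq]
    calc v ℓ = v ℓ * 1 := (mul_one _).symm
      _ < v ℓ * v ℓ := mul_lt_mul_of_pos_left hℓ hpos
  have h1 : v (-(W.a₁ * ℓ)) ≤ v ℓ := by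
    rw [Valuation.map_neg, map_mul]
    exact mul_le_of_le_one_left' hW.a₁
  have h2 : v (-(W.a₁ * ℓ) + W.a₂ + x₁ + x₂) ≤ v ℓ := by
    refine (v.map_add_le ((v.map_add_le ((v.map_add_le h1 (hW.a₂.trans hℓ.le))))
      (hx₁.trans hℓ.le)) (hx₂.trans hℓ.le))
  rw [e, v.map_sub_eq_of_lt_left (lt_of_le_of_lt h2 hℓ2)]
  exact lt_trans hℓ hℓ2

variable [DecidableEq L]

/-- **General Diff lemma.** Let `P = (x,y)`, `P' = (x',y')` be affine points with integral
`x`-coordinates on a Weierstrass curve with `v`-integral coefficients. If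
`v (x' - x) < v (y' + y + a₁ x + a₃)`, or
`v (y' - y) < v (x'² + x'x + x² + a₂ (x' + x) + a₄ - a₁ y)`, then `P' - P` lies in the kernel of
reduction. -/
theorem inKer_sub_of_close {W : WeierstrassCurve.Affine L} (v : Valuation L Γ₀)
    (hW : Fermat.Agent.H26.IsIntegralAt v W)
    {x y x' y' : L} (h : W.Nonsingular x y) (h' : W.Nonsingular x' y')
    (hx : v x ≤ 1) (hx' : v x' ≤ 1)
    (hclose : v (x' - x) < v (y' + y + W.a₁ * x + W.a₃) ∨
      v (y' - y) < v (x' ^ 2 + x' * x + x ^ 2 + W.a₂ * (x' + x) + W.a₄ - W.a₁ * y)) :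
    Fermat.Agent.H26.InKer v (Point.some x' y' h' - Point.some x y h) := by
  rw [sub_eq_add_neg, Point.neg_some]
  by_cases hne : x' = x ∧ y' = W.negY x (W.negY x y)
  · rw [Point.add_of_Y_eq hne.1 hne.2]
    trivial
  rw [Point.add_some hne, Fermat.Agent.H26.inKer_some]
  apply one_lt_val_addX v hW hx' hx
  have e₁ : y ^ 2 + W.a₁ * x * y + W.a₃ * y = x ^ 3 + W.a₂ * x ^ 2 + W.a₄ * x + W.a₆ :=
    (Affine.equation_iff _ _).mp h.1
  have e₂ : y' ^ 2 + W.a₁ * x' * y' + W.a₃ * y' = x' ^ 3 + W.a₂ * x' ^ 2 + W.a₄ * x' + W.a₆ :=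
    (Affine.equation_iff _ _).mp h'.1
  by_cases hxx : x' = x
  · -- tangent case: `P' = -P`
    have hyy : y' ≠ y := fun hy => hne ⟨hxx, by rw [Affine.negY_negY]; exact hy⟩
    have hy' : y' = W.negY x y := by
      rcases Affine.Y_eq_of_X_eq h'.1 h.1 hxx with h1 | h1
      · exact absurd h1 hyy
      · exact h1
    have hyn : y' ≠ W.negY x (W.negY x y) := by rw [Affine.negY_negY]; exact hyy
    rw [Affine.slope_of_Y_ne hxx hyn]
    have hden : y' - W.negY x' y' = y' - y := by
      rw [hxx, hy', Affine.negY_negY]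
    rw [hden]
    have hd0 : y' - y ≠ 0 := sub_ne_zero.mpr hyy
    rcases hclose with hc | hc
    · exfalso
      have e0 : y' + y + W.a₁ * x + W.a₃ = 0 := by
        rw [hy']; simp only [Affine.negY]; ring
      rw [e0, map_zero] at hc
      exact absurd hc (not_lt.mpr zero_le)
    · have hG : v (3 * x' ^ 2 + 2 * W.a₂ * x' + W.a₄ - W.a₁ * y')
          = v (x' ^ 2 + x' * x + x ^ 2 + W.a₂ * (x' + x) + W.a₄ - W.a₁ * y) := by
        have e : 3 * x' ^ 2 + 2 * W.a₂ * x' + W.a₄ - W.a₁ * y'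
            = (x' ^ 2 + x' * x + x ^ 2 + W.a₂ * (x' + x) + W.a₄ - W.a₁ * y)
              - W.a₁ * (y' - y) := by
          rw [hxx]; ring
        rw [e]
        apply v.map_sub_eq_of_lt_left
        refine lt_of_le_of_lt ?_ hc
        rw [map_mul]; exact mul_le_of_le_one_left' hW.a₁
      apply one_lt_val_of_mul_eq v (a := y' - y)
        (b := 3 * x' ^ 2 + 2 * W.a₂ * x' + W.a₄ - W.a₁ * y') (div_mul_cancel₀ _ hd0)
      rw [hG]; exact hc
  · -- chord case
    rw [Affine.slope_of_X_ne hxx]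
    have hd0 : x' - x ≠ 0 := sub_ne_zero.mpr hxx
    have hnum : y' - W.negY x y = y' + y + W.a₁ * x + W.a₃ := by
      simp only [Affine.negY]; ring
    rw [hnum]
    rcases hclose with hc | hc
    · exact one_lt_val_of_mul_eq v (div_mul_cancel₀ _ hd0) hc
    · -- `(y' - y) * N = (x' - x) * (G - a₁ (y' - y))`
      have key : (y' - y) * (y' + y + W.a₁ * x + W.a₃)
          = (x' - x) * ((x' ^ 2 + x' * x + x ^ 2 + W.a₂ * (x' + x) + W.a₄ - W.a₁ * y)
              - W.a₁ * (y' - y)) := by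
        linear_combination e₂ - e₁
      have hyy : y' - y ≠ 0 := by
        intro h0
        rw [h0, map_zero] at hc
        rw [h0, zero_mul, mul_zero, sub_zero] at key
        have : x' ^ 2 + x' * x + x ^ 2 + W.a₂ * (x' + x) + W.a₄ - W.a₁ * y = 0 := by
          rcases mul_eq_zero.mp key.symm with h1 | h1
          · exact absurd h1 hd0
          · exact h1
        rw [this, map_zero] at hc
        exact lt_irrefl _ hc
      have hG : v ((x' ^ 2 + x' * x + x ^ 2 + W.a₂ * (x' + x) + W.a₄ - W.a₁ * y)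
            - W.a₁ * (y' - y))
          = v (x' ^ 2 + x' * x + x ^ 2 + W.a₂ * (x' + x) + W.a₄ - W.a₁ * y) := by
        apply v.map_sub_eq_of_lt_left
        refine lt_of_le_of_lt ?_ hc
        rw [map_mul]; exact mul_le_of_le_one_left' hW.a₁
      have e3 : (y' + y + W.a₁ * x + W.a₃) / (x' - x) * (y' - y)
          = (x' ^ 2 + x' * x + x ^ 2 + W.a₂ * (x' + x) + W.a₄ - W.a₁ * y)
              - W.a₁ * (y' - y) := by
        field_simp
        linear_combination key
      apply one_lt_val_of_mul_eq v e3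
      rw [hG]; exact hc

end Fermat.Agent.H12
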