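/-
helper12 (P-S13, WP5(C), "pigeonhole part"): on a Weierstrass model `y² + x y = x³ + a₂ x² + a₄ x`
over a valued field whose residue field has two elements, with `a₂` integral and `a₄` in the
maximal ideal, a point of odd order prime to `3` cannot have an `x`-coordinate of valuation `≥ 1`
(i.e. it can neither lie in the kernel of reduction nor reduce to a nonsingular point).
-/
import Fermat.Agent.H12.S13Diff
import Fermat.Agent.H70.AddSub

set_option autoImplicit false

namespace Fermat.Agent.H12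

open WeierstrassCurve WeierstrassCurve.Affine

variable {L : Type*} [Field L]
variable {Γ₀ : Type*} [LinearOrderedCommGroupWithZero Γ₀]

/-- Integrality of the `y`-coordinate of a point with integral `x`-coordinate. -/
lemma val_y_le_one {W : WeierstrassCurve.Affine L} (v : Valuation L Γ₀)
    (hW : Fermat.Agent.H26.IsIntegralAt v W) {x y : L} (h : W.Equation x y) (hx : v x ≤ 1) :
    v y ≤ 1 := by
  by_contra hcon
  have hy : 1 < v y := not_le.mp hcon
  have hpos : 0 < v y := lt_trans zero_lt_one hy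
  rw [Affine.equation_iff] at h
  have e : y ^ 2 = (x ^ 3 + W.a₂ * x ^ 2 + W.a₄ * x + W.a₆) - (W.a₁ * x * y + W.a₃ * y) := by
    linear_combination h
  have hx2 : v (x ^ 2) ≤ 1 := by rw [map_pow]; exact pow_le_one₀ zero_le hx
  have hx3 : v (x ^ 3) ≤ 1 := by rw [map_pow]; exact pow_le_one₀ zero_le hx
  have h1 : v (x ^ 3 + W.a₂ * x ^ 2 + W.a₄ * x + W.a₆) ≤ 1 := by
    refine v.map_add_le (v.map_add_le (v.map_add_le hx3 ?_) ?_) hW.a₆
    · rw [map_mul]; exact mul_le_one' hW.a₂ hx2
    · rw [map_mul]; exact mul_le_one' hW.a₄ hx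
  have h2 : v (W.a₁ * x * y + W.a₃ * y) ≤ v y := by
    refine v.map_add_le ?_ ?_
    · rw [map_mul, map_mul]
      exact mul_le_of_le_one_left' (mul_le_one' hW.a₁ hx)
    · rw [map_mul]; exact mul_le_of_le_one_left' hW.a₃
  have h3 : v (y ^ 2) ≤ v y := by
    rw [e]; exact v.map_sub_le (h1.trans hy.le) h2
  have h4 : v y < v (y ^ 2) := by
    rw [map_pow, sq]
    calc v y = v y * 1 := (mul_one _).symm
      _ < v y * v y := mul_lt_mul_of_pos_left hy hpos
  exact absurd h3 (not_le.mpr h4)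

variable [DecidableEq L]

/-- Main abstract statement. -/
theorem no_odd_torsion_of_one_le_val_x {W : WeierstrassCurve L} (v : Valuation L Γ₀)
    (hF2 : ∀ z : L, v z ≤ 1 → v z < 1 ∨ v (z - 1) < 1)
    (ha1 : W.a₁ = 1) (ha3 : W.a₃ = 0) (ha6 : W.a₆ = 0) (ha2 : v W.a₂ ≤ 1) (ha4 : v W.a₄ < 1)
    {m : ℕ} (hm : Odd m) (hm3 : ¬ 3 ∣ m)
    {x y : L} (h : W.toAffine.Nonsingular x y) (hx : 1 ≤ v x)
    (hQ : m • (Point.some x y h : W.toAffine.Point) = 0) : False := by
  -- basic valuation facts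
  have hv1 : v (1 : L) = 1 := v.map_one
  have hv2le : v (2 : L) ≤ 1 := by
    have : (2 : L) = 1 + 1 := by norm_num
    rw [this]; exact v.map_add_le hv1.le hv1.le
  have hv2 : v (2 : L) < 1 := by
    rcases hF2 2 hv2le with h2 | h2
    · exact h2
    · exfalso
      have : (2 : L) - 1 = 1 := by norm_num
      rw [this, hv1] at h2
      exact lt_irrefl _ h2
  have hv4 : v (4 : L) < 1 := by
    have : (4 : L) = 2 * 2 := by norm_num
    rw [this, map_mul]
    exact lt_of_le_of_lt (mul_le_of_le_one_left' hv2le) hv2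
  have hW : Fermat.Agent.H26.IsIntegralAt v W.toAffine :=
    ⟨by rw [ha1, hv1], ha2, by rw [ha3, map_zero]; exact zero_le, ha4.le,
      by rw [ha6, map_zero]; exact zero_le⟩
  have hvm : v (m : L) = 1 := by
    obtain ⟨k, hk⟩ := hm
    have : (m : L) = 1 + 2 * (k : L) := by rw [hk]; push_cast; ring
    rw [this]
    apply v.map_one_add_of_lt
    rw [map_mul]
    exact lt_of_le_of_lt (mul_le_of_le_one_right' (Fermat.Agent.H26.val_natCast_le_one k)) hv2
  set Q : W.toAffine.Point := Point.some x y h with hQdef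
  have hQ0 : Q ≠ 0 := Point.some_ne_zero h
  -- the kernel of reduction has no `m`-torsion
  have hker : ∀ R : W.toAffine.Point, Fermat.Agent.H26.InKer v R → m • R = 0 → R = 0 :=
    fun R hR hmR => Fermat.Agent.H26.eq_zero_of_nsmul_eq_zero hW hR hvm hmR
  rcases lt_or_eq_of_le hx with hx1 | hx1
  · exact hQ0 (hker Q hx1 hQ)
  have hx1' : v x = 1 := hx1.symm
  -- `2 • Q ≠ 0`
  have h2Q : (2 : ℕ) • Q ≠ 0 := by
    intro h2
    obtain ⟨k, hk⟩ := hm
    apply hQ0
    have : m • Q = k • ((2 : ℕ) • Q) + Q := by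
      rw [hk, add_nsmul, one_nsmul, mul_comm 2 k, mul_nsmul']
    rw [this, h2, nsmul_zero, zero_add] at hQ
    exact hQ
  -- coordinates of `2 • Q`
  obtain ⟨x₂, y₂, h₂, h2eq⟩ : ∃ x₂ y₂ h₂, (2 : ℕ) • Q = Point.some x₂ y₂ h₂ := by
    rcases hR : (2 : ℕ) • Q with _ | ⟨x₂, y₂, h₂⟩
    · exact absurd hR h2Q
    · exact ⟨x₂, y₂, h₂, rfl⟩
  have hdup := Fermat.Agent.H70.some_two_nsmul_DUP W h2eq
  rw [← Fermat.Agent.H70.dblDen_eq_eval, ← Fermat.Agent.H70.psi3_eq_eval] at hdup
  have hb2 : W.b₂ = 1 + 4 * W.a₂ := by simp only [WeierstrassCurve.b₂, ha1]; ring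
  have hb4 : W.b₄ = 2 * W.a₄ := by simp only [WeierstrassCurve.b₄, ha3]; ring
  have hb6 : W.b₆ = 0 := by simp only [WeierstrassCurve.b₆, ha3, ha6]; ring
  have hb8 : W.b₈ = - W.a₄ ^ 2 := by simp only [WeierstrassCurve.b₈, ha3, ha6]; ring
  have hvx2 : v (x ^ 2) = 1 := by rw [map_pow, hx1', one_pow]
  have hvx3 : v (x ^ 3) = 1 := by rw [map_pow, hx1', one_pow]
  have hxm1 : v (x - 1) < 1 := by
    rcases hF2 x hx1'.le with h1 | h1
    · rw [hx1'] at h1; exact absurd h1 (lt_irrefl _)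
    · exact h1
  -- the denominator of the duplication formula is a unit
  have hden : v (Fermat.Agent.H38.dblDen W x) = 1 := by
    have e : Fermat.Agent.H38.dblDen W x
        = x ^ 2 + 4 * (x ^ 3 + W.a₂ * x ^ 2 + W.a₄ * x) := by
      simp only [Fermat.Agent.H38.dblDen, hb2, hb4, hb6]; ring
    rw [e, v.map_add_eq_of_lt_left, hvx2]
    rw [hvx2, map_mul]
    refine lt_of_le_of_lt (mul_le_of_le_one_right' ?_) hv4
    refine v.map_add_le (v.map_add_le hvx3.le ?_) ?_
    · rw [map_mul]; exact mul_le_one' ha2 hvx2.le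
    · rw [map_mul]; exact mul_le_one' ha4.le hx1'.le
  -- the numerator is in the maximal ideal
  have hnum : v (Fermat.Agent.H38.psi3 W x) < 1 := by
    have e : Fermat.Agent.H38.psi3 W x
        = x ^ 3 * (3 * (x - 1) + 4) + 4 * (W.a₂ * x ^ 3) + W.a₄ * (6 * x ^ 2 - W.a₄) := by
      simp only [Fermat.Agent.H38.psi3, hb2, hb4, hb6, hb8]; ring
    have hv3 : v (3 : L) ≤ 1 := by
      have := Fermat.Agent.H26.val_natCast_le_one (v := v) 3
      simpa using this
    have hv6 : v (6 : L) ≤ 1 := by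
      have := Fermat.Agent.H26.val_natCast_le_one (v := v) 6
      simpa using this
    rw [e]
    refine v.map_add_lt (v.map_add_lt ?_ ?_) ?_
    · rw [map_mul, hvx3, one_mul]
      refine v.map_add_lt ?_ hv4
      rw [map_mul]
      exact lt_of_le_of_lt (mul_le_of_le_one_left' hv3) hxm1
    · rw [map_mul]
      refine lt_of_le_of_lt (mul_le_of_le_one_right' ?_) hv4
      rw [map_mul]; exact mul_le_one' ha2 hvx3.le
    · rw [map_mul]
      refine lt_of_le_of_lt (mul_le_of_le_one_right' ?_) ha4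
      refine v.map_sub_le ?_ ha4.le
      rw [map_mul]; exact mul_le_one' hv6 hvx2.le
  have hxx₂ : v (x - x₂) < 1 := by
    have : v (x - x₂) * v (Fermat.Agent.H38.dblDen W x) = v (Fermat.Agent.H38.psi3 W x) := by
      rw [← map_mul, hdup]
    rw [hden, mul_one] at this
    rw [this]; exact hnum
  have hx₂x : v (x₂ - x) < 1 := by rw [v.map_sub_swap]; exact hxx₂
  have hvx₂ : v x₂ = 1 := by
    have e : x₂ = x - (x - x₂) := by ring
    rw [e, v.map_sub_eq_of_lt_left (by rw [hx1']; exact hxx₂), hx1']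
  have hy : v y ≤ 1 := val_y_le_one v hW h.1 hx1'.le
  have hy₂ : v y₂ ≤ 1 := val_y_le_one v hW h₂.1 hvx₂.le
  rcases hF2 (y₂ - y) (v.map_sub_le hy₂ hy) with hc | hc
  · -- `2 • Q` and `Q` have the same reduction: `Q` is in the kernel of reduction
    have hN : v (y₂ + y + W.toAffine.a₁ * x + W.toAffine.a₃) = 1 := by
      have e : y₂ + y + W.toAffine.a₁ * x + W.toAffine.a₃
          = 1 + ((y₂ - y) + 2 * y + (x - 1)) := by
        show y₂ + y + W.a₁ * x + W.a₃ = _
        rw [ha1, ha3]; ring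
      rw [e]
      apply v.map_one_add_of_lt
      refine v.map_add_lt (v.map_add_lt hc ?_) hxm1
      rw [map_mul]
      exact lt_of_le_of_lt (mul_le_of_le_one_right' hy) hv2
    have hk := inKer_sub_of_close v hW h h₂ hx1'.le hvx₂.le (Or.inl (by rw [hN]; exact hx₂x))
    rw [← h2eq] at hk
    have e : (2 : ℕ) • Q - Q = Q := by rw [two_nsmul, add_sub_cancel_right]
    rw [← hQdef, e] at hk
    have : 1 < v x := hk
    rw [hx1'] at this
    exact lt_irrefl _ this
  · -- `2 • Q` and `-Q` have the same reduction: `3 • Q` is in the kernel of reduction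
    have hneg : -Q = Point.some x (W.toAffine.negY x y) ((Affine.nonsingular_neg ..).mpr h) :=
      Point.neg_some h
    have hN : v (y₂ + W.toAffine.negY x y + W.toAffine.a₁ * x + W.toAffine.a₃) = 1 := by
      have e : y₂ + W.toAffine.negY x y + W.toAffine.a₁ * x + W.toAffine.a₃
          = 1 + (y₂ - y - 1) := by
        simp only [Affine.negY]; ring
      rw [e]
      exact v.map_one_add_of_lt hc
    have hk := inKer_sub_of_close v hW ((Affine.nonsingular_neg ..).mpr h) h₂ hx1'.le hvx₂.le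
      (Or.inl (by rw [hN]; exact hx₂x))
    rw [← h2eq, ← hneg, sub_neg_eq_add] at hk
    have e : (2 : ℕ) • Q + Q = (3 : ℕ) • Q := by
      rw [show (3 : ℕ) = 2 + 1 from rfl, add_nsmul, one_nsmul]
    rw [e] at hk
    have h3 : (3 : ℕ) • Q = 0 := by
      apply hker _ hk
      rw [← mul_nsmul, mul_comm, mul_nsmul, hQ, nsmul_zero]
    -- `gcd (3, m) = 1`
    have hd3 : addOrderOf Q ∣ 3 := addOrderOf_dvd_of_nsmul_eq_zero h3
    have hdm : addOrderOf Q ∣ m := addOrderOf_dvd_of_nsmul_eq_zero hQ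
    have hcop : Nat.Coprime 3 m := (Nat.Prime.coprime_iff_not_dvd Nat.prime_three).mpr hm3
    have h1 : addOrderOf Q = 1 := Nat.eq_one_of_dvd_coprimes hcop hd3 hdm
    exact hQ0 (AddMonoid.addOrderOf_eq_one_iff.mp h1)

end Fermat.Agent.H12
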