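/-
helper12 (P-S13, WP5(C)): a rational point of order `p` on the Frey curve cannot have an
`x`-coordinate which is a `2`-adic unit or non-integral at `2`.
-/
import Fermat.Agent.H12.S13Good
import Fermat.Agent.H3.FreyReduction

set_option autoImplicit false

namespace Fermat.Agent.H12

open WeierstrassCurve WeierstrassCurve.Affine

/-- The `2`-adic valuation of an integer is `< 1` iff the integer is even. -/
lemma padicValuation_two_int_lt_one_iff (n : ℤ) :
    Rat.padicValuation 2 (n : ℚ) < 1 ↔ (2 : ℤ) ∣ n := by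
  rw [Rat.padicValuation_cast]
  have hle := Int.padicValuation_le_one 2 n
  have hiff := Int.padicValuation_eq_one_iff (p := 2) (x := n)
  constructor
  · intro hlt
    by_contra hnd
    have : Int.padicValuation 2 n = 1 := hiff.mpr (by exact_mod_cast hnd)
    rw [this] at hlt
    exact lt_irrefl _ hlt
  · intro hd
    refine lt_of_le_of_ne hle ?_
    intro h1
    exact (hiff.mp h1) (by exact_mod_cast hd)

/-- The residue field of `ℚ` at `2` has two elements. -/
lemma padicValuation_two_resF2 (z : ℚ) (hz : Rat.padicValuation 2 z ≤ 1) :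
    Rat.padicValuation 2 z < 1 ∨ Rat.padicValuation 2 (z - 1) < 1 := by
  have hden : ¬ 2 ∣ z.den := Rat.padicValuation_le_one_iff.mp hz
  have hdenZ : ¬ (2 : ℤ) ∣ (z.den : ℤ) := by
    intro h; exact hden (by exact_mod_cast h)
  have hvden : Rat.padicValuation 2 ((z.den : ℤ) : ℚ) = 1 := by
    rw [Rat.padicValuation_cast]
    exact Int.padicValuation_eq_one_iff.mpr (by exact_mod_cast hdenZ)
  have hden0 : ((z.den : ℤ) : ℚ) ≠ 0 := by
    have := z.den_ne_zero
    exact_mod_cast this
  have hz' : z = (z.num : ℚ) / ((z.den : ℤ) : ℚ) := by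
    rw [Int.cast_natCast]; exact (Rat.num_div_den z).symm
  by_cases hnum : (2 : ℤ) ∣ z.num
  · left
    have : Rat.padicValuation 2 z = Rat.padicValuation 2 (z.num : ℚ) := by
      conv_lhs => rw [hz']
      rw [map_div₀, hvden, div_one]
    rw [this]
    exact (padicValuation_two_int_lt_one_iff _).mpr hnum
  · right
    have hsub : z - 1 = ((z.num - (z.den : ℤ) : ℤ) : ℚ) / ((z.den : ℤ) : ℚ) := by
      conv_lhs => rw [hz']
      field_simp
      push_cast
      ring
    have : Rat.padicValuation 2 (z - 1)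
        = Rat.padicValuation 2 ((z.num - (z.den : ℤ) : ℤ) : ℚ) := by
      rw [hsub, map_div₀, hvden, div_one]
    rw [this]
    apply (padicValuation_two_int_lt_one_iff _).mpr
    have h1 : z.num % 2 = 1 := by omega
    have h2 : (z.den : ℤ) % 2 = 1 := by omega
    omega

/-- `1 ≤ v₂(x)` (multiplicatively) when `x ≠ 0` has nonpositive additive `2`-adic valuation. -/
lemma one_le_padicValuation_two {x : ℚ} (hx : x ≠ 0) (hv : padicValRat 2 x ≤ 0) :
    1 ≤ Rat.padicValuation 2 x := by
  have : Rat.padicValuation 2 x = WithZero.exp (-padicValRat 2 x) := by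
    simp [Rat.padicValuation, hx]
  rw [this, ← WithZero.exp_zero]
  exact WithZero.exp_le_exp.mpr (by omega)

lemma frey_a₂_eq (P : FreyPackage) : P.freyCurve.a₂ = ((P.freyCurveInt.a₂ : ℤ) : ℚ) := by
  rw [← Fermat.Agent.H3.freyCurveInt_map P]; rfl

lemma frey_a₄_eq (P : FreyPackage) : P.freyCurve.a₄ = ((P.freyCurveInt.a₄ : ℤ) : ℚ) := by
  rw [← Fermat.Agent.H3.freyCurveInt_map P]; rfl

lemma frey_two_dvd_a₄ (P : FreyPackage) : (2 : ℤ) ∣ P.freyCurveInt.a₄ := by
  have h16 := Fermat.Agent.H3.frey_sixteen_mul_a₄ P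
  obtain ⟨c, hc⟩ := Fermat.Agent.H3.frey_thirtytwo_dvd_bpow P
  rw [hc] at h16
  refine ⟨-(P.a ^ P.p) * c, ?_⟩
  have : (16 : ℤ) * P.freyCurveInt.a₄ = 16 * (2 * (-(P.a ^ P.p) * c)) := by
    rw [h16]; ring
  exact mul_left_cancel₀ (by norm_num) this

/-- **(RT)** A rational point of order `p` on the Frey curve cannot have an `x`-coordinate
`x ≠ 0` with `v₂(x) ≤ 0`. -/
theorem frey_rational_torsion_nonnode (P : FreyPackage) {x y : ℚ}
    (h : P.freyCurve.toAffine.Nonsingular x y)
    (hP : P.p • (Point.some x y h : P.freyCurve.toAffine.Point) = 0)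
    (hx : x ≠ 0) (hv : padicValRat 2 x ≤ 0) : False := by
  refine no_odd_torsion_of_one_le_val_x (W := P.freyCurve) (Rat.padicValuation 2)
    padicValuation_two_resF2 rfl rfl rfl ?_ ?_ P.hp_odd ?_ h
    (one_le_padicValuation_two hx hv) hP
  · rw [frey_a₂_eq, Rat.padicValuation_cast]
    exact Int.padicValuation_le_one 2 _
  · rw [frey_a₄_eq]
    exact (padicValuation_two_int_lt_one_iff _).mpr (frey_two_dvd_a₄ P)
  · intro h3
    have := (Nat.prime_dvd_prime_iff_eq Nat.prime_three P.pp).mp h3
    have := P.hp5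
    omega

end Fermat.Agent.H12
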