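/-
helper12 (P-S13, QA/assembly check): S13 from the three inputs that are not landed yet
(unipotent inertia at 2, the global Minkowski lemma, the node statement for rational torsion
points at 2); everything else is taken from landed modules.
-/
import Fermat.Agent.H25.S13.Final
import Fermat.Agent.H4.FreyFinal
import Fermat.Agent.H74.DivPolyFrey
import Fermat.Agent.H92.S13WP4Pack
import Fermat.Agent.H9.S13.CaseCFinal
import Fermat.Agent.H12.S13FreyTwo

set_option autoImplicit false

open WeierstrassCurve WeierstrassCurve.Affine WeierstrassCurve.Affine.Point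

namespace Fermat.Agent.H12

/-- `hratQ` of the final assembly, from the node statement (helper71's announced shape). -/
theorem frey_hratQ_of_node (P : FreyPackage)
    (hG2 : ∀ {x y : ℚ} (h : P.freyCurve.toAffine.Nonsingular x y),
      P.p • (Point.some x y h : P.freyCurve.toAffine.Point) = 0 → x ≠ 0 ∧ padicValRat 2 x ≤ 0) :
    ∀ Q : (P.freyCurve⁄ℚ).Point, (P.p : ℤ) • Q = 0 → Q = 0 := by
  intro Q hQ
  rw [natCast_zsmul] at hQ
  rcases Q with _ | ⟨x, y, h⟩
  · rfl
  · exfalso
    have h' : P.freyCurve.toAffine.Nonsingular x y := h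
    have hQ' : P.p • (Point.some x y h' : P.freyCurve.toAffine.Point) = 0 := hQ
    obtain ⟨hx, hv⟩ := hG2 h' hQ'
    exact frey_rational_torsion_nonnode P h' hQ' hx hv

/-- `hlocp` of the final assembly, from WP4 (helper92) and WP6app (helper9). -/
theorem frey_hlocp (P : FreyPackage) :
    ∀ A : ValuationSubring (AlgebraicClosure ℚ), A.LiesOverPrime P.p →
      ∃ T : AddSubgroup (Submodule.torsionBy ℤ (P.freyCurve⁄(AlgebraicClosure ℚ)).Point P.p),
        (∀ σ ∈ A.inertiaSubgroupIn ℚ,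
          ∀ x : Submodule.torsionBy ℤ (P.freyCurve⁄(AlgebraicClosure ℚ)).Point P.p,
            σ • x - x ∈ T) ∧
        (T = ⊤ → GaloisRepIsIrreducible (K := AlgebraicClosure ℚ) ℚ P.freyCurve P.p) := by
  intro A hA
  have hp2 : P.p ≠ 2 := by have := P.hp5; omega
  set hW := Fermat.Agent.H92.frey_isIntegralAt_of_odd P P.pp hp2 A hA with hWdef
  refine ⟨(Fermat.Agent.H92.kerRedTorsion A P.freyCurve hW P.p).toAddSubgroup, ?_, ?_⟩
  · intro σ hσ x
    exact Fermat.Agent.H92.frey_inertia_sub_mem_kerRedTorsion_at_p P A hA hσ x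
  · intro hT
    by_contra hred
    obtain ⟨x, y, h, htor, hxA⟩ :=
      Fermat.Agent.H9.frey_exists_integral_torsion_of_reducible P A hA hred
    have htop : Fermat.Agent.H92.kerRedTorsion A P.freyCurve hW P.p = ⊤ := by
      rw [eq_top_iff]
      intro z _
      have : z ∈ (Fermat.Agent.H92.kerRedTorsion A P.freyCurve hW P.p).toAddSubgroup := by
        rw [hT]; exact AddSubgroup.mem_top z
      exact this
    exact (Fermat.Agent.H92.kerRedTorsion_eq_top_iff A P.freyCurve hW P.p).mp htop x y h htor hxA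

/-- **S13 from the three remaining inputs.** -/
theorem s13_of_remaining (P : FreyPackage)
    (h2 : ∀ A : ValuationSubring (AlgebraicClosure ℚ), A.LiesOverPrime 2 →
      ∀ σ ∈ A.inertiaSubgroupIn ℚ,
      ∀ x : Submodule.torsionBy ℤ (P.freyCurve⁄(AlgebraicClosure ℚ)).Point P.p,
        σ • (σ • x - x) = σ • x - x)
    (hG : ∀ (H : Subgroup (AlgebraicClosure ℚ ≃ₐ[ℚ] AlgebraicClosure ℚ)), H.Normal →
      ∀ (L : IntermediateField ℚ (AlgebraicClosure ℚ)), FiniteDimensional ℚ L →
      L.fixingSubgroup ≤ H → H ≠ ⊤ →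
      ∃ ℓ : ℕ, ℓ.Prime ∧ ∀ A : ValuationSubring (AlgebraicClosure ℚ),
        A.LiesOverPrime ℓ → ∃ σ ∈ A.inertiaSubgroupIn ℚ, σ ∉ H)
    (hG2 : ∀ {x y : ℚ} (h : P.freyCurve.toAffine.Nonsingular x y),
      P.p • (Point.some x y h : P.freyCurve.toAffine.Point) = 0 → x ≠ 0 ∧ padicValRat 2 x ≤ 0)
    (hred : ¬ GaloisRepIsIrreducible (K := AlgebraicClosure ℚ) ℚ P.freyCurve P.p) :
    HasGaloisStableCofixedLine (K := AlgebraicClosure ℚ) ℚ P.freyCurve P.p :=
  Fermat.Agent.H25.s13_of P
    (fun _ hq hq2 hqp => Fermat.Agent.H4.frey_unramified P hq hq2 hqp)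
    (Fermat.Agent.H74.frey_torsionBy P).1 (Fermat.Agent.H74.frey_torsionBy P).2.1
    (Fermat.Agent.H74.frey_torsionBy P).2.2 h2 (frey_hlocp P) hG (frey_hratQ_of_node P hG2) hred

end Fermat.Agent.H12
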