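/-
helper12 (P-S13): `E(ℚ)[p] = 0` for the Frey curve (WP5(C) complete), and S13 from the two
remaining inputs (unipotent inertia at 2, global Minkowski lemma).
-/
import Fermat.Agent.H12.S13Pre
import Fermat.Agent.H71.FreyTwo

set_option autoImplicit false

open WeierstrassCurve WeierstrassCurve.Affine WeierstrassCurve.Affine.Point

namespace Fermat.Agent.H12

/-- **No rational point of order `p` on the Frey curve** (coordinates form). -/
theorem frey_no_rational_torsion (P : FreyPackage) {x y : ℚ}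
    (h : P.freyCurve.toAffine.Nonsingular x y) :
    P.p • (Point.some x y h : P.freyCurve.toAffine.Point) ≠ 0 := by
  intro hP
  obtain ⟨hx, hv⟩ := Fermat.Agent.H71.frey_rational_torsion_two P h hP
  exact frey_rational_torsion_nonnode P h hP hx hv

/-- **`E(ℚ)[p] = 0` for the Frey curve**, in the shape `hratQ` of the final assembly. -/
theorem frey_hratQ (P : FreyPackage) :
    ∀ Q : (P.freyCurve⁄ℚ).Point, (P.p : ℤ) • Q = 0 → Q = 0 :=
  frey_hratQ_of_node P (fun h hP => Fermat.Agent.H71.frey_rational_torsion_two P h hP)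

/-- **S13 from the two remaining inputs.** -/
theorem s13_of_two (P : FreyPackage)
    (h2 : ∀ A : ValuationSubring (AlgebraicClosure ℚ), A.LiesOverPrime 2 →
      ∀ σ ∈ A.inertiaSubgroupIn ℚ,
      ∀ x : Submodule.torsionBy ℤ (P.freyCurve⁄(AlgebraicClosure ℚ)).Point P.p,
        σ • (σ • x - x) = σ • x - x)
    (hG : ∀ (H : Subgroup (AlgebraicClosure ℚ ≃ₐ[ℚ] AlgebraicClosure ℚ)), H.Normal →
      ∀ (L : IntermediateField ℚ (AlgebraicClosure ℚ)), FiniteDimensional ℚ L →
      L.fixingSubgroup ≤ H → H ≠ ⊤ →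
      ∃ ℓ : ℕ, ℓ.Prime ∧ ∀ A : ValuationSubring (AlgebraicClosure ℚ),
        A.LiesOverPrime ℓ → ∃ σ ∈ A.inertiaSubgroupIn ℚ, σ ∉ H)
    (hred : ¬ GaloisRepIsIrreducible (K := AlgebraicClosure ℚ) ℚ P.freyCurve P.p) :
    HasGaloisStableCofixedLine (K := AlgebraicClosure ℚ) ℚ P.freyCurve P.p :=
  s13_of_remaining P h2 hG (fun h hP => Fermat.Agent.H71.frey_rational_torsion_two P h hP) hred

end Fermat.Agent.H12
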