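/-
helper12 (P-S13): S13 from the single remaining input `h2` (inertia at `2` acts unipotently on
`E[p]`).
-/
import Fermat.Agent.H12.S13Rat
import Fermat.Agent.H79.GlobalRamified

set_option autoImplicit false

open WeierstrassCurve WeierstrassCurve.Affine WeierstrassCurve.Affine.Point

namespace Fermat.Agent.H12

/-- **S13 from the one remaining input**: unipotent inertia at `2`. -/
theorem s13_of_h2 (P : FreyPackage)
    (h2 : ∀ A : ValuationSubring (AlgebraicClosure ℚ), A.LiesOverPrime 2 →
      ∀ σ ∈ A.inertiaSubgroupIn ℚ,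
      ∀ x : Submodule.torsionBy ℤ (P.freyCurve⁄(AlgebraicClosure ℚ)).Point P.p,
        σ • (σ • x - x) = σ • x - x)
    (hred : ¬ GaloisRepIsIrreducible (K := AlgebraicClosure ℚ) ℚ P.freyCurve P.p) :
    HasGaloisStableCofixedLine (K := AlgebraicClosure ℚ) ℚ P.freyCurve P.p :=
  s13_of_two P h2
    (fun H hHn L hL hLH hH =>
      Fermat.Agent.H79.exists_prime_forall_exists_inertia_not_mem H hHn L hL hLH hH) hred

end Fermat.Agent.H12
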