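import Mathlib
import Fermat.Agent.H74.TwistInterfaces

/-!
# P-S52 / WP-C : interface with WP-B (helper12)

`HassePointStatement ℓ a b` is what WP-C consumes from WP-B: the Hasse relation
`2 (φ² - t φ + ℓ) P = 0` on all points of `y² = x³ + a x + b` over any field extension `L` of
`ZMod ℓ`, `φ` the `ℓ`-power Frobenius on coordinates and `t = ℓ + 1 - #E(𝔽_ℓ)`.
-/

set_option autoImplicit false

namespace Fermat.Agent.H12

open WeierstrassCurve

/-- The Hasse relation with trace `t` on all points of a Weierstrass curve over a field `k`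
(the nonsingularity of the Frobenius images is quantified, so any proofs may be plugged in). -/
def HasseRelOn {k : Type*} [Field k] [DecidableEq k] (Wk : WeierstrassCurve k) (ℓ : ℕ) (t : ℤ) :
    Prop :=
  ∀ (x y : k) (h : Wk.toAffine.Nonsingular x y)
    (h1 : Wk.toAffine.Nonsingular (x ^ ℓ) (y ^ ℓ))
    (h2 : Wk.toAffine.Nonsingular (x ^ ℓ ^ 2) (y ^ ℓ ^ 2)),
    (2 : ℤ) • (Affine.Point.some _ _ h2 - t • Affine.Point.some _ _ h1 +
      (ℓ : ℤ) • Affine.Point.some _ _ h) = 0

/-- **Output of WP-B**: the Hasse relation on the points of `y² = x³ + a x + b` over every field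
extension of `ZMod ℓ`. -/
def HassePointStatement (ℓ : ℕ) [Fact ℓ.Prime] (a b : ZMod ℓ) : Prop :=
  ∀ (L : Type) [Field L] [Algebra (ZMod ℓ) L] [DecidableEq L],
    HasseRelOn ((Fermat.Agent.H74.shortCurve a b).map (algebraMap (ZMod ℓ) L)) ℓ
      ((ℓ : ℤ) + 1 - Nat.card (Fermat.Agent.H74.shortCurve a b).toAffine.Point)

end Fermat.Agent.H12
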