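import Mathlib
import Fermat.Prelude.Def_FLTPrelim_GaloisRep
import Fermat.Prelude.Def_FLTPrelim_Ramification
import Fermat.Prelude.Def_EllipticCurve_FrobeniusTrace
import Fermat.Agent.H26.Reduction
import Fermat.Agent.H4.IntVal
import Fermat.Agent.H8.InertiaBasic
import Fermat.Agent.H12.S52CInterfaces

/-!
# P-S52 / WP-C : Frobenius glue (helper12)

Reduction of points at a valuation subring `A` of `L` commutes with a Frobenius element at `A`;
together with the Hasse relation on the special fibre this gives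
`σ² P - t σ P + ℓ P = 0` on prime-to-`2ℓ` torsion points.
-/

set_option autoImplicit false

namespace Fermat.Agent.H12

open WeierstrassCurve WeierstrassCurve.Affine Fermat.Agent.H26

section Equivariance

variable {K L : Type*} [Field K] [Field L] [Algebra K L] [DecidableEq L]
variable (A : ValuationSubring L) (E : WeierstrassCurve K)
variable (h₁ : (E⁄L).a₁ ∈ A) (h₂ : (E⁄L).a₂ ∈ A) (h₃ : (E⁄L).a₃ ∈ A) (h₄ : (E⁄L).a₄ ∈ A)
  (h₆ : (E⁄L).a₆ ∈ A)

/-- The reduction map of `E⁄L` at `A` (a wrapper around `Fermat.Agent.H26.redHom`). -/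
noncomputable def redAt [DecidableEq (IsLocalRing.ResidueField A)]
    (hΔ : ((modelOfMem A (E⁄L) h₁ h₂ h₃ h₄ h₆).map (IsLocalRing.residue A)).Δ ≠ 0) :
    (E⁄L).Point →+ ((modelOfMem A (E⁄L) h₁ h₂ h₃ h₄ h₆).map (IsLocalRing.residue A)).Point :=
  redHom A (IsLocalRing.residue A) (modelOfMem A (E⁄L) h₁ h₂ h₃ h₄ h₆) hΔ
    (residue_eq_zero_iff_mem_nonunits A)


variable [DecidableEq (IsLocalRing.ResidueField A)]
variable (hΔ : ((modelOfMem A (E⁄L) h₁ h₂ h₃ h₄ h₆).map (IsLocalRing.residue A)).Δ ≠ 0)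

lemma redAt_some_of_mem {x y : L} (h : (E⁄L).toAffine.Nonsingular x y) (hx : x ∈ A) :
    ∃ (hy : y ∈ A) (h' : ((modelOfMem A (E⁄L) h₁ h₂ h₃ h₄ h₆).map
        (IsLocalRing.residue A)).toAffine.Nonsingular
        (IsLocalRing.residue A ⟨x, hx⟩) (IsLocalRing.residue A ⟨y, hy⟩)),
      redAt A E h₁ h₂ h₃ h₄ h₆ hΔ (Point.some _ _ h) =
        Point.some (IsLocalRing.residue A ⟨x, hx⟩) (IsLocalRing.residue A ⟨y, hy⟩) h' :=
  redHom_some_of_mem (W₀ := modelOfMem A (E⁄L) h₁ h₂ h₃ h₄ h₆) hΔ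
    (residue_eq_zero_iff_mem_nonunits A) h hx

lemma redAt_some_of_not_mem {x y : L} (h : (E⁄L).toAffine.Nonsingular x y) (hx : x ∉ A) :
    redAt A E h₁ h₂ h₃ h₄ h₆ hΔ (Point.some _ _ h) = 0 :=
  redHom_some_of_not_mem (W₀ := modelOfMem A (E⁄L) h₁ h₂ h₃ h₄ h₆) hΔ
    (residue_eq_zero_iff_mem_nonunits A) h hx

lemma eq_zero_of_redAt_eq_zero {m : ℕ} (hm0 : (m : L) ≠ 0) (hm : (m : L)⁻¹ ∈ A)
    {P : (E⁄L).Point} (hP : m • P = 0) (hred : redAt A E h₁ h₂ h₃ h₄ h₆ hΔ P = 0) : P = 0 :=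
  eq_zero_of_redHom_eq_zero (W₀ := modelOfMem A (E⁄L) h₁ h₂ h₃ h₄ h₆) hΔ
    (residue_eq_zero_iff_mem_nonunits A) hm0 hm hP hred

omit [DecidableEq L] [DecidableEq (IsLocalRing.ResidueField A)] in
/-- A Frobenius element acts on the residue field by `x ↦ x ^ q`, in coordinates. -/
lemma residue_apply_of_isFrobeniusAt {σ : L ≃ₐ[K] L} {q : ℕ} (hσ : A.IsFrobeniusAt σ q)
    {x : L} (hx : x ∈ A) (hσx : σ x ∈ A) :
    IsLocalRing.residue A ⟨σ x, hσx⟩ = IsLocalRing.residue A ⟨x, hx⟩ ^ q := by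
  have h := hσ.smul_residue_eq (IsLocalRing.residue A ⟨x, hx⟩)
  rw [← h]
  rfl

/-- **Frobenius equivariance of the reduction map.** -/
theorem redAt_smul_of_isFrobeniusAt {σ : L ≃ₐ[K] L} {q : ℕ} (hσ : A.IsFrobeniusAt σ q)
    (P : (E⁄L).Point) :
    (redAt A E h₁ h₂ h₃ h₄ h₆ hΔ P = 0 → redAt A E h₁ h₂ h₃ h₄ h₆ hΔ (σ • P) = 0) ∧
    ∀ (x y : IsLocalRing.ResidueField A)
      (h : ((modelOfMem A (E⁄L) h₁ h₂ h₃ h₄ h₆).map
        (IsLocalRing.residue A)).toAffine.Nonsingular x y),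
      redAt A E h₁ h₂ h₃ h₄ h₆ hΔ P = Point.some x y h →
      ∃ h' : ((modelOfMem A (E⁄L) h₁ h₂ h₃ h₄ h₆).map
          (IsLocalRing.residue A)).toAffine.Nonsingular (x ^ q) (y ^ q),
        redAt A E h₁ h₂ h₃ h₄ h₆ hΔ (σ • P) = Point.some (x ^ q) (y ^ q) h' := by
  have hdec := hσ.mem_decompositionSubgroup
  rcases P with _ | ⟨x, y, h⟩
  · refine ⟨fun _ => ?_, fun x y h hP => ?_⟩
    · exact map_zero _
    · exact absurd ((map_zero (redAt A E h₁ h₂ h₃ h₄ h₆ hΔ)).symm.trans hP) (by simp)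
  · obtain ⟨hns, hσP⟩ : ∃ hns : (E⁄L).toAffine.Nonsingular (σ x) (σ y),
        σ • (Point.some x y h : (E⁄L).Point) = Point.some (σ x) (σ y) hns := ⟨_, rfl⟩
    by_cases hx : x ∈ A
    · obtain ⟨hy, h', hred⟩ := redAt_some_of_mem A E h₁ h₂ h₃ h₄ h₆ hΔ h hx
      have hσx : σ x ∈ A := Fermat.Agent.H8.apply_mem_of_mem_decomposition A hdec hx
      obtain ⟨hσy, h'', hred'⟩ := redAt_some_of_mem A E h₁ h₂ h₃ h₄ h₆ hΔ hns hσx
      refine ⟨fun h0 => ?_, fun x' y' hxy hP => ?_⟩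
      · rw [hred] at h0
        exact absurd h0 (by simp)
      · rw [hred] at hP
        have hinj := Point.some.inj hP
        obtain ⟨hx', hy'⟩ := hinj
        subst hx' hy'
        have e1 := residue_apply_of_isFrobeniusAt A hσ hx hσx
        have e2 := residue_apply_of_isFrobeniusAt A hσ hy hσy
        rw [hσP]
        obtain ⟨h3, h4⟩ := Red.some_congr h'' e1 e2
        exact ⟨h3, hred'.trans h4⟩
    · have hσx : σ x ∉ A := fun hh =>
        hx ((Fermat.Agent.H8.apply_mem_iff_of_mem_decomposition A hdec).1 hh)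
      refine ⟨fun _ => ?_, fun x' y' hxy hP => ?_⟩
      · rw [hσP]
        exact redAt_some_of_not_mem A E h₁ h₂ h₃ h₄ h₆ hΔ _ hσx
      · rw [redAt_some_of_not_mem A E h₁ h₂ h₃ h₄ h₆ hΔ h hx] at hP
        exact absurd hP.symm (by simp)


omit [DecidableEq (IsLocalRing.ResidueField A)] in
lemma smul_nsmul_point (σ : L ≃ₐ[K] L) (m : ℕ) (P : (E⁄L).Point) :
    σ • (m • P) = m • (σ • P) :=
  (Point.map (W' := E) σ.toAlgHom).map_nsmul m P

/-- **Frobenius relation on torsion, abstract form.**  If the special fibre satisfies the Hasse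
relation with trace `t`, then every Frobenius element `σ` at `A` satisfies
`σ² P - t σ P + ℓ P = 0` on the `m`-torsion of `E(L)`, `m` odd and a unit of `A`. -/
theorem frob_relation_of_hasseRelOn
    (hΔ : ((modelOfMem A (E⁄L) h₁ h₂ h₃ h₄ h₆).map (IsLocalRing.residue A)).Δ ≠ 0)
    {σ : L ≃ₐ[K] L} {ℓ : ℕ} (hσ : A.IsFrobeniusAt σ ℓ) (t : ℤ)
    (hH : HasseRelOn ((modelOfMem A (E⁄L) h₁ h₂ h₃ h₄ h₆).map (IsLocalRing.residue A)) ℓ t)
    {m : ℕ} (hm0 : (m : L) ≠ 0) (hm : (m : L)⁻¹ ∈ A) (hodd : Odd m)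
    (P : (E⁄L).Point) (hP : m • P = 0) :
    σ • σ • P - t • (σ • P) + (ℓ : ℤ) • P = 0 := by
  set red := redAt A E h₁ h₂ h₃ h₄ h₆ hΔ with hreddef
  -- torsion
  have hσP : m • (σ • P) = 0 := by rw [← smul_nsmul_point, hP, smul_zero]
  have hσσP : m • (σ • σ • P) = 0 := by rw [← smul_nsmul_point, hσP, smul_zero]
  have hQ : m • (σ • σ • P - t • (σ • P) + (ℓ : ℤ) • P) = 0 := by
    rw [smul_add, smul_sub, hσσP, smul_comm m t, hσP, smul_comm m (ℓ : ℤ), hP]
    simp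
  have h2Q : m • ((2 : ℤ) • (σ • σ • P - t • (σ • P) + (ℓ : ℤ) • P)) = 0 := by
    rw [smul_comm, hQ, smul_zero]
  -- it suffices to kill `2 • Q`
  suffices h2 : (2 : ℤ) • (σ • σ • P - t • (σ • P) + (ℓ : ℤ) • P) = 0 by
    obtain ⟨j, hj⟩ := hodd
    have h3 : (m : ℤ) • (σ • σ • P - t • (σ • P) + (ℓ : ℤ) • P) = 0 := by
      rw [natCast_zsmul]; exact hQ
    have h4 : ((m : ℤ) - (j : ℤ) * 2) • (σ • σ • P - t • (σ • P) + (ℓ : ℤ) • P) = 0 := by
      rw [sub_smul, h3, mul_smul, h2, smul_zero, sub_zero]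
    have h5 : (m : ℤ) - (j : ℤ) * 2 = 1 := by
      rw [hj]; push_cast; ring
    rw [h5, one_smul] at h4
    exact h4
  apply eq_zero_of_redAt_eq_zero A E h₁ h₂ h₃ h₄ h₆ hΔ hm0 hm h2Q
  rw [← hreddef, map_zsmul, map_add, map_sub, map_zsmul, map_zsmul]
  by_cases hz : red P = 0
  · -- `P` reduces to zero, so `P = 0`
    have hP0 : P = 0 := eq_zero_of_redAt_eq_zero A E h₁ h₂ h₃ h₄ h₆ hΔ hm0 hm hP hz
    have e1 : σ • (0 : (E⁄L).Point) = 0 := rfl
    rw [hP0, e1, e1, map_zero, zsmul_zero, zsmul_zero, sub_zero, add_zero, zsmul_zero]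
  · obtain ⟨x, y, h, hred⟩ : ∃ x y h, red P = Point.some x y h := by
      rcases hr : red P with _ | ⟨x, y, h⟩
      · exact absurd hr hz
      · exact ⟨x, y, h, rfl⟩
    obtain ⟨h1, hred1⟩ :=
      (redAt_smul_of_isFrobeniusAt A E h₁ h₂ h₃ h₄ h₆ hΔ hσ P).2 x y h hred
    obtain ⟨h2, hred2⟩ :=
      (redAt_smul_of_isFrobeniusAt A E h₁ h₂ h₃ h₄ h₆ hΔ hσ (σ • P)).2 _ _ h1 hred1
    have ex : (x ^ ℓ) ^ ℓ = x ^ ℓ ^ 2 := by rw [← pow_mul, sq]
    have ey : (y ^ ℓ) ^ ℓ = y ^ ℓ ^ 2 := by rw [← pow_mul, sq]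
    obtain ⟨h2', hcongr⟩ := Red.some_congr h2 ex ey
    rw [← hreddef] at hred1 hred2
    rw [hred1, hred2, hcongr, hred]
    exact hH x y h h1 h2'

end Equivariance

section Short

set_option linter.unusedSectionVars false

variable {L : Type} [Field L] [Algebra ℚ L] [DecidableEq L]

/-- residue of an integer -/
lemma residue_intCast_mk (A : ValuationSubring L) (n : ℤ) {x : L} (hx : x ∈ A) (h : x = (n : L)) :
    IsLocalRing.residue A ⟨x, hx⟩ = (n : IsLocalRing.ResidueField A) := by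
  subst h
  have : (⟨(n : L), hx⟩ : A) = (n : A) := Subtype.ext (by simp)
  rw [this, map_intCast]

lemma shortCurve_baseChange_a₁ (a b : ℤ) :
    ((Fermat.Agent.H74.shortCurve (a : ℚ) (b : ℚ))⁄L).a₁ = ((0 : ℤ) : L) := by
  simp [Fermat.Agent.H74.shortCurve, WeierstrassCurve.baseChange, WeierstrassCurve.map]

lemma shortCurve_baseChange_a₂ (a b : ℤ) :
    ((Fermat.Agent.H74.shortCurve (a : ℚ) (b : ℚ))⁄L).a₂ = ((0 : ℤ) : L) := by
  simp [Fermat.Agent.H74.shortCurve, WeierstrassCurve.baseChange, WeierstrassCurve.map]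

lemma shortCurve_baseChange_a₃ (a b : ℤ) :
    ((Fermat.Agent.H74.shortCurve (a : ℚ) (b : ℚ))⁄L).a₃ = ((0 : ℤ) : L) := by
  simp [Fermat.Agent.H74.shortCurve, WeierstrassCurve.baseChange, WeierstrassCurve.map]

lemma shortCurve_baseChange_a₄ (a b : ℤ) :
    ((Fermat.Agent.H74.shortCurve (a : ℚ) (b : ℚ))⁄L).a₄ = ((a : ℤ) : L) := by
  simp [Fermat.Agent.H74.shortCurve, WeierstrassCurve.baseChange, WeierstrassCurve.map]

lemma shortCurve_baseChange_a₆ (a b : ℤ) :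
    ((Fermat.Agent.H74.shortCurve (a : ℚ) (b : ℚ))⁄L).a₆ = ((b : ℤ) : L) := by
  simp [Fermat.Agent.H74.shortCurve, WeierstrassCurve.baseChange, WeierstrassCurve.map]

lemma intCast_mem_of_eq (A : ValuationSubring L) {x : L} (n : ℤ) (h : x = (n : L)) : x ∈ A := by
  rw [h]; exact intCast_mem A n

/-- The residue field of a valuation subring over `ℓ` has characteristic `ℓ`. -/
lemma charP_residueField (A : ValuationSubring L) {ℓ : ℕ} [Fact ℓ.Prime]
    (hA : A.LiesOverPrime ℓ) : CharP (IsLocalRing.ResidueField A) ℓ := by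
  have h0 : ((ℓ : ℕ) : IsLocalRing.ResidueField A) = 0 := by
    have h1 : IsLocalRing.residue A (ℓ : A) = 0 := by
      rw [residue_eq_zero_iff_mem_nonunits]
      have e : (((ℓ : ℕ) : A) : L) = ((ℓ : ℕ) : L) := by simp
      rw [e]
      exact hA
    rwa [map_natCast] at h1
  exact (CharP.charP_iff_prime_eq_zero (Fact.out : ℓ.Prime)).2 h0


/-- **WP-C, core.**  For integers `a, b`, a prime `ℓ` of good reduction of `y² = x³ + a x + b`,
a valuation subring `A` over `ℓ` and a Frobenius element `σ` at `A`: on `m`-torsion points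
(`m` odd, prime to `ℓ`) one has `σ² P - t σ P + ℓ P = 0`, `t = ℓ + 1 - #E(𝔽_ℓ)`,
provided the Hasse relation holds on the special fibre (WP-B). -/
theorem frob_relation_short (a b : ℤ) (ℓ : ℕ) [Fact ℓ.Prime]
    (hΔ : (Fermat.Agent.H74.shortCurve (a : ZMod ℓ) (b : ZMod ℓ)).Δ ≠ 0)
    (hH : HassePointStatement ℓ (a : ZMod ℓ) (b : ZMod ℓ))
    (A : ValuationSubring L) (hA : A.LiesOverPrime ℓ)
    {σ : L ≃ₐ[ℚ] L} (hσ : A.IsFrobeniusAt σ ℓ)
    {m : ℕ} (hodd : Odd m) (hmℓ : ¬ ℓ ∣ m)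
    (P : ((Fermat.Agent.H74.shortCurve (a : ℚ) (b : ℚ))⁄L).Point) (hP : m • P = 0) :
    σ • σ • P -
      ((ℓ : ℤ) + 1 -
        Nat.card (Fermat.Agent.H74.shortCurve (a : ZMod ℓ) (b : ZMod ℓ)).toAffine.Point) •
        (σ • P) + (ℓ : ℤ) • P = 0 := by
  classical
  have hℓ : ℓ.Prime := Fact.out
  have h₁ := intCast_mem_of_eq A 0 (shortCurve_baseChange_a₁ (L := L) a b)
  have h₂ := intCast_mem_of_eq A 0 (shortCurve_baseChange_a₂ (L := L) a b)
  have h₃ := intCast_mem_of_eq A 0 (shortCurve_baseChange_a₃ (L := L) a b)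
  have h₄ := intCast_mem_of_eq A a (shortCurve_baseChange_a₄ (L := L) a b)
  have h₆ := intCast_mem_of_eq A b (shortCurve_baseChange_a₆ (L := L) a b)
  have hchar : CharP (IsLocalRing.ResidueField A) ℓ := charP_residueField A hA
  let _ : Algebra (ZMod ℓ) (IsLocalRing.ResidueField A) :=
    ZMod.algebra (IsLocalRing.ResidueField A) ℓ
  have hWk : (modelOfMem A ((Fermat.Agent.H74.shortCurve (a : ℚ) (b : ℚ))⁄L) h₁ h₂ h₃ h₄ h₆).map
        (IsLocalRing.residue A) =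
      (Fermat.Agent.H74.shortCurve (a : ZMod ℓ) (b : ZMod ℓ)).map
        (algebraMap (ZMod ℓ) (IsLocalRing.ResidueField A)) := by
    ext
    · show IsLocalRing.residue A ⟨_, h₁⟩ = algebraMap _ _ _
      rw [residue_intCast_mk A 0 h₁ (shortCurve_baseChange_a₁ a b)]
      simp [Fermat.Agent.H74.shortCurve]
    · show IsLocalRing.residue A ⟨_, h₂⟩ = algebraMap _ _ _
      rw [residue_intCast_mk A 0 h₂ (shortCurve_baseChange_a₂ a b)]
      simp [Fermat.Agent.H74.shortCurve]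
    · show IsLocalRing.residue A ⟨_, h₃⟩ = algebraMap _ _ _
      rw [residue_intCast_mk A 0 h₃ (shortCurve_baseChange_a₃ a b)]
      simp [Fermat.Agent.H74.shortCurve]
    · show IsLocalRing.residue A ⟨_, h₄⟩ = algebraMap _ _ _
      rw [residue_intCast_mk A a h₄ (shortCurve_baseChange_a₄ a b)]
      simp [Fermat.Agent.H74.shortCurve]
    · show IsLocalRing.residue A ⟨_, h₆⟩ = algebraMap _ _ _
      rw [residue_intCast_mk A b h₆ (shortCurve_baseChange_a₆ a b)]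
      simp [Fermat.Agent.H74.shortCurve]
  have hΔ' : ((modelOfMem A ((Fermat.Agent.H74.shortCurve (a : ℚ) (b : ℚ))⁄L)
      h₁ h₂ h₃ h₄ h₆).map (IsLocalRing.residue A)).Δ ≠ 0 := by
    rw [hWk, WeierstrassCurve.map_Δ]
    exact (map_ne_zero_iff _ (algebraMap (ZMod ℓ) (IsLocalRing.ResidueField A)).injective).2 hΔ
  have hHk : HasseRelOn ((modelOfMem A ((Fermat.Agent.H74.shortCurve (a : ℚ) (b : ℚ))⁄L)
      h₁ h₂ h₃ h₄ h₆).map (IsLocalRing.residue A)) ℓ
      ((ℓ : ℤ) + 1 -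
        Nat.card (Fermat.Agent.H74.shortCurve (a : ZMod ℓ) (b : ZMod ℓ)).toAffine.Point) := by
    rw [hWk]
    exact hH (IsLocalRing.ResidueField A)
  have hchar0 : CharZero L := algebraRat.charZero L
  have hm0' : m ≠ 0 := by
    rintro rfl
    simp at hodd
  have hm0 : (m : L) ≠ 0 := Nat.cast_ne_zero.2 hm0'
  have hq : A.valuation ((ℓ : ℕ) : L) < 1 := by
    have := hA
    rw [ValuationSubring.LiesOverPrime, ValuationSubring.mem_nonunits_iff] at this
    exact this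
  have hval : A.valuation (m : L) = 1 :=
    Fermat.Agent.H4.val_natCast_eq_one_of_not_dvd A hℓ hq hmℓ
  have hm : (m : L)⁻¹ ∈ A := by
    rw [← ValuationSubring.valuation_le_one_iff, map_inv₀, hval, inv_one]
  exact frob_relation_of_hasseRelOn A (Fermat.Agent.H74.shortCurve (a : ℚ) (b : ℚ))
    h₁ h₂ h₃ h₄ h₆ hΔ' hσ _ hHk hm0 hm hodd P hP


/-- In an additive group, if `z ≠ 0`, `p • z = 0` with `p` prime and `n • z = 0`, then `p ∣ n`. -/
lemma prime_dvd_of_zsmul_eq_zero {G : Type*} [AddCommGroup G] {p : ℕ} (hp : p.Prime) {z : G}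
    (hz : z ≠ 0) (hpz : p • z = 0) {n : ℤ} (hn : n • z = 0) : (p : ℤ) ∣ n := by
  by_contra hnd
  have hcop : IsCoprime n (p : ℤ) := by
    have hp' : Prime (p : ℤ) := Nat.prime_iff_prime_int.mp hp
    exact ((Prime.coprime_iff_not_dvd hp').mpr hnd).symm
  obtain ⟨u, v, huv⟩ := hcop
  apply hz
  have h1 : (u * n + v * (p : ℤ)) • z = 0 := by
    rw [add_smul, mul_smul, hn, smul_zero, mul_smul, natCast_zsmul, hpz, smul_zero, add_zero]
  rwa [huv, one_smul] at h1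

/-- **WP-C, corollary for the glue.**  Two short curves over `ℤ` with good reduction at `ℓ`
whose `p`-torsion modules (`p` an odd prime `≠ ℓ`) are related by an injective additive map
commuting with a Frobenius element at `ℓ` have congruent traces of Frobenius modulo `p`. -/
theorem trace_congr_of_frobenius_equivariant (a b a' b' : ℤ) (ℓ : ℕ) [Fact ℓ.Prime]
    (hΔ : (Fermat.Agent.H74.shortCurve (a : ZMod ℓ) (b : ZMod ℓ)).Δ ≠ 0)
    (hΔ' : (Fermat.Agent.H74.shortCurve (a' : ZMod ℓ) (b' : ZMod ℓ)).Δ ≠ 0)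
    (hH : HassePointStatement ℓ (a : ZMod ℓ) (b : ZMod ℓ))
    (hH' : HassePointStatement ℓ (a' : ZMod ℓ) (b' : ZMod ℓ))
    (A : ValuationSubring L) (hA : A.LiesOverPrime ℓ)
    {σ : L ≃ₐ[ℚ] L} (hσ : A.IsFrobeniusAt σ ℓ)
    {p : ℕ} (hp : p.Prime) (hp2 : p ≠ 2) (hpℓ : p ≠ ℓ)
    (ψ : Submodule.torsionBy ℤ ((Fermat.Agent.H74.shortCurve (a : ℚ) (b : ℚ))⁄L).Point p →+
      Submodule.torsionBy ℤ ((Fermat.Agent.H74.shortCurve (a' : ℚ) (b' : ℚ))⁄L).Point p)
    (hψ : Function.Injective ψ) (hψσ : ∀ x, ψ (σ • x) = σ • ψ x)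
    (x : Submodule.torsionBy ℤ ((Fermat.Agent.H74.shortCurve (a : ℚ) (b : ℚ))⁄L).Point p)
    (hx : x ≠ 0) :
    (p : ℤ) ∣
      ((ℓ : ℤ) + 1 -
          Nat.card (Fermat.Agent.H74.shortCurve (a' : ZMod ℓ) (b' : ZMod ℓ)).toAffine.Point) -
        ((ℓ : ℤ) + 1 -
          Nat.card (Fermat.Agent.H74.shortCurve (a : ZMod ℓ) (b : ZMod ℓ)).toAffine.Point) := by
  have hℓ : ℓ.Prime := Fact.out
  have hodd : Odd p := hp.odd_of_ne_two hp2
  have hpℓ' : ¬ ℓ ∣ p := fun h => hpℓ ((Nat.prime_dvd_prime_iff_eq hℓ hp).1 h).symm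
  set t : ℤ := (ℓ : ℤ) + 1 -
    Nat.card (Fermat.Agent.H74.shortCurve (a : ZMod ℓ) (b : ZMod ℓ)).toAffine.Point with ht
  set t' : ℤ := (ℓ : ℤ) + 1 -
    Nat.card (Fermat.Agent.H74.shortCurve (a' : ZMod ℓ) (b' : ZMod ℓ)).toAffine.Point with ht'
  -- torsion facts
  have htors : ∀ {W : WeierstrassCurve ℚ} (z : Submodule.torsionBy ℤ (W⁄L).Point p),
      p • (z : (W⁄L).Point) = 0 := by
    intro W z
    have := z.2
    rw [Submodule.mem_torsionBy_iff] at this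
    rw [← natCast_zsmul]
    exact this
  -- relation on `E` for `x`
  have hrel := frob_relation_short a b ℓ hΔ hH A hA hσ hodd hpℓ' (x : _) (htors x)
  have hrel_sub : σ • σ • x - t • (σ • x) + (ℓ : ℤ) • x = 0 := by
    apply Subtype.ext
    exact hrel
  -- apply `ψ`
  have hrelψ : σ • σ • ψ x - t • (σ • ψ x) + (ℓ : ℤ) • ψ x = 0 := by
    have := congrArg ψ hrel_sub
    rw [map_zero, map_add, map_sub, map_zsmul, map_zsmul, hψσ, hψσ] at this
    exact this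
  -- relation on `E'` for `ψ x`
  have hrel' := frob_relation_short a' b' ℓ hΔ' hH' A hA hσ hodd hpℓ' (ψ x : _) (htors (ψ x))
  have hrel'_sub : σ • σ • ψ x - t' • (σ • ψ x) + (ℓ : ℤ) • ψ x = 0 := by
    apply Subtype.ext
    exact hrel'
  have hdiff : (t' - t) • (σ • ψ x) = 0 := by
    have h := congrArg₂ (· - ·) hrelψ hrel'_sub
    simp only [sub_zero] at h
    rw [sub_smul]
    rw [← h]
    abel
  have hψx : ψ x ≠ 0 := fun h => hx (hψ (h.trans (map_zero ψ).symm))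
  have hσψx : σ • ψ x ≠ 0 := by
    intro h
    apply hψx
    have h2 : Point.map (W' := Fermat.Agent.H74.shortCurve (a' : ℚ) (b' : ℚ)) σ.toAlgHom
        ((ψ x : _) : ((Fermat.Agent.H74.shortCurve (a' : ℚ) (b' : ℚ))⁄L).Point) =
        Point.map (W' := Fermat.Agent.H74.shortCurve (a' : ℚ) (b' : ℚ)) σ.toAlgHom 0 := by
      rw [map_zero]
      exact congrArg Subtype.val h
    exact Subtype.ext (Point.map_injective _ h2)
  have hpσ : p • (σ • ψ x) = 0 := by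
    apply Subtype.ext
    exact htors (σ • ψ x)
  exact prime_dvd_of_zsmul_eq_zero hp hσψx hpσ hdiff

end Short

end Fermat.Agent.H12
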