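import Mathlib
import Fermat.Prelude.Def_FLTPrelim_Modularity
import Fermat.Agent.H46.VariableChangePoint
import Fermat.Agent.H74.TwistInterfaces

/-!
# P-S52 : general Weierstrass model ↔ short model `y² = x³ - 27 c₄ x - 54 c₆` (helper12)

Over a field in which `6` is invertible, every Weierstrass curve `W` is carried by the change of
variables `u = 1/6, r = -b₂/12, s = -a₁/2, t = -(a₃ + r a₁)/2` to the short curve
`y² = x³ - 27 c₄ x - 54 c₆`.  Consequences: equality of point counts, hence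
`apOfModel W ℓ = ℓ + 1 - #E_short(𝔽_ℓ)` for every prime `ℓ ≥ 5`.
-/

set_option autoImplicit false

namespace Fermat.Agent.H12

open WeierstrassCurve

section Field

variable {K : Type*} [Field K]

/-- The change of variables to the short model `y² = x³ - 27 c₄ x - 54 c₆`. -/
def shortVC (W : WeierstrassCurve K) (h6 : (6 : K) ≠ 0) : VariableChange K :=
  ⟨Units.mk0 (6⁻¹ : K) (inv_ne_zero h6), -W.b₂ / 12, -W.a₁ / 2,
    -(W.a₃ + (-W.b₂ / 12) * W.a₁) / 2⟩

theorem shortVC_smul (W : WeierstrassCurve K) (h6 : (6 : K) ≠ 0) :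
    shortVC W h6 • W = Fermat.Agent.H74.shortCurve (-27 * W.c₄) (-54 * W.c₆) := by
  have h2 : (2 : K) ≠ 0 := fun h => h6 (by linear_combination 3 * h)
  have h3 : (3 : K) ≠ 0 := fun h => h6 (by linear_combination 2 * h)
  have h12 : (12 : K) ≠ 0 := by
    have : (12 : K) = 2 * 6 := by norm_num
    rw [this]; exact mul_ne_zero h2 h6
  have hu : (((shortVC W h6).u⁻¹ : Kˣ) : K) = 6 := by
    simp [shortVC]
  ext
  · rw [variableChange_a₁, hu]
    simp only [shortVC, Fermat.Agent.H74.shortCurve]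
    field_simp
    ring
  · rw [variableChange_a₂, hu]
    simp only [shortVC, Fermat.Agent.H74.shortCurve, WeierstrassCurve.b₂]
    field_simp
    ring
  · rw [variableChange_a₃, hu]
    simp only [shortVC, Fermat.Agent.H74.shortCurve]
    field_simp
    ring
  · rw [variableChange_a₄, hu]
    simp only [shortVC, Fermat.Agent.H74.shortCurve, WeierstrassCurve.b₂, WeierstrassCurve.c₄,
      WeierstrassCurve.b₄]
    field_simp
    ring
  · rw [variableChange_a₆, hu]
    simp only [shortVC, Fermat.Agent.H74.shortCurve, WeierstrassCurve.b₂, WeierstrassCurve.c₆,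
      WeierstrassCurve.b₄, WeierstrassCurve.b₆]
    field_simp
    ring

/-- Transport of points along an equality of curves. -/
noncomputable def pointCongr [DecidableEq K] {W W' : WeierstrassCurve K} (h : W = W') :
    W.toAffine.Point ≃+ W'.toAffine.Point := by
  subst h
  exact AddEquiv.refl _

lemma pointCongr_zero [DecidableEq K] {W W' : WeierstrassCurve K} (h : W = W') :
    pointCongr h 0 = 0 := map_zero _

lemma pointCongr_some [DecidableEq K] {W W' : WeierstrassCurve K} (h : W = W') {x y : K}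
    (hns : W.toAffine.Nonsingular x y) :
    ∃ hns' : W'.toAffine.Nonsingular x y,
      pointCongr h (Affine.Point.some x y hns) = Affine.Point.some x y hns' := by
  subst h
  exact ⟨hns, rfl⟩

/-- The additive equivalence between the points of the short model and the points of `W`:
`(X, Y) ↦ (X/36 - b₂/12, Y/216 - a₁ X/72 - (a₃ - a₁ b₂/12)/2)`. -/
noncomputable def shortPointEquiv [DecidableEq K] (W : WeierstrassCurve K) (h6 : (6 : K) ≠ 0) :
    (Fermat.Agent.H74.shortCurve (-27 * W.c₄) (-54 * W.c₆)).toAffine.Point ≃+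
      W.toAffine.Point :=
  (pointCongr (shortVC_smul W h6)).symm.trans (Fermat.Agent.H46.vcPointEquiv (shortVC W h6) W)

theorem natCard_short_eq (W : WeierstrassCurve K) (h6 : (6 : K) ≠ 0) :
    Nat.card (Fermat.Agent.H74.shortCurve (-27 * W.c₄) (-54 * W.c₆)).toAffine.Point =
      Nat.card W.toAffine.Point := by
  classical
  exact Nat.card_congr (shortPointEquiv W h6).toEquiv

end Field

section Integral

/-- `6` is invertible modulo a prime `ℓ ≥ 5`. -/
lemma six_ne_zero_zmod (ℓ : ℕ) [Fact ℓ.Prime] (h2 : ℓ ≠ 2) (h3 : ℓ ≠ 3) : (6 : ZMod ℓ) ≠ 0 := by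
  have hℓ : ℓ.Prime := Fact.out
  intro h
  have h6 : ((6 : ℕ) : ZMod ℓ) = 0 := by exact_mod_cast h
  rw [ZMod.natCast_eq_zero_iff] at h6
  have : ℓ ∣ 2 * 3 := by simpa using h6
  rcases (Nat.Prime.dvd_mul hℓ).1 this with h' | h'
  · exact h2 ((Nat.prime_dvd_prime_iff_eq hℓ Nat.prime_two).1 h')
  · exact h3 ((Nat.prime_dvd_prime_iff_eq hℓ Nat.prime_three).1 h')

/-- **(α1)** For an integral Weierstrass model `W` and a prime `ℓ ≥ 5`, the trace of Frobenius
`apOfModel W ℓ` is computed by the short model `y² = x³ - 27 c₄ x - 54 c₆` modulo `ℓ`. -/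
theorem apOfModel_eq_short (W : WeierstrassCurve ℤ) (ℓ : ℕ) [Fact ℓ.Prime] (h2 : ℓ ≠ 2)
    (h3 : ℓ ≠ 3) :
    W.apOfModel ℓ = (ℓ : ℤ) + 1 -
      Nat.card (Fermat.Agent.H74.shortCurve (((-27 * W.c₄ : ℤ)) : ZMod ℓ)
        (((-54 * W.c₆ : ℤ)) : ZMod ℓ)).toAffine.Point := by
  have h6 := six_ne_zero_zmod ℓ h2 h3
  have hcard := natCard_short_eq (W.reductionMod ℓ) h6
  have hc4 : (W.reductionMod ℓ).c₄ = ((W.c₄ : ℤ) : ZMod ℓ) := by
    simp [WeierstrassCurve.reductionMod, WeierstrassCurve.map_c₄]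
  have hc6 : (W.reductionMod ℓ).c₆ = ((W.c₆ : ℤ) : ZMod ℓ) := by
    simp [WeierstrassCurve.reductionMod, WeierstrassCurve.map_c₆]
  rw [hc4, hc6] at hcard
  unfold WeierstrassCurve.apOfModel WeierstrassCurve.traceOfFrobenius WeierstrassCurve.card
  rw [← hcard, Nat.card_eq_fintype_card, ZMod.card]
  push_cast
  rfl

/-- The discriminant of the short model modulo `ℓ` is nonzero at good primes `ℓ ≥ 5`. -/
theorem short_Δ_ne_zero_of_good (W : WeierstrassCurve ℤ) (ℓ : ℕ) [Fact ℓ.Prime] (h2 : ℓ ≠ 2)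
    (h3 : ℓ ≠ 3) (hgood : W.IsGoodPrimeFor ℓ) :
    (Fermat.Agent.H74.shortCurve (((-27 * W.c₄ : ℤ)) : ZMod ℓ)
        (((-54 * W.c₆ : ℤ)) : ZMod ℓ)).Δ ≠ 0 := by
  have h6 := six_ne_zero_zmod ℓ h2 h3
  have hc4 : (W.reductionMod ℓ).c₄ = ((W.c₄ : ℤ) : ZMod ℓ) := by
    simp [WeierstrassCurve.reductionMod, WeierstrassCurve.map_c₄]
  have hc6 : (W.reductionMod ℓ).c₆ = ((W.c₆ : ℤ) : ZMod ℓ) := by
    simp [WeierstrassCurve.reductionMod, WeierstrassCurve.map_c₆]
  have hsm := shortVC_smul (W.reductionMod ℓ) h6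
  rw [hc4, hc6] at hsm
  have e : (Fermat.Agent.H74.shortCurve (((-27 * W.c₄ : ℤ)) : ZMod ℓ)
        (((-54 * W.c₆ : ℤ)) : ZMod ℓ)) =
      shortVC (W.reductionMod ℓ) h6 • W.reductionMod ℓ := by
    rw [hsm]; push_cast; rfl
  rw [e, variableChange_Δ]
  refine mul_ne_zero (pow_ne_zero _ (Units.ne_zero _)) ?_
  unfold WeierstrassCurve.reductionMod
  rw [WeierstrassCurve.map_Δ]
  intro h
  apply hgood
  have : ((W.Δ : ℤ) : ZMod ℓ) = 0 := h
  exact (ZMod.intCast_zmod_eq_zero_iff_dvd _ _).1 this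

end Integral

end Fermat.Agent.H12
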