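import Mathlib
import Fermat.Agent.H12.S52C
import Fermat.Agent.H12.S52Short

/-!
# P-S52 : congruence of `apOfModel` from a Frobenius-equivariant map of torsion (helper12)

Combination of WP-C (`Fermat.Agent.H12.trace_congr_of_frobenius_equivariant`) with the
short-model transport (`Fermat.Agent.H12.apOfModel_eq_short`): the statement is about the
prelude invariant `WeierstrassCurve.apOfModel` of two arbitrary integral models.
-/

set_option autoImplicit false

namespace Fermat.Agent.H12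

open WeierstrassCurve WeierstrassCurve.Affine

variable {L : Type} [Field L] [Algebra ℚ L] [DecidableEq L]

/-- The short model over `ℚ` attached to an integral Weierstrass model:
`y² = x³ - 27 c₄ x - 54 c₆`. -/
noncomputable abbrev shortQ (W : WeierstrassCurve ℤ) : WeierstrassCurve ℚ :=
  Fermat.Agent.H74.shortCurve (((-27 * W.c₄ : ℤ)) : ℚ) (((-54 * W.c₆ : ℤ)) : ℚ)

/-- **Congruence of traces.**  `W, W'` integral models, `ℓ ≥ 5` a good prime of both, `σ` a
Frobenius element at a valuation subring `A` over `ℓ`, `p` an odd prime `≠ ℓ`.  If the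
`p`-torsion of the short model of `W` maps injectively and `σ`-equivariantly to the `p`-torsion
of the short model of `W'` and is nonzero, then `p ∣ a_ℓ(W') - a_ℓ(W)`. -/
theorem apOfModel_congr_of_frobenius_equivariant (W W' : WeierstrassCurve ℤ) (ℓ : ℕ)
    [Fact ℓ.Prime] (h2 : ℓ ≠ 2) (h3 : ℓ ≠ 3)
    (hg : W.IsGoodPrimeFor ℓ) (hg' : W'.IsGoodPrimeFor ℓ)
    (hH : HassePointStatement ℓ (((-27 * W.c₄ : ℤ)) : ZMod ℓ) (((-54 * W.c₆ : ℤ)) : ZMod ℓ))
    (hH' : HassePointStatement ℓ (((-27 * W'.c₄ : ℤ)) : ZMod ℓ) (((-54 * W'.c₆ : ℤ)) : ZMod ℓ))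
    (A : ValuationSubring L) (hA : A.LiesOverPrime ℓ)
    {σ : L ≃ₐ[ℚ] L} (hσ : A.IsFrobeniusAt σ ℓ)
    {p : ℕ} (hp : p.Prime) (hp2 : p ≠ 2) (hpℓ : p ≠ ℓ)
    (ψ : Submodule.torsionBy ℤ ((shortQ W)⁄L).Point p →+
      Submodule.torsionBy ℤ ((shortQ W')⁄L).Point p)
    (hψ : Function.Injective ψ) (hψσ : ∀ x, ψ (σ • x) = σ • ψ x)
    (x : Submodule.torsionBy ℤ ((shortQ W)⁄L).Point p) (hx : x ≠ 0) :
    (p : ℤ) ∣ W'.apOfModel ℓ - W.apOfModel ℓ := by
  rw [apOfModel_eq_short W ℓ h2 h3, apOfModel_eq_short W' ℓ h2 h3]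
  exact trace_congr_of_frobenius_equivariant (-27 * W.c₄) (-54 * W.c₆) (-27 * W'.c₄)
    (-54 * W'.c₆) ℓ (short_Δ_ne_zero_of_good W ℓ h2 h3 hg)
    (short_Δ_ne_zero_of_good W' ℓ h2 h3 hg') hH hH' A hA hσ hp hp2 hpℓ ψ hψ hψσ x hx

end Fermat.Agent.H12
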