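import Mathlib
import Fermat.Prelude.Def_FLTPrelim_ModularRep
import Fermat.Agent.H37.ThreeTorsionQ

/-!
# P-S52 : irreducibility mod 3 from the short 3-division polynomial (helper12)

For an integral Weierstrass model `W` with `Δ ≠ 0`: if the 3-division polynomial
`3y⁴ + 6Ay² + 12By - A²` of the short model `y² = x³ + Ax + B`, `A = -27 c₄`, `B = -54 c₆`,
has no rational root, then the mod-3 representation of `W` is irreducible.
-/

set_option autoImplicit false

namespace Fermat.Agent.H12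

open WeierstrassCurve

/-- The 3-division polynomials of `W` and of its short model correspond under
`X = 36 x + 3 b₂`. -/
theorem short_psi3_identity {R : Type*} [CommRing R] (W : WeierstrassCurve R) (x : R) :
    3 * (36 * x + 3 * W.b₂) ^ 4 + 6 * (-27 * W.c₄) * (36 * x + 3 * W.b₂) ^ 2
        + 12 * (-54 * W.c₆) * (36 * x + 3 * W.b₂) - (-27 * W.c₄) ^ 2 =
      6 ^ 8 * (3 * x ^ 4 + W.b₂ * x ^ 3 + 3 * W.b₄ * x ^ 2 + 3 * W.b₆ * x + W.b₈) := by
  simp only [WeierstrassCurve.c₄, WeierstrassCurve.c₆, WeierstrassCurve.b₂, WeierstrassCurve.b₄,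
    WeierstrassCurve.b₆, WeierstrassCurve.b₈]
  ring

/-- **Irreducibility mod 3 from the short model.** -/
theorem modRepIsIrreducible_three_of_short (W : WeierstrassCurve ℤ) (hΔ : W.Δ ≠ 0)
    (h : ∀ y : ℚ, 3 * y ^ 4 + 6 * (((-27 * W.c₄ : ℤ)) : ℚ) * y ^ 2
      + 12 * (((-54 * W.c₆ : ℤ)) : ℚ) * y - (((-27 * W.c₄ : ℤ)) : ℚ) ^ 2 ≠ 0) :
    W.ModRepIsIrreducible 3 := by
  by_contra hred
  obtain ⟨q, hq⟩ := Fermat.Agent.H37.exists_rat_root_psi3 W hΔ hred
  apply h (36 * q + 3 * (W.b₂ : ℚ))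
  have key := short_psi3_identity (W.map (Int.castRingHom ℚ)) q
  simp only [map_b₂, map_b₄, map_b₆, map_b₈, map_c₄, map_c₆, eq_intCast] at key
  push_cast
  rw [key, hq, mul_zero]

end Fermat.Agent.H12
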