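/-
P-CFT / TATE block, row 484 (TATE-TWIN), helper12.

The general twin-number criterion by dimension shifting:
if `Ĥ^q(S, M) = Ĥ^{q+1}(S, M) = 0` for all subgroups `S ≤ G`, then `M` is cohomologically
trivial.  Formal assembly from the interface statements of `Fermat.Agent.H24.Tate.Interfaces`.
-/
import Fermat.Agent.H24.Tate.Interfaces

set_option autoImplicit false

open CategoryTheory

namespace Fermat.Agent.H12

open Fermat.Agent.H24

section

variable {G : Type} [Group G] [Fintype G]

/-- Vanishing in degrees `-1, 0` for all subgroups implies vanishing in degree `1`. -/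
theorem tateTwin_elem_up (hb0 : BridgeH0Statement) (hbm1 : BridgeHm1Statement)
    (hb1 : BridgeH1Statement) (he1 : TwinE1Statement) (M : Rep ℤ G)
    (hm1 : TateVanishAt M (-1)) (h0 : TateVanishAt M 0) : TateVanishAt M 1 := by
  classical
  intro S _
  rw [hb1 G M S]
  refine @he1 G _ _ M.V M.hV1 M.hV2 M.ρ (fun S' => ?_) S
  exact ⟨(hbm1 G M S').1 (hm1 S'), (hb0 G M S').1 (h0 S')⟩

/-- Vanishing in degrees `0, 1` for all subgroups implies vanishing in degree `-1`. -/
theorem tateTwin_elem_down (hb0 : BridgeH0Statement) (hbm1 : BridgeHm1Statement)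
    (hb1 : BridgeH1Statement) (he2 : TwinE2Statement) (M : Rep ℤ G)
    (h0 : TateVanishAt M 0) (h1 : TateVanishAt M 1) : TateVanishAt M (-1) := by
  classical
  intro S _
  rw [hbm1 G M S]
  refine @he2 G _ _ M.V M.hV1 M.hV2 M.ρ (fun S' => ?_) S
  exact ⟨(hb0 G M S').1 (h0 S'), (hb1 G M S').1 (h1 S')⟩

/-- Dimension shifting, upwards: there is `M⁺` with `Ĥ^q(S, M⁺) ≅ Ĥ^{q+1}(S, M)`. -/
theorem tateTwin_exists_shift_up (hs : ShiftStatement) (hi : ShiftIsoStatement) (M : Rep ℤ G) :
    ∃ Mp : Rep ℤ G, ∀ q : ℤ, TateVanishAt Mp q ↔ TateVanishAt M (q + 1) := by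
  obtain ⟨I, i, -, hmono, -, hI⟩ := hs G M
  have hex : (ShortComplex.mk i (Limits.cokernel.π i) (by simp)).ShortExact :=
    { exact := ShortComplex.exact_cokernel i
      mono_f := hmono
      epi_g := inferInstanceAs (Epi (Limits.cokernel.π i)) }
  refine ⟨Limits.cokernel i, fun q => ⟨fun h S _ => ?_, fun h S _ => ?_⟩⟩
  · obtain ⟨e⟩ := hi G _ hex hI S q
    exact (h S).of_iso e.symm
  · obtain ⟨e⟩ := hi G _ hex hI S q
    exact (h S).of_iso e

/-- Dimension shifting, downwards: there is `M⁻` with `Ĥ^{q+1}(S, M⁻) ≅ Ĥ^q(S, M)`. -/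
theorem tateTwin_exists_shift_down (hs : ShiftStatement) (hi : ShiftIsoStatement) (M : Rep ℤ G) :
    ∃ Mm : Rep ℤ G, ∀ q : ℤ, TateVanishAt Mm (q + 1) ↔ TateVanishAt M q := by
  obtain ⟨I, -, p, -, hepi, hI⟩ := hs G M
  have hex : (ShortComplex.mk (Limits.kernel.ι p) p (by simp)).ShortExact :=
    { exact := ShortComplex.exact_kernel p
      mono_f := inferInstanceAs (Mono (Limits.kernel.ι p))
      epi_g := hepi }
  refine ⟨Limits.kernel p, fun q => ⟨fun h S _ => ?_, fun h S _ => ?_⟩⟩
  · obtain ⟨e⟩ := hi G _ hex hI S q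
    exact (h S).of_iso e
  · obtain ⟨e⟩ := hi G _ hex hI S q
    exact (h S).of_iso e.symm

/-- An implication between vanishing statements in fixed relative degrees, valid for all
modules, can be shifted to any other base degree. -/
theorem tateTwin_shift_invariant (hs : ShiftStatement) (hi : ShiftIsoStatement) (a b c : ℤ)
    (q₀ : ℤ)
    (h₀ : ∀ M : Rep ℤ G, TateVanishAt M (q₀ + a) → TateVanishAt M (q₀ + b) →
      TateVanishAt M (q₀ + c)) (q : ℤ) :
    ∀ M : Rep ℤ G, TateVanishAt M (q + a) → TateVanishAt M (q + b) → TateVanishAt M (q + c) := by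
  induction q using Int.inductionOn' (b := q₀) with
  | zero => exact h₀
  | succ k _ ih =>
    intro M ha hb
    obtain ⟨Mp, hMp⟩ := tateTwin_exists_shift_up hs hi M
    have e : ∀ x : ℤ, k + 1 + x = k + x + 1 := fun x => by ring
    rw [e] at ha hb ⊢
    exact (hMp _).1 (ih Mp ((hMp _).2 ha) ((hMp _).2 hb))
  | pred k _ ih =>
    intro M ha hb
    obtain ⟨Mm, hMm⟩ := tateTwin_exists_shift_down hs hi M
    have e : ∀ x : ℤ, k + x = k - 1 + x + 1 := fun x => by ring
    have hc := ih Mm (by rw [e]; exact (hMm _).2 ha) (by rw [e]; exact (hMm _).2 hb)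
    rw [e] at hc
    exact (hMm _).1 hc

/-- Upward step of the twin-number criterion in any degree. -/
theorem tateTwin_step_up (hs : ShiftStatement) (hi : ShiftIsoStatement)
    (hb0 : BridgeH0Statement) (hbm1 : BridgeHm1Statement) (hb1 : BridgeH1Statement)
    (he1 : TwinE1Statement) (M : Rep ℤ G) (q : ℤ)
    (h0 : TateVanishAt M q) (h1 : TateVanishAt M (q + 1)) : TateVanishAt M (q + 2) := by
  refine tateTwin_shift_invariant hs hi 0 1 2 (-1) (fun M ha hb => ?_) q M
    (by simpa using h0) h1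
  exact tateTwin_elem_up hb0 hbm1 hb1 he1 M (by simpa using ha) (by simpa using hb)

/-- Downward step of the twin-number criterion in any degree. -/
theorem tateTwin_step_down (hs : ShiftStatement) (hi : ShiftIsoStatement)
    (hb0 : BridgeH0Statement) (hbm1 : BridgeHm1Statement) (hb1 : BridgeH1Statement)
    (he2 : TwinE2Statement) (M : Rep ℤ G) (q : ℤ)
    (h0 : TateVanishAt M q) (h1 : TateVanishAt M (q + 1)) : TateVanishAt M (q - 1) := by
  have h := tateTwin_shift_invariant hs hi 0 1 (-1) 0 (fun M ha hb => ?_) q M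
    (by simpa using h0) h1
  · simpa [sub_eq_add_neg] using h
  · exact tateTwin_elem_down hb0 hbm1 hb1 he2 M (by simpa using ha) (by simpa using hb)

end

/-- **T-TWIN** The twin-number criterion. -/
theorem tateTwinCriterion (hs : ShiftStatement) (hi : ShiftIsoStatement)
    (hb0 : BridgeH0Statement) (hbm1 : BridgeHm1Statement) (hb1 : BridgeH1Statement)
    (he1 : TwinE1Statement) (he2 : TwinE2Statement) : TwinCriterionStatement := by
  intro G _ _ M q h0 h1
  have key : ∀ n : ℤ, TateVanishAt M n ∧ TateVanishAt M (n + 1) := by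
    intro n
    induction n using Int.inductionOn' (b := q) with
    | zero => exact ⟨h0, h1⟩
    | succ k _ ih =>
      refine ⟨ih.2, ?_⟩
      have := tateTwin_step_up hs hi hb0 hbm1 hb1 he1 M k ih.1 ih.2
      rwa [show k + 1 + 1 = k + 2 by ring]
    | pred k _ ih =>
      refine ⟨tateTwin_step_down hs hi hb0 hbm1 hb1 he2 M k ih.1 ih.2, ?_⟩
      rw [sub_add_cancel]
      exact ih.1
  exact fun n => (key n).1

end Fermat.Agent.H12
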