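/-
P-DS row 542 (ES1-THETA), helper12.

`B` a finitely generated abelian group, `T` a commutative ring acting faithfully on `B`,
`θ : T →+* k` a ring homomorphism to a field of characteristic `p > 0`.  Then there is a nonzero
additive `w : B → k` with `w (t • b) = θ t * w b`.
-/
import Fermat.Agent.H29.ES1.GenInterfaces

set_option autoImplicit false

namespace Fermat.Agent.H12

/-- A commutative ring acting faithfully on a finitely generated abelian group is a finitely
generated abelian group. -/
theorem thetaEigen_finite_int (B : Type) [AddCommGroup B] [Module.Finite ℤ B] (T : Type)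
    [CommRing T] [Module T B] [FaithfulSMul T B] : Module.Finite ℤ T := by
  obtain ⟨n, s, hs⟩ := Module.Finite.exists_fin (R := ℤ) (M := B)
  let f : T →ₗ[ℤ] (Fin n → B) :=
    { toFun := fun t i => t • s i
      map_add' := fun t t' => funext fun i => add_smul t t' (s i)
      map_smul' := fun c t => funext fun i => by
        simp only [RingHom.id_apply, Pi.smul_apply]
        exact smul_assoc c t (s i) }
  have hf : Function.Injective f := by
    intro t t' h
    refine FaithfulSMul.eq_of_smul_eq_smul (α := B) fun b => ?_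
    have hb : b ∈ Submodule.span ℤ (Set.range s) := hs ▸ Submodule.mem_top
    induction hb using Submodule.span_induction with
    | mem x hx =>
      obtain ⟨i, rfl⟩ := hx
      exact congrFun h i
    | zero => simp
    | add x y _ _ hx hy => rw [smul_add, smul_add, hx, hy]
    | smul c x _ hx => rw [smul_comm t c x, smul_comm t' c x, hx]
  exact Module.Finite.of_injective f hf

/-- The kernel of a ring homomorphism from a finitely generated abelian group (as a ring) to a
field of positive characteristic is a maximal ideal. -/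
theorem thetaEigen_ker_isMaximal (T : Type) [CommRing T] [Module.Finite ℤ T] (k : Type) [Field k]
    (p : ℕ) [CharP k p] (hp : p.Prime) (θ : T →+* k) : (RingHom.ker θ).IsMaximal := by
  have : Fact p.Prime := ⟨hp⟩
  -- the quotient is a domain of characteristic `p`
  have : (RingHom.ker θ).IsPrime := RingHom.ker_isPrime θ
  have hinj : Function.Injective (RingHom.kerLift θ) := RingHom.kerLift_injective θ
  have : CharP (T ⧸ RingHom.ker θ) p := by
    refine (CharP.charP_iff_prime_eq_zero hp).2 ?_
    apply hinj
    rw [map_natCast, map_zero]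
    exact CharP.cast_eq_zero k p
  let _ : Algebra (ZMod p) (T ⧸ RingHom.ker θ) := ZMod.algebra _ p
  have : Module.Finite ℤ (T ⧸ RingHom.ker θ) :=
    Module.Finite.of_surjective (Ideal.Quotient.mk (RingHom.ker θ)).toIntAlgHom.toLinearMap
      Ideal.Quotient.mk_surjective
  have : Module.Finite (ZMod p) (T ⧸ RingHom.ker θ) :=
    Module.Finite.of_restrictScalars_finite ℤ (ZMod p) (T ⧸ RingHom.ker θ)
  have : Finite (T ⧸ RingHom.ker θ) := Module.finite_of_finite (ZMod p)
  exact Ideal.Quotient.maximal_of_isField _ (Finite.isField_of_domain _)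

/-- **ES1-THETA.** -/
theorem thetaEigen : Fermat.Agent.H29.ES1.ThetaEigenStatement := by
  intro B _ _ T _ _ _ k _ p _ hp θ
  have hTfin : Module.Finite ℤ T := thetaEigen_finite_int B T
  have hmax : (RingHom.ker θ).IsMaximal := thetaEigen_ker_isMaximal T k p hp θ
  let 𝔪 : Ideal T := RingHom.ker θ
  let _ : Field (T ⧸ 𝔪) := Ideal.Quotient.field 𝔪
  -- `B ≠ 𝔪 B` by Nakayama
  have hBfin : Module.Finite T B := Module.Finite.of_restrictScalars_finite ℤ T B
  have hne : (𝔪 • (⊤ : Submodule T B)) ≠ ⊤ := by
    intro htop
    obtain ⟨t, ht1, ht0⟩ := Submodule.exists_sub_one_mem_and_smul_eq_zero_of_fg_of_le_smul 𝔪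
      (⊤ : Submodule T B) hBfin.1 (le_of_eq htop.symm)
    have ht : t = 0 := by
      refine FaithfulSMul.eq_of_smul_eq_smul (α := B) fun b => ?_
      rw [ht0 b Submodule.mem_top, zero_smul]
    rw [ht, zero_sub, neg_mem_iff] at ht1
    exact hmax.ne_top ((Ideal.eq_top_iff_one 𝔪).2 ht1)
  -- a nonzero element of `V = B / 𝔪 B` and a functional not vanishing on it
  obtain ⟨b₀, -, hb₀⟩ := SetLike.exists_of_lt (lt_top_iff_ne_top.2 hne)
  have hv : (Submodule.Quotient.mk b₀ : B ⧸ (𝔪 • (⊤ : Submodule T B))) ≠ 0 := by
    rwa [Ne, Submodule.Quotient.mk_eq_zero]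
  obtain ⟨lam, hlam⟩ := Module.Projective.exists_dual_ne_zero (T ⧸ 𝔪) hv
  -- the eigenvector
  let w : B →+ k :=
    { toFun := fun b => RingHom.kerLift θ (lam (Submodule.Quotient.mk b))
      map_zero' := by simp
      map_add' := fun b b' => by simp }
  refine ⟨w, ?_, fun t b => ?_⟩
  · intro hw
    have h0 : w b₀ = 0 := by rw [hw]; rfl
    exact hlam ((map_eq_zero_iff _ (RingHom.kerLift_injective θ)).1 h0)
  · show RingHom.kerLift θ (lam (Submodule.Quotient.mk (t • b))) =
      θ t * RingHom.kerLift θ (lam (Submodule.Quotient.mk b))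
    rw [← Module.Quotient.mk_smul_mk, map_smul, smul_eq_mul, map_mul, RingHom.kerLift_mk]

end Fermat.Agent.H12
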